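/-
S55 moonshot — LAYER K, block AR (ARITHMETIC CORE): definitions.        Architect: helper4.
Namespace `Fermat.Agent.S55.K.AR`.  No `sorry`.  Blueprint: `coord/S55-K-AR.md`.

Vocabulary = the tower (`Spec/Tower*.lean`, `Spec/Datum3.lean`, helper55) and the tower objects
of helper474 (`E1/Lim/Obj.lean`: `sUnits L = E(F)`, `Jtot L = ∏_{q ∈ S} J_q(F)`, `C1 D L = im(J → C)`,
`diagTot`, `jTot`, `jC1`, `inclC1`, `trS`, `trJtot`, `trC1`, `ses`).

New here: cohomology of SUBGROUPS `H ≤ Gal(F/ℚ)` (relative extensions `F/K`, `K = F^H`) and the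
inflation maps `Hⁿ(H, A(F)) → Hⁿ(H', A(F'))`, `H' = ` preimage of `H` in `Gal(F'/ℚ)`.
-/
import Fermat.Agent.S55.E1.Lim.Obj
import Fermat.Agent.S55.Spec.Datum3
import Fermat.Agent.S55.T.Spec

set_option autoImplicit false

open CategoryTheory

namespace Fermat.Agent.S55.K.AR

open Fermat.Agent.S55 Fermat.Agent.S55.Tow

noncomputable section

variable {S : Finset Nat.Primes}

/-! ## Cohomology of subgroups -/

section General

variable {Γ Γ' : Type} [Group Γ] [Group Γ']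

/-- `Hⁿ(H, A)` for a subgroup `H ≤ Γ`. -/
abbrev Hn (H : Subgroup Γ) (A : Rep.{0} ℤ Γ) (n : ℕ) : ModuleCat.{0} ℤ :=
  groupCohomology (T.resSub A H) n

/-- The map `Hⁿ(H, A) → Hⁿ(H, B)` induced by `f : A ⟶ B`. -/
abbrev coe (H : Subgroup Γ) {A B : Rep.{0} ℤ Γ} (f : A ⟶ B) (n : ℕ) : Hn H A n →ₗ[ℤ] Hn H B n :=
  (T.coeffMap ((Rep.resFunctor H.subtype).map f) n).hom

/-- The restriction of `π : Γ' → Γ` to the preimage of `H`. -/
abbrev projSub (π : Γ' →* Γ) (H : Subgroup Γ) : ↥(H.comap π) →* ↥H := π.subgroupComap H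

/-- A semilinear map `t : Res_π A ⟶ A'` restricted to the preimage of `H`. -/
def semiSub (π : Γ' →* Γ) (H : Subgroup Γ) {A : Rep.{0} ℤ Γ} {A' : Rep.{0} ℤ Γ'}
    (t : Rep.res π A ⟶ A') :
    Rep.res (projSub π H) (T.resSub A H) ⟶ T.resSub A' (H.comap π) :=
  E1.Lim.semiOfAdd (projSub π H) (A := T.resSub A H) (B := T.resSub A' (H.comap π))
    { toFun := fun x => t.hom x
      map_zero' := map_zero t.hom
      map_add' := map_add t.hom }
    (fun g x => Rep.hom_comm_apply t (g : Γ') x)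

@[simp] lemma semiSub_apply (π : Γ' →* Γ) (H : Subgroup Γ) {A : Rep.{0} ℤ Γ}
    {A' : Rep.{0} ℤ Γ'} (t : Rep.res π A ⟶ A') (x : A.V) :
    (semiSub π H t).hom x = t.hom x := rfl

/-- **Inflation for subgroups**: `Hⁿ(H, A) → Hⁿ(π⁻¹ H, A')` along `π : Γ' → Γ` and a semilinear
`t : Res_π A ⟶ A'`. -/
def infSub (π : Γ' →* Γ) (H : Subgroup Γ) {A : Rep.{0} ℤ Γ} {A' : Rep.{0} ℤ Γ'}
    (t : Rep.res π A ⟶ A') (n : ℕ) : Hn H A n →ₗ[ℤ] Hn (H.comap π) A' n :=
  (groupCohomology.map (projSub π H) (semiSub π H t) n).hom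

/-- `x` is `p`-primary torsion. -/
def IsPPrim (p : ℕ) {A : Type} [AddCommGroup A] (x : A) : Prop := ∃ k : ℕ, p ^ k • x = 0

end General

/-! ## The tower -/

/-- The preimage of `H ≤ Gal(F/ℚ)` in `Gal(F'/ℚ)`:  `Gal(F'/K)` for `K = F^H`. -/
abbrev up {L L' : Level S} (h : L ≤ L') (H : Subgroup L.Gal) : Subgroup L'.Gal :=
  H.comap (Level.proj h)

/-- Inflation `Hⁿ(Gal(F/K), A(F)) → Hⁿ(Gal(F'/K), A'(F'))`. -/
abbrev infUp {L L' : Level S} (h : L ≤ L') (H : Subgroup L.Gal) {A : Rep.{0} ℤ L.Gal}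
    {A' : Rep.{0} ℤ L'.Gal} (t : Rep.res (Level.proj h) A ⟶ A') (n : ℕ) :
    Hn H A n →ₗ[ℤ] Hn (up h H) A' n :=
  infSub (Level.proj h) H t n

/-- The inclusion of the factor `J_q(F)` into `J(F) = ∏_{q ∈ S} J_q(F)`. -/
def inclJ (L : Level S) (q : S) : L.J q.1 ⟶ E1.Lim.Jtot L :=
  E1.Lim.homOfAdd
    { toFun := fun x => E1.Lim.piOf (A := fun q : S => L.J q.1)
        (Pi.single (M := fun q : S => (L.J q.1).V) q x)
      map_zero' := by
        refine E1.Lim.piRep_ext fun q' => ?_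
        show (Pi.single (M := fun q : S => (L.J q.1).V) q 0) q' = 0
        rw [Pi.single_zero]; rfl
      map_add' := fun x y => by
        refine E1.Lim.piRep_ext fun q' => ?_
        show (Pi.single (M := fun q : S => (L.J q.1).V) q (x + y)) q' =
          (Pi.single (M := fun q : S => (L.J q.1).V) q x) q' +
            (Pi.single (M := fun q : S => (L.J q.1).V) q y) q'
        rw [Pi.single_add]; rfl }
    (fun g x => by
      refine E1.Lim.piRep_ext fun q' => ?_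
      show (Pi.single (M := fun q : S => (L.J q.1).V) q ((L.J q.1).ρ g x)) q' =
        (L.J q'.1).ρ g ((Pi.single (M := fun q : S => (L.J q.1).V) q x) q')
      by_cases hq : q' = q
      · subst hq
        rw [Pi.single_eq_same, Pi.single_eq_same]
      · rw [Pi.single_eq_of_ne hq, Pi.single_eq_of_ne hq, map_zero])

lemma piTo_inclJ_same (L : Level S) (q : S) (x : (L.J q.1).V) :
    E1.Lim.piTo ((inclJ L q).hom x) q = x := by
  show (Pi.single (M := fun q : S => (L.J q.1).V) q x) q = x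
  rw [Pi.single_eq_same]

lemma piTo_inclJ_of_ne (L : Level S) {q q' : S} (h : q' ≠ q) (x : (L.J q.1).V) :
    E1.Lim.piTo ((inclJ L q).hom x) q' = 0 := by
  show (Pi.single (M := fun q : S => (L.J q.1).V) q x) q' = 0
  rw [Pi.single_eq_of_ne h]

/-- `j ∘ incl_q = j_q`. -/
lemma jTot_inclJ (D : TowerDatum S) (L : Level S) (q : S) (x : (L.J q.1).V) :
    (E1.Lim.jTot D L).hom ((inclJ L q).hom x) = (D.j L q.1).hom x := by
  classical
  rw [E1.Lim.jTot_apply, Finset.sum_eq_single q]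
  · rw [piTo_inclJ_same]
  · intro q' _ hq'
    rw [piTo_inclJ_of_ne L hq', map_zero]
  · intro h
    exact absurd (Finset.mem_univ q) h

end

end Fermat.Agent.S55.K.AR
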