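/-
S55 moonshot — LAYER K, block AR (ARITHMETIC CORE): FROZEN INTERFACE.      Architect: helper4.
Namespace `Fermat.Agent.S55.K.AR`.  No `sorry`.  Blueprint with proofs: `coord/S55-K-AR.md`.

PURPOSE.  Derive the arithmetic inputs of route C′ that are still open,
  A3  `PT.Surj2GlobSpec`            (via GO1/GO2 for levels of index prime to `p`),
  A5′ `Inv.WeakRecipSpec`, A7 `Inv.GlobCokerSpec`   (helper3, `Inv/Spec*.lean`),
from the SAME input as engine E1:  `Tow.GlobalSpecFin S p` + `Tow.LocalSpec p` (+ GD9).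
(A8 is organised separately by helper303 in `Cap/`.)

Everything is stated at FINITE LEVEL in the tower: `L : Level S` (`F = L.F`), `H ≤ L.Gal`
(`= Gal(F/K)`, `K = F^H`), modules `E(F) = sUnits L`, `J(F) = Jtot L`, `C'(F) = C1 D L`, `C(F) = D.C L`
(helper474, `E1/Lim/Obj.lean`), groups `Hn H A n = Hⁿ(H, A)`, maps `coe H f n` (coefficients) and
`infUp h H t n` (inflation to `up h H = Gal(F'/K)`).

Spec pattern: every interface is `def Xxx : Prop`; producers prove `theorem xxx … : Xxx …` in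
`Fermat/Agent/S55/K/AR/<Leaf>H<seat>.lean`, namespace `Fermat.Agent.S55.K.AR.H<seat>`.
-/
import Fermat.Agent.S55.K.AR.Defs
import Fermat.Agent.S55.ColH543.GlobalK
import Fermat.Agent.S55.KL.Spec

set_option autoImplicit false

open CategoryTheory

namespace Fermat.Agent.S55.K.AR

open Fermat.Agent.S55 Fermat.Agent.S55.Tow Fermat.Agent.S55.E1.Lim

noncomputable section

/-! ## 0. Context -/

/-- `p` is an odd prime in `S`. -/
def Adm (S : Finset Nat.Primes) (p : ℕ) : Prop :=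
  ∃ hp : p.Prime, p ≠ 2 ∧ (⟨p, hp⟩ : Nat.Primes) ∈ S

/-- A tower datum which is good above `μ_p` with torsion class groups (the target of layer G),
for an odd prime `p ∈ S`. -/
structure Ctx (S : Finset Nat.Primes) (p : ℕ) where
  /-- the datum -/
  D : TowerDatum S
  /-- GD1, GD3–GD8, GD5b -/
  good : D.IsGoodFin p
  /-- `p` is an odd prime in `S` -/
  adm : Adm S p

namespace Ctx

variable {S : Finset Nat.Primes} {p : ℕ} (c : Ctx S p)

/-- GD4 in the form of `E1/Lim/Obj.lean`. -/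
theorem h4 : KerDiag c.D := c.good.good.gd4

/-- GD7a in the form of `E1/Lim/Obj.lean`. -/
theorem h7 : TrCompat c.D := fun h q hq x => c.good.good.gd7a h q hq x

end Ctx

variable (S : Finset Nat.Primes) (p : ℕ)

/-! ## 1. TARGETS (datum-free tower statements) -/

/-- **E3** (`colim H³(Gal(F/K), E(F))[p] = 0`, `[K : ℚ]` prime to `p`). -/
def E3Tower : Prop :=
  ∀ (L : Level S) (H : Subgroup L.Gal), Nat.Coprime H.index p →
    ∀ y : Hn H (E1.Lim.sUnits L) 3, p • y = 0 →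
      ∃ (L' : Level S) (h : L ≤ L'), infUp h H (trS h) 3 y = 0

/-- **E2** (`colim H²(Gal(F/K), E(F)) ⊗ ℤ/p = 0`, `[K : ℚ]` prime to `p`). -/
def E2Tower : Prop :=
  ∀ (L : Level S) (H : Subgroup L.Gal), Nat.Coprime H.index p →
    ∀ x : Hn H (E1.Lim.sUnits L) 2,
      ∃ (L' : Level S) (h : L ≤ L') (w : Hn (up h H) (E1.Lim.sUnits L') 2),
        infUp h H (trS h) 2 x = p • w

/-- **HASSE** (`colim ker(H²(Gal(F/K), E(F)) → H²(Gal(F/K), J(F)))(p) = 0`, all `K`). -/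
def HasseTower : Prop :=
  ∀ (L : Level S) (H : Subgroup L.Gal) (x : Hn H (E1.Lim.sUnits L) 2), IsPPrim p x →
    coe H (diagTot L) 2 x = 0 →
      ∃ (L' : Level S) (h : L ≤ L'), infUp h H (trS h) 2 x = 0

/-- **COKER** (GO4): of two classes in `H²(Gal(F/K), J(F))[p]` a non-trivial combination comes,
at a higher level, from `H²(Gal(F'/K), E(F'))[p]`. -/
def CokerTower : Prop :=
  ∀ (L : Level S) (H : Subgroup L.Gal) (x₁ x₂ : Hn H (Jtot L) 2), p • x₁ = 0 → p • x₂ = 0 →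
    ∃ a b : ℕ, (¬ p ∣ a ∨ ¬ p ∣ b) ∧
      ∃ (L' : Level S) (h : L ≤ L') (y : Hn (up h H) (E1.Lim.sUnits L') 2), p • y = 0 ∧
        coe (up h H) (diagTot L') 2 y = infUp h H (trJtot h) 2 (a • x₁ + b • x₂)

/-- **WEAK RECIPROCITY over `ℚ`** (GO5): a class of `H²(Gal(F/ℚ), E(F))[p]` which is trivial in
`H²(Gal(F/ℚ), J_q(F))` for all `q ∈ S` but one is trivial there as well. -/
def WeakRecipTower : Prop :=
  ∀ (L : Level S), L.HasMu p → ∀ x : groupCohomology (E1.Lim.sUnits L) 2, p • x = 0 →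
    ∀ q₀ ∈ S, (∀ q ∈ S, q ≠ q₀ → (T.coeffMap (sIncl L ≫ L.diag q) 2).hom x = 0) →
      (T.coeffMap (sIncl L ≫ L.diag q₀) 2).hom x = 0

/-! ## 2. DICTIONARY tower → finite levels of `G_ℚ` (`KL` form, helper543 `ColH543`) -/

/-- **DICT-E3.** -/
def DictE3Spec : Prop :=
  E3Tower S p → ∀ V ∈ (PT.globalLevels S).levels, Nat.Coprime V.index p →
    KL.EffTors ((ColH543.gN S).restrict V) (Rep.res V.subtype (K.sUnits S)) p 3

/-- **DICT-E2.** -/
def DictE2Spec : Prop :=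
  E2Tower S p → ∀ V ∈ (PT.globalLevels S).levels, Nat.Coprime V.index p →
    KL.EffDiv ((ColH543.gN S).restrict V) (Rep.res V.subtype (K.sUnits S)) p 2

/-- GO1 + GO2 for the levels of index prime to `p`, finite-level form. -/
def GO12Coprime : Prop :=
  ∀ V ∈ (PT.globalLevels S).levels, Nat.Coprime V.index p →
    KL.EffTors ((ColH543.gN S).restrict V) (Rep.res V.subtype (K.sUnits S)) p 3 ∧
    KL.EffDiv ((ColH543.gN S).restrict V) (Rep.res V.subtype (K.sUnits S)) p 2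

/-! ## 3. LEAVES about the tower (arithmetic) -/

section Leaves

variable {S p} (c : Ctx S p)

/-- **SES.** `0 → E(F) → J(F) → C'(F) → 0` is short exact. -/
def SesExact : Prop := ∀ L : Level S, (ses c.h4 L).ShortExact

/-- **CAP1** (capitulation in `H¹`): a `p`-primary class of `H¹(H, C'(F))` dying in
`H¹(H, C(F))` dies in `H¹(H', C'(F'))` for some `F' ≥ F`. -/
def CapH1 : Prop :=
  ∀ (L : Level S) (H : Subgroup L.Gal) (s : Hn H (C1 c.D L) 1), IsPPrim p s →
    coe H (inclC1 c.D L) 1 s = 0 →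
      ∃ (L' : Level S) (h : L ≤ L'), infUp h H (trC1 c.h7 h) 1 s = 0

/-- **CAP2** (capitulation in `H²`). -/
def CapH2 : Prop :=
  ∀ (L : Level S) (H : Subgroup L.Gal) (s : Hn H (C1 c.D L) 2), IsPPrim p s →
    coe H (inclC1 c.D L) 2 s = 0 →
      ∃ (L' : Level S) (h : L ≤ L'), infUp h H (trC1 c.h7 h) 2 s = 0

/-- **C-H1**: `H¹(H, C(F))(p) = 0` for `F ⊇ μ_p`. -/
def H1CVanish : Prop :=
  ∀ (L : Level S), L.HasMu p → ∀ (H : Subgroup L.Gal) (y : Hn H (c.D.C L) 1),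
    IsPPrim p y → y = 0

/-- **C-H2**: `H²(H, C(F))(p)` is cyclic for `F ⊇ μ_p`. -/
def H2CCyclic : Prop :=
  ∀ (L : Level S), L.HasMu p → ∀ (H : Subgroup L.Gal),
    ∃ g : Hn H (c.D.C L) 2, IsPPrim p g ∧
      ∀ y : Hn H (c.D.C L) 2, IsPPrim p y → ∃ n : ℕ, y = n • g

/-- **KAPPA** (GD3 + Shapiro + local class module): if `p^b` divides the local degree at `q`,
there is `v ∈ H²(Gal(F/ℚ), J_q(F))` with `p^b v = 0` whose image in `H²(Gal(F/ℚ), C(F))` has order
exactly `p^b`. -/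
def Kappa : Prop :=
  ∀ (L : Level S), L.HasMu p → ∀ q ∈ S, ∀ b : ℕ, p ^ b ∣ Nat.card (L.Dec q) →
    ∃ v : groupCohomology (L.J q) 2, p ^ b • v = 0 ∧
      ∀ n : ℕ, n • (T.coeffMap (c.D.j L q) 2).hom v = 0 → p ^ b ∣ n

/-- **(c)**: `H²(J) → H²(C)` is surjective on `p`-primary parts in the limit
(`[K : ℚ]` prime to `p`). -/
def SurjJC : Prop :=
  ∀ (L : Level S), L.HasMu p → ∀ (H : Subgroup L.Gal), Nat.Coprime H.index p →
    ∀ x : Hn H (c.D.C L) 2, IsPPrim p x →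
      ∃ (L' : Level S) (h : L ≤ L') (y : Hn (up h H) (Jtot L') 2),
        infUp h H (c.D.tr h) 2 x = coe (up h H) (jTot c.D L') 2 y

/-- **(d)**: the `p`-primary kernel of `H²(J) → H²(C)` is `p`-divisible in the limit
(`[K : ℚ]` prime to `p`). -/
def KerDiv : Prop :=
  ∀ (L : Level S), L.HasMu p → ∀ (H : Subgroup L.Gal), Nat.Coprime H.index p →
    ∀ x : Hn H (Jtot L) 2, IsPPrim p x → coe H (jTot c.D L) 2 x = 0 →
      ∃ (L' : Level S) (h : L ≤ L') (y : Hn (up h H) (Jtot L') 2),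
        p • y = infUp h H (trJtot h) 2 x ∧ coe (up h H) (jTot c.D L') 2 y = 0

end Leaves

/-! ## 4. LEAVES about the tower (local and elementary) -/

/-- **J-H3**: `H³(H, J(F))(p) = 0` (local Tate + Mackey–Shapiro). -/
def H3JVanish : Prop :=
  ∀ (L : Level S) (H : Subgroup L.Gal) (y : Hn H (Jtot L) 3), IsPPrim p y → y = 0

/-- **J-DIV**: if `[K : ℚ] ≤ p^c` and `p^{b+1+c}` divides all local degrees of `F` (`q ∈ S`),
every class of `H²(Gal(F/K), J(F))` killed by `p^b` is divisible by `p`.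
(`H²(H, J_q(F)) = ∏_{w | q} H²(Gal(F_w/K_w), F_wˣ)`, the `p`-part of each factor is cyclic of order
the `p`-part of `[F_w : K_w] = [F_w : ℚ_q] / [K_w : ℚ_q]`, and `[K_w : ℚ_q] ≤ [K : ℚ]`.) -/
def J2Div : Prop :=
  ∀ (L : Level S) (H : Subgroup L.Gal) (b c : ℕ), H.index ≤ p ^ c →
    (∀ q ∈ S, p ^ (b + 1 + c) ∣ Nat.card (L.Dec q)) →
    ∀ y : Hn H (Jtot L) 2, p ^ b • y = 0 → ∃ z : Hn H (Jtot L) 2, p • z = y

/-- **DEG**: the `p`-parts of the local degrees are unbounded in the tower (`p ∈ S`: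
cyclotomic `ℤ_p`-extension). -/
def DecUnbounded : Prop :=
  ∀ (L : Level S) (m : ℕ), ∃ L' : Level S, L ≤ L' ∧ ∀ q ∈ S, p ^ m ∣ Nat.card (L'.Dec q)

/-- **MU**: some level contains `μ_p`, and the levels are directed. -/
def MuDirected : Prop :=
  (∃ L₀ : Level S, L₀.HasMu p) ∧ ∀ L L' : Level S, ∃ L'' : Level S, L ≤ L'' ∧ L' ≤ L''

/-! ## 5. THE LEAVES, with their hypotheses (= exact types of the deliverables) -/

/-- leaf **AR-SES** -/
def SesLeaf : Prop := ∀ c : Ctx S p, SesExact c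
/-- leaf **AR-CAP1** (GD5, GD5b, GD7a, GD7b; explicit 1-cocycles) -/
def CapH1Leaf : Prop := ∀ c : Ctx S p, CapH1 c
/-- leaf **AR-CAP2** (GD5, GD5b, GD7a, GD7b; explicit 2-cocycles) -/
def CapH2Leaf : Prop := ∀ c : Ctx S p, CapH2 c
/-- leaf **AR-C1** (GD1 + `T.ResIndexSpec`) -/
def H1CLeaf : Prop := ∀ c : Ctx S p, H1CVanish c
/-- leaf **AR-C2** (GD1 + `T.ResIndexSpec`) -/
def H2CLeaf : Prop := ∀ c : Ctx S p, H2CCyclic c
/-- leaf **AR-KAPPA** (GD3 + Shapiro for `Gal(F/ℚ)` + local class module) -/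
def KappaLeaf : Prop := ∀ c : Ctx S p, LocalSpec p → Kappa c
/-- leaf **AR-J3** -/
def H3JLeaf : Prop := p.Prime → LocalSpec p → H3JVanish S p
/-- leaf **AR-JDIV** -/
def J2DivLeaf : Prop := p.Prime → LocalSpec p → J2Div S p
/-- leaf **AR-DEG** -/
def DecLeaf : Prop := Adm S p → DecUnbounded S p
/-- leaf **AR-MU** -/
def MuDirLeaf : Prop := Adm S p → MuDirected S p
/-- leaf **AR-c** -/
def SurjJCLeaf : Prop :=
  ∀ c : Ctx S p, H2CCyclic c → Kappa c → DecUnbounded S p → SurjJC c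
/-- leaf **AR-d** -/
def KerDivLeaf : Prop :=
  ∀ c : Ctx S p, H2CCyclic c → Kappa c → DecUnbounded S p → J2Div S p → KerDiv c
/-- leaf **AR-HASSE** -/
def HasseLeaf : Prop :=
  ∀ c : Ctx S p, SesExact c → H1CVanish c → CapH1 c → MuDirected S p → HasseTower S p
/-- leaf **AR-E3** -/
def E3Leaf : Prop :=
  ∀ c : Ctx S p, SesExact c → H3JVanish S p → SurjJC c → CapH2 c → MuDirected S p →
    E3Tower S p
/-- leaf **AR-E2** -/
def E2Leaf : Prop :=
  ∀ c : Ctx S p, SesExact c → KerDiv c → CapH2 c → HasseTower S p → MuDirected S p →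
    E2Tower S p
/-- leaf **AR-COKER** -/
def CokerLeaf : Prop :=
  ∀ c : Ctx S p, SesExact c → H2CCyclic c → CapH2 c → HasseTower S p → MuDirected S p →
    CokerTower S p
/-- leaf **AR-WR** (GD3 + GD4) -/
def WeakRecipLeaf : Prop := Ctx S p → WeakRecipTower S p

end

end Fermat.Agent.S55.K.AR
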