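/-
S55 / layer K / block AR : leaf AR-LIB — functoriality of `infSub` / `infUp`.      (helper998)

* `map_comp_apply`, `map_id_apply` : pointwise functoriality of `groupCohomology.map`, for
  group homomorphisms and coefficient maps which compose only PROPOSITIONALLY.
* `resLE hle A n : Hⁿ(H₂, A) → Hⁿ(H₁, A)` for `H₁ ≤ H₂` (restriction); for `H₁ = H₂` it is the
  canonical isomorphism between the cohomology of equal (not defeq) subgroups.
* (i)   `coe_infSub`    : `coe ∘ infSub = infSub ∘ coe` for commuting squares of coefficients;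
* (ii)  `infSub_infSub` : transitivity of inflation, through `resLE`.
-/
import Fermat.Agent.S55.K.AR.Defs

set_option autoImplicit false

open CategoryTheory

namespace Fermat.Agent.S55.K.AR.H998

open Fermat.Agent.S55 Fermat.Agent.S55.Tow Fermat.Agent.S55.K.AR

noncomputable section

attribute [local instance 10000] Rep.hV2

section General

variable {Γ Γ' Γ'' : Type} [Group Γ] [Group Γ'] [Group Γ'']

/-- Pointwise extensionality for morphisms of representations. -/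
lemma repHom_ext {A B : Rep.{0} ℤ Γ} {f g : A ⟶ B} (h : ∀ x : A.V, f.hom x = g.hom x) :
    f = g := by
  apply Rep.hom_ext
  apply DFunLike.ext
  exact h

/-! ### Pointwise functoriality of `groupCohomology.map` -/

/-- `map π' ι' ∘ map π ι = map π'' ι''` if `π'' = π ∘ π'` and `ι'' = ι' ∘ ι` pointwise. -/
theorem map_comp_apply (π : Γ' →* Γ) (π' : Γ'' →* Γ') (π'' : Γ'' →* Γ)
    {X : Rep.{0} ℤ Γ} {X' : Rep.{0} ℤ Γ'} {X'' : Rep.{0} ℤ Γ''}
    (ι : Rep.res π X ⟶ X') (ι' : Rep.res π' X' ⟶ X'') (ι'' : Rep.res π'' X ⟶ X'')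
    (hπ : ∀ g, π'' g = π (π' g)) (hι : ∀ x : X.V, ι''.hom x = ι'.hom (ι.hom x)) (n : ℕ)
    (z : groupCohomology X n) :
    (groupCohomology.map π' ι' n).hom ((groupCohomology.map π ι n).hom z) =
      (groupCohomology.map π'' ι'' n).hom z := by
  obtain rfl : π'' = π.comp π' := MonoidHom.ext hπ
  have h := groupCohomology.map_comp (k := ℤ) π π' ι ι' n
  have h2 : ι'' = (Rep.resFunctor π').map ι ≫ ι' := repHom_ext hι
  subst h2
  rw [h]
  rfl

/-- `map π ι = map π₁ ι₁` if `π = π₁` and `ι = ι₁` pointwise. -/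
theorem map_congr_apply (π π₁ : Γ' →* Γ) {X : Rep.{0} ℤ Γ} {X' : Rep.{0} ℤ Γ'}
    (ι : Rep.res π X ⟶ X') (ι₁ : Rep.res π₁ X ⟶ X')
    (hπ : ∀ g, π g = π₁ g) (hι : ∀ x : X.V, ι.hom x = ι₁.hom x) (n : ℕ)
    (z : groupCohomology X n) :
    (groupCohomology.map π ι n).hom z = (groupCohomology.map π₁ ι₁ n).hom z := by
  obtain rfl : π = π₁ := MonoidHom.ext hπ
  have h2 : ι = ι₁ := repHom_ext hι
  subst h2
  rfl

/-- `map id ι = id` if `ι` is the identity pointwise. -/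
theorem map_id_apply {X : Rep.{0} ℤ Γ} (π : Γ →* Γ) (ι : Rep.res π X ⟶ X)
    (hπ : ∀ g, π g = g) (hι : ∀ x : X.V, ι.hom x = x) (n : ℕ) (z : groupCohomology X n) :
    (groupCohomology.map π ι n).hom z = z := by
  obtain rfl : π = MonoidHom.id Γ := MonoidHom.ext hπ
  have h2 : ι = 𝟙 X := repHom_ext hι
  subst h2
  rw [groupCohomology.map_id]
  rfl

/-- Two composites of `groupCohomology.map` agree if the underlying group homomorphisms and
coefficient maps agree pointwise. -/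
theorem map_map_eq {G₁ G₂ G₂' G₃ : Type} [Group G₁] [Group G₂] [Group G₂'] [Group G₃]
    {A : Rep.{0} ℤ G₁} {B : Rep.{0} ℤ G₂} {B' : Rep.{0} ℤ G₂'} {C : Rep.{0} ℤ G₃}
    (f : G₂ →* G₁) (g : G₃ →* G₂) (f' : G₂' →* G₁) (g' : G₃ →* G₂')
    (φ : Rep.res f A ⟶ B) (ψ : Rep.res g B ⟶ C)
    (φ' : Rep.res f' A ⟶ B') (ψ' : Rep.res g' B' ⟶ C)
    (hfg : ∀ x, f (g x) = f' (g' x))
    (hφψ : ∀ a : A.V, ψ.hom (φ.hom a) = ψ'.hom (φ'.hom a)) (n : ℕ)
    (x : groupCohomology A n) :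
    (groupCohomology.map g ψ n).hom ((groupCohomology.map f φ n).hom x) =
      (groupCohomology.map g' ψ' n).hom ((groupCohomology.map f' φ' n).hom x) := by
  rw [map_comp_apply f g (f.comp g) φ ψ ((Rep.resFunctor g).map φ ≫ ψ) (fun _ => rfl)
    (fun _ => rfl) n x]
  rw [map_comp_apply f' g' (f.comp g) φ' ψ' ((Rep.resFunctor g).map φ ≫ ψ) hfg hφψ n x]

/-! ### Restriction between comparable subgroups; equal subgroups -/

/-- The identity of `A` as a semilinear map along the inclusion `H₁ ≤ H₂`. -/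
def idSemi {H₁ H₂ : Subgroup Γ} (hle : H₁ ≤ H₂) (A : Rep.{0} ℤ Γ) :
    Rep.res (Subgroup.inclusion hle) (T.resSub A H₂) ⟶ T.resSub A H₁ :=
  E1.Lim.semiOfAdd (Subgroup.inclusion hle) (A := T.resSub A H₂) (B := T.resSub A H₁)
    (AddMonoidHom.id A.V) (fun _ _ => rfl)

@[simp] lemma idSemi_apply {H₁ H₂ : Subgroup Γ} (hle : H₁ ≤ H₂) (A : Rep.{0} ℤ Γ) (x : A.V) :
    (idSemi hle A).hom x = x := rfl

/-- Restriction `Hⁿ(H₂, A) → Hⁿ(H₁, A)` for `H₁ ≤ H₂`. -/
def resLE {H₁ H₂ : Subgroup Γ} (hle : H₁ ≤ H₂) (A : Rep.{0} ℤ Γ) (n : ℕ) :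
    Hn H₂ A n →ₗ[ℤ] Hn H₁ A n :=
  (groupCohomology.map (Subgroup.inclusion hle) (idSemi hle A) n).hom

lemma resLE_self_apply (H : Subgroup Γ) (hle : H ≤ H) (A : Rep.{0} ℤ Γ) (n : ℕ) (x : Hn H A n) :
    resLE hle A n x = x :=
  map_id_apply (X := T.resSub A H) (Subgroup.inclusion hle) (idSemi hle A)
    (fun _ => rfl) (fun _ => rfl) n x

lemma resLE_resLE_apply {H₁ H₂ H₃ : Subgroup Γ} (h₁₂ : H₁ ≤ H₂) (h₂₃ : H₂ ≤ H₃)
    (A : Rep.{0} ℤ Γ) (n : ℕ) (x : Hn H₃ A n) :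
    resLE h₁₂ A n (resLE h₂₃ A n x) = resLE (h₁₂.trans h₂₃) A n x :=
  map_comp_apply (Subgroup.inclusion h₂₃) (Subgroup.inclusion h₁₂)
    (Subgroup.inclusion (h₁₂.trans h₂₃)) (idSemi h₂₃ A) (idSemi h₁₂ A)
    (idSemi (h₁₂.trans h₂₃) A) (fun _ => rfl) (fun _ => rfl) n x

/-- The canonical isomorphism `Hⁿ(H₁, A) ≃ Hⁿ(H₂, A)` for EQUAL subgroups. -/
def castH {H₁ H₂ : Subgroup Γ} (e : H₁ = H₂) (A : Rep.{0} ℤ Γ) (n : ℕ) :
    Hn H₁ A n ≃ₗ[ℤ] Hn H₂ A n :=
  LinearEquiv.ofLinearMap (resLE e.ge A n) (resLE e.le A n)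
    (LinearMap.ext fun x => by
      rw [LinearMap.comp_apply, resLE_resLE_apply, resLE_self_apply, LinearMap.id_apply])
    (LinearMap.ext fun x => by
      rw [LinearMap.comp_apply, resLE_resLE_apply, resLE_self_apply, LinearMap.id_apply])

@[simp] lemma castH_apply {H₁ H₂ : Subgroup Γ} (e : H₁ = H₂) (A : Rep.{0} ℤ Γ) (n : ℕ)
    (x : Hn H₁ A n) : castH e A n x = resLE e.ge A n x := rfl

@[simp] lemma castH_symm_apply {H₁ H₂ : Subgroup Γ} (e : H₁ = H₂) (A : Rep.{0} ℤ Γ) (n : ℕ)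
    (x : Hn H₂ A n) : (castH e A n).symm x = resLE e.le A n x := rfl

lemma resLE_injective_of_eq {H₁ H₂ : Subgroup Γ} (e : H₁ = H₂) (hle : H₁ ≤ H₂)
    (A : Rep.{0} ℤ Γ) (n : ℕ) : Function.Injective (resLE hle A n) :=
  (castH e A n).symm.injective

lemma resLE_bijective_of_eq {H₁ H₂ : Subgroup Γ} (e : H₁ = H₂) (hle : H₁ ≤ H₂)
    (A : Rep.{0} ℤ Γ) (n : ℕ) : Function.Bijective (resLE hle A n) :=
  (castH e A n).symm.bijective

lemma resLE_eq_zero_iff_of_eq {H₁ H₂ : Subgroup Γ} (e : H₁ = H₂) (hle : H₁ ≤ H₂)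
    (A : Rep.{0} ℤ Γ) (n : ℕ) (x : Hn H₂ A n) : resLE hle A n x = 0 ↔ x = 0 :=
  ⟨fun h => resLE_injective_of_eq e hle A n (h.trans (map_zero _).symm),
    fun h => by rw [h, map_zero]⟩

/-- `coe` commutes with restriction. -/
lemma coe_resLE {H₁ H₂ : Subgroup Γ} (hle : H₁ ≤ H₂) {A B : Rep.{0} ℤ Γ} (f : A ⟶ B) (n : ℕ)
    (x : Hn H₂ A n) : coe H₁ f n (resLE hle A n x) = resLE hle B n (coe H₂ f n x) :=
  map_map_eq (A := T.resSub A H₂) (B := T.resSub A H₁) (B' := T.resSub B H₂)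
    (C := T.resSub B H₁) (Subgroup.inclusion hle) (MonoidHom.id ↥H₁) (MonoidHom.id ↥H₂)
    (Subgroup.inclusion hle) (idSemi hle A) ((Rep.resFunctor H₁.subtype).map f)
    ((Rep.resFunctor H₂.subtype).map f) (idSemi hle B) (fun _ => rfl) (fun _ => rfl) n x

/-! ### (i) naturality of `infSub` in the coefficients -/

/-- **AR-LIB (i)**: `coe ∘ infSub = infSub ∘ coe` for a commuting square of coefficients. -/
theorem coe_infSub (π : Γ' →* Γ) (H : Subgroup Γ) {A B : Rep.{0} ℤ Γ} {A' B' : Rep.{0} ℤ Γ'}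
    (f : A ⟶ B) (f' : A' ⟶ B') (t : Rep.res π A ⟶ A') (u : Rep.res π B ⟶ B')
    (hsq : ∀ a : A.V, f'.hom (t.hom a) = u.hom (f.hom a)) (n : ℕ) (x : Hn H A n) :
    coe (H.comap π) f' n (infSub π H t n x) = infSub π H u n (coe H f n x) :=
  map_map_eq (A := T.resSub A H) (B := T.resSub A' (H.comap π)) (B' := T.resSub B H)
    (C := T.resSub B' (H.comap π)) (projSub π H) (MonoidHom.id ↥(H.comap π))
    (MonoidHom.id ↥H) (projSub π H) (semiSub π H t) ((Rep.resFunctor (H.comap π).subtype).map f')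
    ((Rep.resFunctor H.subtype).map f) (semiSub π H u) (fun _ => rfl) hsq n x

/-! ### (ii) transitivity of `infSub` -/

lemma comap_comap_le (π : Γ' →* Γ) (π' : Γ'' →* Γ') (π'' : Γ'' →* Γ)
    (hπ : ∀ g, π'' g = π (π' g)) (H : Subgroup Γ) : (H.comap π).comap π' ≤ H.comap π'' := by
  intro g hg
  show π'' g ∈ H
  rw [hπ]
  exact hg

lemma comap_comap_eq (π : Γ' →* Γ) (π' : Γ'' →* Γ') (π'' : Γ'' →* Γ)
    (hπ : ∀ g, π'' g = π (π' g)) (H : Subgroup Γ) : (H.comap π).comap π' = H.comap π'' := by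
  ext g
  show π (π' g) ∈ H ↔ π'' g ∈ H
  rw [hπ]

/-- **AR-LIB (ii)**: transitivity of inflation.  The two sides live in the cohomology of the
equal subgroups `(H.comap π).comap π'` and `H.comap π''`; they are compared by `resLE`. -/
theorem infSub_infSub (π : Γ' →* Γ) (π' : Γ'' →* Γ') (π'' : Γ'' →* Γ)
    (hπ : ∀ g, π'' g = π (π' g)) (H : Subgroup Γ)
    {A : Rep.{0} ℤ Γ} {A' : Rep.{0} ℤ Γ'} {A'' : Rep.{0} ℤ Γ''}
    (t : Rep.res π A ⟶ A') (t' : Rep.res π' A' ⟶ A'') (t'' : Rep.res π'' A ⟶ A'')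
    (ht : ∀ a : A.V, t''.hom a = t'.hom (t.hom a)) (n : ℕ) (x : Hn H A n) :
    infSub π' (H.comap π) t' n (infSub π H t n x) =
      resLE (comap_comap_le π π' π'' hπ H) A'' n (infSub π'' H t'' n x) :=
  map_map_eq (A := T.resSub A H) (B := T.resSub A' (H.comap π))
    (B' := T.resSub A'' (H.comap π'')) (C := T.resSub A'' ((H.comap π).comap π'))
    (projSub π H) (projSub π' (H.comap π)) (projSub π'' H)
    (Subgroup.inclusion (comap_comap_le π π' π'' hπ H))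
    (semiSub π H t) (semiSub π' (H.comap π) t') (semiSub π'' H t'')
    (idSemi (comap_comap_le π π' π'' hπ H) A'')
    (fun g => Subtype.ext (hπ g.1).symm) (fun a => (ht a).symm) n x

/-- Transitivity, solved for the one-step inflation. -/
theorem infSub_eq_castH (π : Γ' →* Γ) (π' : Γ'' →* Γ') (π'' : Γ'' →* Γ)
    (hπ : ∀ g, π'' g = π (π' g)) (H : Subgroup Γ)
    {A : Rep.{0} ℤ Γ} {A' : Rep.{0} ℤ Γ'} {A'' : Rep.{0} ℤ Γ''}
    (t : Rep.res π A ⟶ A') (t' : Rep.res π' A' ⟶ A'') (t'' : Rep.res π'' A ⟶ A'')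
    (ht : ∀ a : A.V, t''.hom a = t'.hom (t.hom a)) (n : ℕ) (x : Hn H A n) :
    infSub π'' H t'' n x =
      castH (comap_comap_eq π π' π'' hπ H) A'' n
        (infSub π' (H.comap π) t' n (infSub π H t n x)) := by
  rw [infSub_infSub π π' π'' hπ H t t' t'' ht n x, castH_apply, resLE_resLE_apply,
    resLE_self_apply]

/-- If the two-step inflation of `x` vanishes, so does the one-step inflation. -/
theorem infSub_eq_zero_of_infSub_infSub (π : Γ' →* Γ) (π' : Γ'' →* Γ') (π'' : Γ'' →* Γ)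
    (hπ : ∀ g, π'' g = π (π' g)) (H : Subgroup Γ)
    {A : Rep.{0} ℤ Γ} {A' : Rep.{0} ℤ Γ'} {A'' : Rep.{0} ℤ Γ''}
    (t : Rep.res π A ⟶ A') (t' : Rep.res π' A' ⟶ A'') (t'' : Rep.res π'' A ⟶ A'')
    (ht : ∀ a : A.V, t''.hom a = t'.hom (t.hom a)) (n : ℕ) (x : Hn H A n)
    (h0 : infSub π' (H.comap π) t' n (infSub π H t n x) = 0) :
    infSub π'' H t'' n x = 0 := by
  rw [infSub_eq_castH π π' π'' hπ H t t' t'' ht n x, h0, map_zero]

end General

/-! ## The tower -/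

section Tower

variable {S : Finset Nat.Primes}

lemma proj_trans (L L' L'' : Level S) (h : L ≤ L') (h' : L' ≤ L'') (g : L''.Gal) :
    Level.proj (h.trans h') g = Level.proj h (Level.proj h' g) := by
  induction g using QuotientGroup.induction_on with
  | H g => rfl

lemma proj_self (L : Level S) (h : L ≤ L) (g : L.Gal) : Level.proj h g = g := by
  induction g using QuotientGroup.induction_on with
  | H g => rfl

lemma up_up_le {L L' L'' : Level S} (h : L ≤ L') (h' : L' ≤ L'') (H : Subgroup L.Gal) :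
    up h' (up h H) ≤ up (h.trans h') H :=
  comap_comap_le (Level.proj h) (Level.proj h') (Level.proj (h.trans h'))
    (proj_trans L L' L'' h h') H

lemma up_up_eq {L L' L'' : Level S} (h : L ≤ L') (h' : L' ≤ L'') (H : Subgroup L.Gal) :
    up h' (up h H) = up (h.trans h') H :=
  comap_comap_eq (Level.proj h) (Level.proj h') (Level.proj (h.trans h'))
    (proj_trans L L' L'' h h') H

lemma up_self (L : Level S) (h : L ≤ L) (H : Subgroup L.Gal) : up h H = H := by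
  ext g
  show Level.proj h g ∈ H ↔ g ∈ H
  rw [proj_self]

/-- The index of `up h H = Gal(F'/K)` in `Gal(F'/ℚ)` is the index of `H = Gal(F/K)`. -/
lemma index_up {L L' : Level S} (h : L ≤ L') (H : Subgroup L.Gal) :
    (up h H).index = H.index := by
  refine Subgroup.index_comap_of_surjective H ?_
  intro g
  induction g using QuotientGroup.induction_on with
  | H g => exact ⟨QuotientGroup.mk g, rfl⟩

/-- **AR-LIB (i)**, tower form. -/
theorem coe_infUp {L L' : Level S} (h : L ≤ L') (H : Subgroup L.Gal)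
    {A B : Rep.{0} ℤ L.Gal} {A' B' : Rep.{0} ℤ L'.Gal}
    (f : A ⟶ B) (f' : A' ⟶ B') (t : Rep.res (Level.proj h) A ⟶ A')
    (u : Rep.res (Level.proj h) B ⟶ B')
    (hsq : ∀ a : A.V, f'.hom (t.hom a) = u.hom (f.hom a)) (n : ℕ) (x : Hn H A n) :
    coe (up h H) f' n (infUp h H t n x) = infUp h H u n (coe H f n x) :=
  coe_infSub (Level.proj h) H f f' t u hsq n x

/-- **AR-LIB (ii)**, tower form: `inf_{F'→F''} ∘ inf_{F→F'} = inf_{F→F''}` through `resLE`. -/
theorem infUp_infUp {L L' L'' : Level S} (h : L ≤ L') (h' : L' ≤ L'') (H : Subgroup L.Gal)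
    {A : Rep.{0} ℤ L.Gal} {A' : Rep.{0} ℤ L'.Gal} {A'' : Rep.{0} ℤ L''.Gal}
    (t : Rep.res (Level.proj h) A ⟶ A') (t' : Rep.res (Level.proj h') A' ⟶ A'')
    (t'' : Rep.res (Level.proj (h.trans h')) A ⟶ A'')
    (ht : ∀ a : A.V, t''.hom a = t'.hom (t.hom a)) (n : ℕ) (x : Hn H A n) :
    infUp h' (up h H) t' n (infUp h H t n x) =
      resLE (up_up_le h h' H) A'' n (infUp (h.trans h') H t'' n x) :=
  infSub_infSub (Level.proj h) (Level.proj h') (Level.proj (h.trans h'))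
    (proj_trans L L' L'' h h') H t t' t'' ht n x

/-- Transitivity solved for the one-step inflation. -/
theorem infUp_trans_eq {L L' L'' : Level S} (h : L ≤ L') (h' : L' ≤ L'') (H : Subgroup L.Gal)
    {A : Rep.{0} ℤ L.Gal} {A' : Rep.{0} ℤ L'.Gal} {A'' : Rep.{0} ℤ L''.Gal}
    (t : Rep.res (Level.proj h) A ⟶ A') (t' : Rep.res (Level.proj h') A' ⟶ A'')
    (t'' : Rep.res (Level.proj (h.trans h')) A ⟶ A'')
    (ht : ∀ a : A.V, t''.hom a = t'.hom (t.hom a)) (n : ℕ) (x : Hn H A n) :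
    infUp (h.trans h') H t'' n x =
      castH (up_up_eq h h' H) A'' n (infUp h' (up h H) t' n (infUp h H t n x)) :=
  infSub_eq_castH (Level.proj h) (Level.proj h') (Level.proj (h.trans h'))
    (proj_trans L L' L'' h h') H t t' t'' ht n x

/-- If `x` dies after two steps, it dies after the composite step. -/
theorem infUp_trans_eq_zero {L L' L'' : Level S} (h : L ≤ L') (h' : L' ≤ L'')
    (H : Subgroup L.Gal)
    {A : Rep.{0} ℤ L.Gal} {A' : Rep.{0} ℤ L'.Gal} {A'' : Rep.{0} ℤ L''.Gal}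
    (t : Rep.res (Level.proj h) A ⟶ A') (t' : Rep.res (Level.proj h') A' ⟶ A'')
    (t'' : Rep.res (Level.proj (h.trans h')) A ⟶ A'')
    (ht : ∀ a : A.V, t''.hom a = t'.hom (t.hom a)) (n : ℕ) (x : Hn H A n)
    (h0 : infUp h' (up h H) t' n (infUp h H t n x) = 0) :
    infUp (h.trans h') H t'' n x = 0 :=
  infSub_eq_zero_of_infSub_infSub (Level.proj h) (Level.proj h') (Level.proj (h.trans h'))
    (proj_trans L L' L'' h h') H t t' t'' ht n x h0

/-- If `x` dies at `F'`, it dies at every `F'' ≥ F'`. -/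
theorem infUp_eq_zero_of_le {L L' L'' : Level S} (h : L ≤ L') (h' : L' ≤ L'')
    (H : Subgroup L.Gal)
    {A : Rep.{0} ℤ L.Gal} {A' : Rep.{0} ℤ L'.Gal} {A'' : Rep.{0} ℤ L''.Gal}
    (t : Rep.res (Level.proj h) A ⟶ A') (t' : Rep.res (Level.proj h') A' ⟶ A'')
    (t'' : Rep.res (Level.proj (h.trans h')) A ⟶ A'')
    (ht : ∀ a : A.V, t''.hom a = t'.hom (t.hom a)) (n : ℕ) (x : Hn H A n)
    (h0 : infUp h H t n x = 0) :
    infUp (h.trans h') H t'' n x = 0 :=
  infUp_trans_eq_zero h h' H t t' t'' ht n x (by rw [h0, map_zero])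

/-- Inflation to the same level is the identity (through `resLE`). -/
theorem infUp_self (L : Level S) (h : L ≤ L) (H : Subgroup L.Gal) {A : Rep.{0} ℤ L.Gal}
    (t : Rep.res (Level.proj h) A ⟶ A) (ht : ∀ a : A.V, t.hom a = a) (n : ℕ) (x : Hn H A n) :
    infUp h H t n x = resLE (up_self L h H).le A n x :=
  map_congr_apply (X := T.resSub A H) (X' := T.resSub A (up h H)) (projSub (Level.proj h) H)
    (Subgroup.inclusion (up_self L h H).le) (semiSub (Level.proj h) H t)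
    (idSemi (up_self L h H).le A) (fun g => Subtype.ext (proj_self L h g.1)) ht n x

/-! ### The transition maps of the tower objects compose -/

lemma trS_trans {L L' L'' : Level S} (h : L ≤ L') (h' : L' ≤ L'') (x : (E1.Lim.sUnits L).V) :
    (E1.Lim.trS (h.trans h')).hom x = (E1.Lim.trS h').hom ((E1.Lim.trS h).hom x) := rfl

lemma trJtot_trans {L L' L'' : Level S} (h : L ≤ L') (h' : L' ≤ L'') (x : (E1.Lim.Jtot L).V) :
    (E1.Lim.trJtot (h.trans h')).hom x =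
      (E1.Lim.trJtot h').hom ((E1.Lim.trJtot h).hom x) := by
  refine E1.Lim.piRep_ext fun q => ?_
  rw [E1.Lim.piTo_trJtot, E1.Lim.piTo_trJtot, E1.Lim.piTo_trJtot]
  apply L''.J_ext q.1
  intro g
  show Level.inclLoc (h.trans h') q.1
      (L.Jeval q.1 (E1.Lim.piTo x q) (Level.proj (h.trans h') g)) =
    Level.inclLoc h' q.1 (Level.inclLoc h q.1
      (L.Jeval q.1 (E1.Lim.piTo x q) (Level.proj h (Level.proj h' g))))
  rw [proj_trans]
  rfl

variable (D : TowerDatum S)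

/-- GD7b: `tr` is transitive. -/
def TrTrans : Prop :=
  ∀ {L L' L'' : Level S} (h : L ≤ L') (h' : L' ≤ L'') (c : (D.C L).V),
    (D.tr h').hom ((D.tr h).hom c) = (D.tr (h.trans h')).hom c

variable {D}

lemma tr_trans (h7b : TrTrans D) {L L' L'' : Level S} (h : L ≤ L') (h' : L' ≤ L'')
    (c : (D.C L).V) : (D.tr (h.trans h')).hom c = (D.tr h').hom ((D.tr h).hom c) :=
  (h7b h h' c).symm

lemma trC1_trans (h7 : E1.Lim.TrCompat D) (h7b : TrTrans D) {L L' L'' : Level S} (h : L ≤ L')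
    (h' : L' ≤ L'') (x : (E1.Lim.C1 D L).V) :
    (E1.Lim.trC1 h7 (h.trans h')).hom x =
      (E1.Lim.trC1 h7 h').hom ((E1.Lim.trC1 h7 h).hom x) := by
  apply E1.Lim.inclC1_injective D L''
  rw [E1.Lim.inclC1_trC1, E1.Lim.inclC1_trC1, E1.Lim.inclC1_trC1]
  exact (h7b h h' _).symm

/-! ### The squares of the tower objects commute -/

lemma diagTot_trS {L L' : Level S} (h : L ≤ L') (e : (E1.Lim.sUnits L).V) :
    (E1.Lim.diagTot L').hom ((E1.Lim.trS h).hom e) =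
      (E1.Lim.trJtot h).hom ((E1.Lim.diagTot L).hom e) := by
  refine E1.Lim.piRep_ext fun q => ?_
  rw [E1.Lim.piTo_trJtot, E1.Lim.piTo_diagTot, E1.Lim.piTo_diagTot, E1.Lim.sIncl_trS]
  apply L'.J_ext q.1
  intro g'
  have h1 : L'.units.ρ g' ((Level.trUnits h).hom ((E1.Lim.sIncl L).hom e)) =
      (Level.trUnits h).hom (L.units.ρ (Level.proj h g') ((E1.Lim.sIncl L).hom e)) :=
    (Rep.hom_comm_apply (Level.trUnits h) g' ((E1.Lim.sIncl L).hom e)).symm
  show L'.embFun q.1 (L'.units.ρ g' ((Level.trUnits h).hom ((E1.Lim.sIncl L).hom e))) =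
    Level.inclLoc h q.1 (L.embFun q.1 (L.units.ρ (Level.proj h g') ((E1.Lim.sIncl L).hom e)))
  rw [h1]
  apply L'.locCoe_injective q.1
  rfl

lemma jTot_trJtot (h7 : E1.Lim.TrCompat D) {L L' : Level S} (h : L ≤ L')
    (x : (E1.Lim.Jtot L).V) :
    (E1.Lim.jTot D L').hom ((E1.Lim.trJtot h).hom x) =
      (D.tr h).hom ((E1.Lim.jTot D L).hom x) :=
  (E1.Lim.tr_jTot h7 h x).symm

lemma jC1_trJtot (h7 : E1.Lim.TrCompat D) {L L' : Level S} (h : L ≤ L')
    (x : (E1.Lim.Jtot L).V) :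
    (E1.Lim.jC1 D L').hom ((E1.Lim.trJtot h).hom x) =
      (E1.Lim.trC1 h7 h).hom ((E1.Lim.jC1 D L).hom x) :=
  (E1.Lim.trC1_jC1 h7 h x).symm

lemma inclC1_trC1 (h7 : E1.Lim.TrCompat D) {L L' : Level S} (h : L ≤ L')
    (c : (E1.Lim.C1 D L).V) :
    (E1.Lim.inclC1 D L').hom ((E1.Lim.trC1 h7 h).hom c) =
      (D.tr h).hom ((E1.Lim.inclC1 D L).hom c) :=
  E1.Lim.inclC1_trC1 h7 h c


lemma inclJ_trJ {L L' : Level S} (h : L ≤ L') (q : S) (x : (L.J q.1).V) :
    (inclJ L' q).hom ((Level.trJ h q.1).hom x) =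
      (E1.Lim.trJtot h).hom ((inclJ L q).hom x) := by
  refine E1.Lim.piRep_ext fun q' => ?_
  rw [E1.Lim.piTo_trJtot]
  by_cases hq : q' = q
  · subst hq
    rw [piTo_inclJ_same, piTo_inclJ_same]
  · rw [piTo_inclJ_of_ne L' hq, piTo_inclJ_of_ne L hq, map_zero]

/-! ### Ready-made instances of (i) -/

section Squares

variable {L L' : Level S} (h : L ≤ L') (H : Subgroup L.Gal) (n : ℕ)

theorem coe_diagTot_infUp (x : Hn H (E1.Lim.sUnits L) n) :
    coe (up h H) (E1.Lim.diagTot L') n (infUp h H (E1.Lim.trS h) n x) =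
      infUp h H (E1.Lim.trJtot h) n (coe H (E1.Lim.diagTot L) n x) :=
  coe_infUp h H (E1.Lim.diagTot L) (E1.Lim.diagTot L') (E1.Lim.trS h) (E1.Lim.trJtot h)
    (diagTot_trS h) n x

theorem coe_jTot_infUp (h7 : E1.Lim.TrCompat D) (x : Hn H (E1.Lim.Jtot L) n) :
    coe (up h H) (E1.Lim.jTot D L') n (infUp h H (E1.Lim.trJtot h) n x) =
      infUp h H (D.tr h) n (coe H (E1.Lim.jTot D L) n x) :=
  coe_infUp h H (E1.Lim.jTot D L) (E1.Lim.jTot D L') (E1.Lim.trJtot h) (D.tr h)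
    (jTot_trJtot h7 h) n x

theorem coe_jC1_infUp (h7 : E1.Lim.TrCompat D) (x : Hn H (E1.Lim.Jtot L) n) :
    coe (up h H) (E1.Lim.jC1 D L') n (infUp h H (E1.Lim.trJtot h) n x) =
      infUp h H (E1.Lim.trC1 h7 h) n (coe H (E1.Lim.jC1 D L) n x) :=
  coe_infUp h H (E1.Lim.jC1 D L) (E1.Lim.jC1 D L') (E1.Lim.trJtot h) (E1.Lim.trC1 h7 h)
    (jC1_trJtot h7 h) n x

theorem coe_inclC1_infUp (h7 : E1.Lim.TrCompat D) (x : Hn H (E1.Lim.C1 D L) n) :
    coe (up h H) (E1.Lim.inclC1 D L') n (infUp h H (E1.Lim.trC1 h7 h) n x) =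
      infUp h H (D.tr h) n (coe H (E1.Lim.inclC1 D L) n x) :=
  coe_infUp h H (E1.Lim.inclC1 D L) (E1.Lim.inclC1 D L') (E1.Lim.trC1 h7 h) (D.tr h)
    (inclC1_trC1 h7 h) n x

theorem coe_inclJ_infUp (q : S) (x : Hn H (L.J q.1) n) :
    coe (up h H) (inclJ L' q) n (infUp h H (Level.trJ h q.1) n x) =
      infUp h H (E1.Lim.trJtot h) n (coe H (inclJ L q) n x) :=
  coe_infUp h H (inclJ L q) (inclJ L' q) (Level.trJ h q.1) (E1.Lim.trJtot h)
    (inclJ_trJ h q) n x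

end Squares

/-! ### Ready-made instances of (ii) -/

section Trans

variable {L L' L'' : Level S} (h : L ≤ L') (h' : L' ≤ L'') (H : Subgroup L.Gal) (n : ℕ)

theorem infUp_trS_trans (x : Hn H (E1.Lim.sUnits L) n) :
    infUp (h.trans h') H (E1.Lim.trS (h.trans h')) n x =
      castH (up_up_eq h h' H) (E1.Lim.sUnits L'') n
        (infUp h' (up h H) (E1.Lim.trS h') n (infUp h H (E1.Lim.trS h) n x)) :=
  infUp_trans_eq h h' H (E1.Lim.trS h) (E1.Lim.trS h') (E1.Lim.trS (h.trans h'))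
    (trS_trans h h') n x

theorem infUp_trJtot_trans (x : Hn H (E1.Lim.Jtot L) n) :
    infUp (h.trans h') H (E1.Lim.trJtot (h.trans h')) n x =
      castH (up_up_eq h h' H) (E1.Lim.Jtot L'') n
        (infUp h' (up h H) (E1.Lim.trJtot h') n (infUp h H (E1.Lim.trJtot h) n x)) :=
  infUp_trans_eq h h' H (E1.Lim.trJtot h) (E1.Lim.trJtot h') (E1.Lim.trJtot (h.trans h'))
    (trJtot_trans h h') n x

theorem infUp_tr_trans (h7b : TrTrans D) (x : Hn H (D.C L) n) :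
    infUp (h.trans h') H (D.tr (h.trans h')) n x =
      castH (up_up_eq h h' H) (D.C L'') n
        (infUp h' (up h H) (D.tr h') n (infUp h H (D.tr h) n x)) :=
  infUp_trans_eq h h' H (D.tr h) (D.tr h') (D.tr (h.trans h')) (tr_trans h7b h h') n x

theorem infUp_trC1_trans (h7 : E1.Lim.TrCompat D) (h7b : TrTrans D)
    (x : Hn H (E1.Lim.C1 D L) n) :
    infUp (h.trans h') H (E1.Lim.trC1 h7 (h.trans h')) n x =
      castH (up_up_eq h h' H) (E1.Lim.C1 D L'') n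
        (infUp h' (up h H) (E1.Lim.trC1 h7 h') n (infUp h H (E1.Lim.trC1 h7 h) n x)) :=
  infUp_trans_eq h h' H (E1.Lim.trC1 h7 h) (E1.Lim.trC1 h7 h') (E1.Lim.trC1 h7 (h.trans h'))
    (trC1_trans h7 h7b h h') n x

end Trans

/-! ### `castH` and the usual operations -/

section Cast

variable {Γ : Type} [Group Γ]

lemma castH_eq_zero_iff {H₁ H₂ : Subgroup Γ} (e : H₁ = H₂) (A : Rep.{0} ℤ Γ) (n : ℕ)
    (x : Hn H₁ A n) : castH e A n x = 0 ↔ x = 0 :=
  (castH e A n).map_eq_zero_iff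

lemma castH_nsmul {H₁ H₂ : Subgroup Γ} (e : H₁ = H₂) (A : Rep.{0} ℤ Γ) (n : ℕ) (m : ℕ)
    (x : Hn H₁ A n) : castH e A n (m • x) = m • castH e A n x :=
  map_nsmul (castH e A n) m x

/-- `coe` commutes with `castH`. -/
lemma coe_castH {H₁ H₂ : Subgroup Γ} (e : H₁ = H₂) {A B : Rep.{0} ℤ Γ} (f : A ⟶ B) (n : ℕ)
    (x : Hn H₁ A n) : coe H₂ f n (castH e A n x) = castH e B n (coe H₁ f n x) := by
  rw [castH_apply, castH_apply]
  exact coe_resLE e.ge f n x

lemma isPPrim_castH {H₁ H₂ : Subgroup Γ} (e : H₁ = H₂) (A : Rep.{0} ℤ Γ) (n : ℕ) (p : ℕ)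
    (x : Hn H₁ A n) : IsPPrim p (castH e A n x) ↔ IsPPrim p x := by
  constructor
  · rintro ⟨k, hk⟩
    refine ⟨k, ?_⟩
    rw [← castH_nsmul, castH_eq_zero_iff] at hk
    exact hk
  · rintro ⟨k, hk⟩
    exact ⟨k, by rw [← castH_nsmul, hk, map_zero]⟩

/-- Linear maps preserve `p`-primary torsion. -/
lemma IsPPrim.map {p : ℕ} {A B : Type} [AddCommGroup A] [AddCommGroup B] (f : A →+ B) {x : A}
    (hx : IsPPrim p x) : IsPPrim p (f x) := by
  obtain ⟨k, hk⟩ := hx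
  exact ⟨k, by rw [← map_nsmul, hk, map_zero]⟩

end Cast

end Tower

end

end Fermat.Agent.S55.K.AR.H998
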