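/-
S55 moonshot — LAYER K, block AR: GLUE for input A3 of layer D.            helper4.
No `sorry`.

`surj2Glob_of_go12 : K.KummerSpec p S → GO12Coprime S p → p ≠ 2 → pPrime p ∈ S → PT.Surj2GlobSpec p S`.

A3 (`H²(G_S, -)` is right exact on finite modules) needs GO1 + GO2 (`H²(G_S(K), 𝒪_Sˣ)` is
`p`-divisible, `H³(G_S(K), 𝒪_Sˣ)[p] = 0`) ONLY for the fields `K` of degree prime to `p`:
the dévissage of helper696 uses the induced modules `Ind_H μ` only for the preimage `H` of a
Sylow `p`-subgroup.  This is what makes the arithmetic core (`K/AR/Spec.lean`) work with the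
reciprocity law over `ℚ` alone (GD3).

Chain:  GO12Coprime  ⇒ (helper543 `ColH543`, helper397 K-T3)  `H³_S(Ind_H μ) = 0`, `p ∤ [G:H]`
        ⇒ (`devissage_coprime`, after helper696)               `K.H3FinSpec`
        ⇒ (helper635 K-T1)                                     `K.SurjH2Spec`
        ⇒ (helper723 adapter)                                  `PT.Surj2GlobSpec`.
-/
import Fermat.Agent.S55.K.AR.Spec
import Fermat.Agent.S55.K.T3H397
import Fermat.Agent.S55.K.T2H696
import Fermat.Agent.S55.K.T1H635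
import Fermat.Agent.S55.K.AdapterPTH723

set_option autoImplicit false
set_option linter.style.haveILetI false

noncomputable section

namespace Fermat.Agent.S55.K.AR

open groupCohomology Fermat.Agent.S55.PT Fermat.Agent.S55.Bridge ExtCitation

/-- **Dévissage, coprime form** (proof of helper696's `H696.devissage`, which only uses the
preimage `H` of a Sylow `p`-subgroup): it suffices to know `H³_lc(G, Ind_H μ) = 0` for the open
subgroups `H` of index prime to `p` acting trivially on `μ`. -/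
theorem devissage_coprime (G : Type) [Group G] (L : LevelSys G) (p : ℕ) [Fact p.Prime]
    (μ : Rep.{0, 0, 0} (ZMod p) G)
    (hNC : L.NormalCofinal) (hFI : L.FiniteIndex) (hμ1 : Module.finrank (ZMod p) μ = 1)
    (hμs : L.IsUSmooth μ)
    (hInd : ∀ H : Subgroup G, Fermat.Agent.S55.H696.IsOpenSubgroup L H → ¬ p ∣ H.index →
      (∀ s ∈ H, μ.ρ s = 1) → Fermat.Agent.S55.H696.H3Van L (indRep H μ))
    (R : Rep.{0, 0, 0} (ZMod p) G) (hR : FiniteDimensional (ZMod p) R) (hRs : L.IsUSmooth R) :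
    Fermat.Agent.S55.H696.H3Van L R := by
  classical
  obtain ⟨U₁, hU₁, h1⟩ := hμs
  obtain ⟨U₂, hU₂, h2⟩ := hRs
  obtain ⟨U, hU, hUU₁, hUU₂, hUn⟩ := Fermat.Agent.S55.H696.exists_normal_level_le hNC hU₁ hU₂
  haveI := hUn
  haveI : U.FiniteIndex := hFI U hU
  haveI : Finite (G ⧸ U) := Subgroup.finite_quotient_of_finiteIndex
  let P : Sylow p (G ⧸ U) := Classical.arbitrary _
  let H : Subgroup G := (P : Subgroup (G ⧸ U)).comap (QuotientGroup.mk' U)
  have hUH : U ≤ H := by
    intro s hs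
    show QuotientGroup.mk' U s ∈ (P : Subgroup (G ⧸ U))
    have h1 : QuotientGroup.mk' U s = 1 := (QuotientGroup.eq_one_iff s).2 hs
    rw [h1]
    exact Subgroup.one_mem _
  have hpow : ∀ h ∈ H, ∃ n : ℕ, h ^ p ^ n ∈ U := by
    intro h hh
    obtain ⟨n, hn⟩ := P.isPGroup' ⟨QuotientGroup.mk' U h, hh⟩
    refine ⟨n, ?_⟩
    have h3 := congrArg Subtype.val hn
    simp only [Subgroup.coe_pow, Subgroup.coe_one] at h3
    rw [← map_pow] at h3
    exact (QuotientGroup.eq_one_iff _).1 h3
  have hidx : ¬ p ∣ H.index := by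
    have : H.index = (P : Subgroup (G ⧸ U)).index :=
      Subgroup.index_comap_of_surjective _ (QuotientGroup.mk'_surjective U)
    rw [this]
    exact P.not_dvd_index
  haveI : H.FiniteIndex := ⟨fun h0 => hidx (by rw [h0]; exact dvd_zero p)⟩
  have hμH : ∀ h ∈ H, μ.ρ h = 1 := by
    intro h hh
    obtain ⟨n, hn⟩ := hpow h hh
    refine Fermat.Agent.S55.H696.rho_eq_one_of_finrank_eq_one μ.ρ hμ1 h n ?_
    apply LinearMap.ext
    intro m
    exact h1 _ (hUU₁ hn) m
  have hIndH : Fermat.Agent.S55.H696.H3Van L (indRep H μ) := hInd H ⟨U, hU, hUH⟩ hidx hμH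
  haveI := hR
  have htop : Fermat.Agent.S55.H696.H3Van L (Fermat.Agent.S55.H696.filtRep H R ⊤) :=
    Fermat.Agent.S55.H696.h3Van_filtRep L hNC H U hU hUH hpow R μ
      (fun s hs r => h2 s (hUU₂ hs) r) hμ1 hμH hIndH _ ⊤
      (fun _ _ _ _ => Submodule.mem_top) rfl
  exact Fermat.Agent.S55.H696.h3Van_of_filtRep_top L H hidx R htop

variable (p : ℕ) [Fact p.Prime] (S : Finset Nat.Primes)

/-- `H³_S(Ind_V μ_p) = 0` for the levels `V` of index prime to `p`, from KUM and GO1 + GO2 for
these levels. -/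
theorem h3IndMu_coprime (hK : KummerSpec p S) (h12 : GO12Coprime S p)
    (hpS : pPrime p ∈ S) (V : Subgroup PT.GQ) (hV : V ∈ (globalLevels S).levels)
    (hidx : ¬ p ∣ V.index) : H3Vanish (globalLevels S) (indG V (muP p)) := by
  have hN : (globalLevels S).NormalCofinal := ColH543.globalLevels_normalCofinal S
  have hF : (globalLevels S).FiniteIndex := ColH543.globalLevels_finiteIndex S
  obtain ⟨V₀, hV₀, hV₀V, hV₀n⟩ := hN V hV
  have hcop : Nat.Coprime V.index p :=
    ((Nat.Prime.coprime_iff_not_dvd (Fact.out : p.Prime)).2 hidx).symm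
  obtain ⟨h3, h2⟩ := h12 V hV hcop
  exact Fermat.Agent.S55.K.H397.h3Vanish_of hN hF p (indMuToE p S V)
    (Fermat.Agent.S55.K.H397.indMuToE_injective p S V)
    (Fermat.Agent.S55.K.H397.indMuToE_equivariant p S V)
    (Fermat.Agent.S55.K.H397.ind_nsmul_p p V)
    (Fermat.Agent.S55.K.H397.indMuToE_tors p S V)
    (Fermat.Agent.S55.K.H397.kummer_ind (sUnits S) hN p (fun x hx => hK hpS x hx) hV)
    ((ColH543.h2Divisible_indG_iff hN hF (K.sUnits S) V hV₀ hV₀n hV₀V p).2 h2)
    ((ColH543.h3TorsVanish_indG_iff hN hF (K.sUnits S) V hV₀ hV₀n hV₀V p).2 h3)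

/-- `cd_p(G_S) ≤ 2` in the form `K.H3FinSpec`, from KUM and GO1 + GO2 for the levels of index
prime to `p`. -/
theorem h3Fin_of_go12 (hK : KummerSpec p S) (h12 : GO12Coprime S p) : H3FinSpec p S := by
  intro _ hpS R hfd hRs
  rw [Fermat.Agent.S55.K.H696.h3Vanish_iff]
  refine devissage_coprime PT.GQ (globalLevels S) p (muP p)
    (ColH543.globalLevels_normalCofinal S) (ColH543.globalLevels_finiteIndex S)
    (MuP.finrank_eq_one p) (Fermat.Agent.S55.K.H696.isUSmooth_muP p S hpS) ?_ R hfd hRs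
  intro H hH hidx _
  obtain ⟨U, hU, hUH⟩ := hH
  exact (Fermat.Agent.S55.K.H696.h3Vanish_iff (globalLevels S) (indG H (muP p))).1
    (h3IndMu_coprime p S hK h12 hpS H (Fermat.Agent.S55.K.H696.mem_levels_of_le S hU hUH) hidx)

/-- **Input A3 of layer D** from KUM and GO1 + GO2 for the levels of index prime to `p`. -/
theorem surj2Glob_of_go12 (hK : KummerSpec p S) (h12 : GO12Coprime S p) (hp2 : p ≠ 2)
    (hpS : pPrime p ∈ S) : Fermat.Agent.S55.PT.Surj2GlobSpec p S :=
  Fermat.Agent.S55.K.H723.surj2Glob_of p S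
    (Fermat.Agent.S55.K.H635.surjH2_of p S (h3Fin_of_go12 p S hK h12)) hp2 hpS

omit [Fact p.Prime] in
/-- GO1 + GO2 (coprime levels) from the tower statements E3, E2 and the dictionary. -/
theorem go12_of_tower (hD3 : DictE3Spec S p) (hD2 : DictE2Spec S p) (h3 : E3Tower S p)
    (h2 : E2Tower S p) : GO12Coprime S p :=
  fun V hV hcop => ⟨hD3 h3 V hV hcop, hD2 h2 V hV hcop⟩

end Fermat.Agent.S55.K.AR

end
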