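/-
S55 moonshot — LAYER K, block AR: ASSEMBLY of the arithmetic core.          helper4.
No `sorry`.

`towers_of_leaves`   : the leaves of `K/AR/Spec.lean` ⇒ E3, E2, HASSE, COKER, WEAK RECIPROCITY;
`surj2Glob_of_leaves`: the leaves + `Tow.GlobalSpecFin S p` + `Tow.LocalSpec p` ⇒ input A3 of layer D
                       (`PT.Surj2GlobSpec p S`).
-/
import Fermat.Agent.S55.K.AR.A3Glue
import Fermat.Agent.S55.K.KummerH724

set_option autoImplicit false

noncomputable section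

namespace Fermat.Agent.S55.K.AR

open Fermat.Agent.S55 Fermat.Agent.S55.Tow ExtCitation

/-- All the leaves of the arithmetic core. -/
structure Leaves (S : Finset Nat.Primes) (p : ℕ) : Prop where
  ses : SesLeaf S p
  cap1 : CapH1Leaf S p
  cap2 : CapH2Leaf S p
  h1C : H1CLeaf S p
  h2C : H2CLeaf S p
  kappa : KappaLeaf S p
  h3J : H3JLeaf S p
  j2Div : J2DivLeaf S p
  dec : DecLeaf S p
  muDir : MuDirLeaf S p
  surjJC : SurjJCLeaf S p
  kerDiv : KerDivLeaf S p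
  hasse : HasseLeaf S p
  e3 : E3Leaf S p
  e2 : E2Leaf S p
  coker : CokerLeaf S p
  weakRecip : WeakRecipLeaf S p

variable {S : Finset Nat.Primes} {p : ℕ}

/-- The tower statements from the leaves. -/
theorem towers_of_leaves (ℓ : Leaves S p) (c : Ctx S p) (hL : LocalSpec p) :
    E3Tower S p ∧ E2Tower S p ∧ HasseTower S p ∧ CokerTower S p ∧ WeakRecipTower S p := by
  obtain ⟨hp, -, -⟩ := c.adm
  have hses := ℓ.ses c
  have hmu := ℓ.muDir c.adm
  have hdec := ℓ.dec c.adm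
  have hcyc := ℓ.h2C c
  have hkap := ℓ.kappa c hL
  have hcap2 := ℓ.cap2 c
  have hhasse : HasseTower S p := ℓ.hasse c hses (ℓ.h1C c) (ℓ.cap1 c) hmu
  have hsurj := ℓ.surjJC c hcyc hkap hdec
  have hker := ℓ.kerDiv c hcyc hkap hdec (ℓ.j2Div hp hL)
  exact ⟨ℓ.e3 c hses (ℓ.h3J hp hL) hsurj hcap2 hmu, ℓ.e2 c hses hker hcap2 hhasse hmu,
    hhasse, ℓ.coker c hses hcyc hcap2 hhasse hmu, ℓ.weakRecip c⟩

/-- **Input A3 of layer D from the arithmetic core.** -/
theorem surj2Glob_of_leaves (p : ℕ) [Fact p.Prime] (S : Finset Nat.Primes) (ℓ : Leaves S p)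
    (hD3 : DictE3Spec S p) (hD2 : DictE2Spec S p)
    (hG : GlobalSpecFin S p) (hL : LocalSpec p) (hp2 : p ≠ 2) (hpS : pPrime p ∈ S) :
    Fermat.Agent.S55.PT.Surj2GlobSpec p S := by
  obtain ⟨D, hD⟩ := hG
  have c : Ctx S p := ⟨D, hD, ⟨(Fact.out : p.Prime), hp2, hpS⟩⟩
  obtain ⟨h3, h2, -⟩ := towers_of_leaves ℓ c hL
  exact surj2Glob_of_go12 p S (Fermat.Agent.S55.K.H724.kummer p S)
    (go12_of_tower p S hD3 hD2 h3 h2) hp2 hpS

end Fermat.Agent.S55.K.AR

end
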