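/-
S55 moonshot — LAYER K, block AR, leaves **AR-C1** and **AR-C2** (subtask 632).      helper748.

`h1CLeaf : H1CLeaf S p`   — `H¹(H, C(F))(p) = 0` for `F ⊇ μ_p`, every `H ≤ Gal(F/ℚ)`;
`h2CLeaf : H2CLeaf S p`   — `H²(H, C(F))(p)` is cyclic (generated by the `p`-primary component of
                            `res_H γ`).

Proof (blueprint `coord/S55-K-AR.md` §2): Sylow `P ≤ H`, GD1 for the `p`-subgroup
`P.map H.subtype ≤ Gal(F/ℚ)`, transitivity of restriction (`T.H353.resResIso353`),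
`T.H572.resIndex` (`res_P y = 0 ⇒ [H : P] y = 0`) and `T.H572.cardTorsion`.
-/
import Fermat.Agent.S55.K.AR.Spec
import Fermat.Agent.S55.T.CoresH572
import Fermat.Agent.S55.T.T6pH353.SylowClass

set_option autoImplicit false

open CategoryTheory

namespace Fermat.Agent.S55.K.AR.H748

open Fermat.Agent.S55 Fermat.Agent.S55.Tow Fermat.Agent.S55.E1.Lim Fermat.Agent.S55.K.AR

noncomputable section

/-! ## Abstract group theory -/

section Abstract

/-- Bezout in `ℕ`: for coprime `m`, `q` with `0 < m`, `0 < q` there are `u`, `v` with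
`u * m = 1 + v * q`. -/
lemma exists_bezout_nat {m q : ℕ} (hm : 0 < m) (hq : 0 < q) (hc : Nat.Coprime m q) :
    ∃ u v : ℕ, u * m = 1 + v * q := by
  by_cases h1 : q = 1
  · refine ⟨1, m - 1, ?_⟩
    rw [h1]; omega
  · have hq1 : 1 < q := by omega
    obtain ⟨u, -, hu⟩ := Nat.exists_mul_mod_eq_one_of_coprime hc hq1
    refine ⟨u, m * u / q, ?_⟩
    have h := Nat.div_add_mod (m * u) q
    rw [hu] at h
    rw [mul_comm u m, mul_comm (m * u / q) q]
    omega

variable {Y Z : Type} [AddCommGroup Y] [AddCommGroup Z]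

/-- If `m • y = 0` and `p ^ k • y = 0` with `m` prime to `p`, then `y = 0`. -/
lemma eq_zero_of_coprime_nsmul {p m k : ℕ} (hm : Nat.Coprime m p) (y : Y)
    (h1 : m • y = 0) (h2 : p ^ k • y = 0) : y = 0 := by
  have d1 : addOrderOf y ∣ m := addOrderOf_dvd_of_nsmul_eq_zero h1
  have d2 : addOrderOf y ∣ p ^ k := addOrderOf_dvd_of_nsmul_eq_zero h2
  have hc : Nat.Coprime m (p ^ k) := Nat.Coprime.pow_right k hm
  have h3 : addOrderOf y = 1 := Nat.eq_one_of_dvd_coprimes hc d1 d2
  exact AddMonoid.addOrderOf_eq_one_iff.1 h3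

/-- **AR-C1, abstract form.** -/
lemma c1_abstract {p m : ℕ} (hm : Nat.Coprime m p) (res : Y → Z)
    (hres : ∀ y : Y, res y = 0 → m • y = 0) (hZ : ∀ z : Z, z = 0)
    (y : Y) (hy : ∃ k : ℕ, p ^ k • y = 0) : y = 0 := by
  obtain ⟨k, hk⟩ := hy
  exact eq_zero_of_coprime_nsmul hm y (hres y (hZ _)) hk

/-- **AR-C2, abstract form.**  `N = p^a * m` kills `Y`, `m > 0` is prime to `p > 0`,
`res y = 0` implies `m • y = 0`, and `Z` is generated by `res r`: then the `p`-primary part of
`Y` is generated by the `p`-primary component of `r`. -/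
lemma c2_abstract {p a m : ℕ} (hp : 0 < p) (hm0 : 0 < m) (hm : Nat.Coprime m p) (res : Y →+ Z)
    (hres : ∀ y : Y, res y = 0 → m • y = 0) (r : Y)
    (hgen : ∀ z : Z, ∃ n : ℕ, z = n • res r)
    (hN : ∀ y : Y, (p ^ a * m) • y = 0) :
    ∃ g : Y, (∃ k : ℕ, p ^ k • g = 0) ∧
      ∀ y : Y, (∃ k : ℕ, p ^ k • y = 0) → ∃ n : ℕ, y = n • g := by
  have hc : Nat.Coprime m (p ^ a) := Nat.Coprime.pow_right a hm
  obtain ⟨u, v, huv⟩ := exists_bezout_nat hm0 (pow_pos hp a) hc
  refine ⟨(u * m) • r, ⟨a, ?_⟩, ?_⟩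
  · rw [← mul_smul]
    have : p ^ a * (u * m) = u * (p ^ a * m) := by ring
    rw [this, mul_smul, hN, smul_zero]
  · rintro y ⟨k, hk⟩
    obtain ⟨n, hn⟩ := hgen (res y)
    have h0 : res (y - n • r) = 0 := by
      rw [map_sub, map_nsmul, hn, sub_self]
    have h1 : m • y = (m * n) • r := by
      have h2 := hres _ h0
      rw [smul_sub, sub_eq_zero] at h2
      rw [h2, mul_smul]
    -- `p ^ a • y = 0`
    have h3 : p ^ a • y = 0 := by
      have d1 : addOrderOf y ∣ p ^ a * m := addOrderOf_dvd_of_nsmul_eq_zero (hN y)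
      have d2 : addOrderOf y ∣ p ^ k := addOrderOf_dvd_of_nsmul_eq_zero hk
      have hck : Nat.Coprime (addOrderOf y) m :=
        Nat.Coprime.coprime_dvd_left d2 (Nat.Coprime.pow_left k hm.symm)
      have d3 : addOrderOf y ∣ p ^ a := hck.dvd_of_dvd_mul_right d1
      exact addOrderOf_dvd_iff_nsmul_eq_zero.1 d3
    refine ⟨n, ?_⟩
    have h4 : (u * m) • y = y := by
      rw [huv, add_smul, one_smul, mul_smul, h3, smul_zero, add_zero]
    calc y = (u * m) • y := h4.symm
      _ = u • (m • y) := by rw [mul_smul]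
      _ = u • ((m * n) • r) := by rw [h1]
      _ = n • ((u * m) • r) := by
          rw [← mul_smul, ← mul_smul]
          congr 1
          ring

end Abstract

/-! ## The leaves -/

section Leaves

variable {S : Finset Nat.Primes} {p : ℕ}

/-- Injectivity of the transport isomorphism. -/
lemma resResIso_hom_injective {k G : Type} [CommRing k] [Group G] (A : Rep.{0} k G)
    (P : Subgroup G) (K : Subgroup P) (n : ℕ) :
    Function.Injective (T.H353.resResIso353 A P K n).hom.hom := by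
  intro a b hab
  have h := congrArg (T.H353.resResIso353 A P K n).inv.hom hab
  have e := fun z => congrArg (fun f => f.hom z) (T.H353.resResIso353 A P K n).hom_inv_id
  exact (e a).symm.trans (h.trans (e b))

/-- **AR-C1.** -/
theorem h1CLeaf : H1CLeaf S p := by
  intro c L hμ H y hy
  obtain ⟨hp, -, -⟩ := c.adm
  have : Fact p.Prime := ⟨hp⟩
  have hC := c.good.good.gd1 L hμ
  obtain ⟨P⟩ : Nonempty (Sylow p H) := inferInstance
  have hP' : IsPGroup p ((P : Subgroup H).map H.subtype) :=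
    IsPGroup.map P.isPGroup' H.subtype
  obtain ⟨h1, -, -⟩ := hC _ hP'
  have hzero : Limits.IsZero (groupCohomology (T.resSub (T.resSub (c.D.C L) H) (P : Subgroup H)) 1) :=
    Limits.IsZero.of_iso h1 (T.H353.resResIso353 (c.D.C L) H (P : Subgroup H) 1)
  have hsub := ModuleCat.isZero_iff_subsingleton.mp hzero
  have hidx : Nat.Coprime (P : Subgroup H).index p := by
    have := P.not_dvd_index
    exact (Nat.Coprime.symm ((Nat.Prime.coprime_iff_not_dvd hp).2 this))
  refine c1_abstract (p := p) (m := (P : Subgroup H).index) hidx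
    (fun y => (T.resMap (T.resSub (c.D.C L) H) (P : Subgroup H) 1).hom y) ?_ ?_ y hy
  · intro y hy0
    exact T.H572.resIndex ℤ H (T.resSub (c.D.C L) H) (P : Subgroup H) 1 Nat.one_pos y hy0
  · intro z
    exact hsub.elim _ _

/-- **AR-C2.** -/
theorem h2CLeaf : H2CLeaf S p := by
  intro c L hμ H
  obtain ⟨hp, -, -⟩ := c.adm
  have : Fact p.Prime := ⟨hp⟩
  have hC := c.good.good.gd1 L hμ
  obtain ⟨P⟩ : Nonempty (Sylow p H) := inferInstance
  have hP' : IsPGroup p ((P : Subgroup H).map H.subtype) :=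
    IsPGroup.map P.isPGroup' H.subtype
  obtain ⟨-, -, hgen⟩ := hC _ hP'
  have hidx : Nat.Coprime (P : Subgroup H).index p := by
    have := P.not_dvd_index
    exact (Nat.Coprime.symm ((Nat.Prime.coprime_iff_not_dvd hp).2 this))
  have hidx0 : 0 < (P : Subgroup H).index := Nat.pos_of_ne_zero (Subgroup.index_ne_zero_of_finite)
  -- `|H| = p ^ a * [H : P]`
  obtain ⟨a, ha⟩ := IsPGroup.iff_card.1 P.isPGroup'
  have hcard : Nat.card H = p ^ a * (P : Subgroup H).index := by
    rw [← ha]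
    exact ((P : Subgroup H).card_mul_index).symm
  set r : Hn H (c.D.C L) 2 := (T.resMap (c.D.C L) H 2).hom (c.D.γ L) with hr
  refine c2_abstract (p := p) (a := a) (m := (P : Subgroup H).index) hp.pos hidx0 hidx
    ((T.resMap (T.resSub (c.D.C L) H) (P : Subgroup H) 2).hom.toAddMonoidHom) ?_ r ?_ ?_
  · intro y hy0
    exact T.H572.resIndex ℤ H (T.resSub (c.D.C L) H) (P : Subgroup H) 2 (by norm_num) y hy0
  · intro z
    obtain ⟨n, hn⟩ := hgen ((T.H353.resResIso353 (c.D.C L) H (P : Subgroup H) 2).hom.hom z)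
    refine ⟨n, resResIso_hom_injective (c.D.C L) H (P : Subgroup H) 2 ?_⟩
    rw [hn, map_nsmul]
    congr 1
    exact (T.H353.resResIso353_hom_resMap (c.D.C L) H (P : Subgroup H) 2 (c.D.γ L)).symm
  · intro y
    rw [← hcard]
    exact T.H572.cardTorsion ℤ H (T.resSub (c.D.C L) H) 2 (by norm_num) y

end Leaves

end

end Fermat.Agent.S55.K.AR.H748
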