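import Fermat.Agent.S55.K.AR.Spec
import Fermat.Agent.S55.E1.H603.FinLevelH1

/-!
# S55, layer K, block AR: leaves AR-CAP1 and AR-CAP2 (helper837, subtask 631)

Capitulation on cohomology in the tower: a `p`-primary class of `Hⁿ(H, C'(F))` (`n = 1, 2`) which
dies in `Hⁿ(H, C(F))` dies in `Hⁿ(H', C'(F'))` for some level `F' ≥ F`
(`C' = im (J → C)`, `H' = ` preimage of `H` in `Gal(F'/ℚ)`).

* `nsmul_map_H1π_eq_zero`, `nsmul_map_H2π_eq_zero` : the abstract one-step lemmas (Mathlib only);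
* `exists_clear` : finitely many elements of `C(F)` are moved into `C'(F')` by `m · tr`, `p ∤ m`
  (GD5, GD5b, GD7a, GD7b, directedness of the levels);
* `capH1 : CapH1Leaf S p`, `capH2 : CapH2Leaf S p`.
-/

set_option autoImplicit false
set_option linter.style.haveILetI false

open CategoryTheory groupCohomology

noncomputable section

namespace Fermat.Agent.S55.K.AR.H837

open Fermat.Agent.S55 Fermat.Agent.S55.Tow Fermat.Agent.S55.E1.Lim Fermat.Agent.S55.K.AR

/-! ## Abstract one-step lemmas -/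

section Abstract

variable {Γ Γ' : Type} [Group Γ] [Group Γ'] (π : Γ' →* Γ)
  {C₁ C : Rep.{0} ℤ Γ} {C₁' C' : Rep.{0} ℤ Γ'} (incl : C₁ ⟶ C) (incl' : C₁' ⟶ C')
  (t₁ : Rep.res π C₁ ⟶ C₁') (t : Rep.res π C ⟶ C')

/-- a class killed by `m` prime to `p` and by `p ^ a` vanishes -/
theorem eq_zero_of_nsmul_of_pow {A : Type*} [AddCommGroup A] {p m a : ℕ} (hp : p.Prime)
    (hm : ¬ p ∣ m) {y : A} (h1 : m • y = 0) (h2 : p ^ a • y = 0) : y = 0 := by
  have hcop : Nat.Coprime m (p ^ a) :=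
    Nat.Coprime.pow_right a ((Nat.Prime.coprime_iff_not_dvd hp).mpr hm).symm
  have hd1 : addOrderOf y ∣ m := addOrderOf_dvd_of_nsmul_eq_zero h1
  have hd2 : addOrderOf y ∣ p ^ a := addOrderOf_dvd_of_nsmul_eq_zero h2
  have hd : addOrderOf y ∣ 1 := by
    have := Nat.dvd_gcd hd1 hd2
    rwa [hcop.gcd_eq_one] at this
  exact AddMonoid.addOrderOf_eq_one_iff.mp (Nat.dvd_one.mp hd)

/-- **Degree 1.**  If the `1`-cocycle `ζ` with values in `C₁` becomes the coboundary of `b ∈ C`,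
and `t (m • b)` lies in `C₁'`, then `m • inf [ζ] = 0` in `H¹(Γ', C₁')`. -/
theorem nsmul_map_H1π_eq_zero (hinj : Function.Injective incl'.hom)
    (hcomm : ∀ x : C₁.V, incl'.hom (t₁.hom x) = t.hom (incl.hom x))
    (ζ : cocycles₁ C₁) (b : C.V) (hb : ∀ g : Γ, C.ρ g b - b = incl.hom (ζ g))
    (m : ℕ) (b' : C₁'.V) (hb' : incl'.hom b' = t.hom (m • b)) :
    m • (groupCohomology.map π t₁ 1).hom ((H1π C₁).hom ζ) = 0 := by
  have h2 : (groupCohomology.map π t₁ 1).hom ((H1π C₁).hom ζ) =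
      (H1π C₁').hom (mapCocycles₁ π t₁ ζ) :=
    congr($(H1π_comp_map (A := C₁) (B := C₁') π t₁) ζ)
  rw [h2, ← map_nsmul, H1π_eq_zero_iff]
  refine ⟨b', ?_⟩
  funext g
  apply hinj
  show incl'.hom (C₁'.ρ g b' - b') = incl'.hom (m • t₁.hom (ζ (π g)))
  have hR : incl'.hom (m • t₁.hom (ζ (π g))) = m • (C'.ρ g (t.hom b) - t.hom b) := by
    rw [map_nsmul, hcomm, ← hb, map_sub]
    congr 2
    exact Rep.hom_comm_apply t g b
  have hL : incl'.hom (C₁'.ρ g b' - b') = m • (C'.ρ g (t.hom b) - t.hom b) := by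
    rw [map_sub, Rep.hom_comm_apply incl' g b', hb', map_nsmul, map_nsmul, smul_sub]
  rw [hL, hR]

/-- **Degree 2.**  If the `2`-cocycle `ζ` with values in `C₁` becomes the coboundary of
`b : Γ → C`, and all `t (m • b g)` lie in `C₁'`, then `m • inf [ζ] = 0` in `H²(Γ', C₁')`. -/
theorem nsmul_map_H2π_eq_zero (hinj : Function.Injective incl'.hom)
    (hcomm : ∀ x : C₁.V, incl'.hom (t₁.hom x) = t.hom (incl.hom x))
    (ζ : cocycles₂ C₁) (b : Γ → C.V)
    (hb : ∀ g k : Γ, C.ρ g (b k) - b (g * k) + b g = incl.hom (ζ (g, k)))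
    (m : ℕ) (b' : Γ → C₁'.V) (hb' : ∀ g, incl'.hom (b' g) = t.hom (m • b g)) :
    m • (groupCohomology.map π t₁ 2).hom ((H2π C₁).hom ζ) = 0 := by
  have h2 : (groupCohomology.map π t₁ 2).hom ((H2π C₁).hom ζ) =
      (H2π C₁').hom (mapCocycles₂ π t₁ ζ) :=
    congr($(H2π_comp_map (A := C₁) (B := C₁') π t₁) ζ)
  rw [h2, ← map_nsmul, H2π_eq_zero_iff]
  refine ⟨fun γ => b' (π γ), ?_⟩
  funext ⟨γ, δ⟩
  apply hinj
  show incl'.hom (C₁'.ρ γ (b' (π δ)) - b' (π (γ * δ)) + b' (π γ)) =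
    incl'.hom (m • t₁.hom (ζ (π γ, π δ)))
  have hR : incl'.hom (m • t₁.hom (ζ (π γ, π δ))) =
      m • (C'.ρ γ (t.hom (b (π δ))) - t.hom (b (π γ * π δ)) + t.hom (b (π γ))) := by
    rw [map_nsmul, hcomm, ← hb, map_add, map_sub]
    congr 3
    exact Rep.hom_comm_apply t γ (b (π δ))
  have hL : incl'.hom (C₁'.ρ γ (b' (π δ)) - b' (π (γ * δ)) + b' (π γ)) =
      m • (C'.ρ γ (t.hom (b (π δ))) - t.hom (b (π γ * π δ)) + t.hom (b (π γ))) := by
    rw [map_add, map_sub, Rep.hom_comm_apply incl' γ (b' (π δ)), hb', hb', hb', map_mul,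
      map_nsmul, map_nsmul, map_nsmul, map_nsmul, smul_add, smul_sub]
  rw [hL, hR]

end Abstract

/-! ## Clearing lemma in the tower -/

section Tower

variable {S : Finset Nat.Primes} {p : ℕ}

lemma isLocalSum_nsmul' {D : TowerDatum S} {L : Level S} (n : ℕ) {x : (D.C L).V}
    (hx : D.IsLocalSum L x) : D.IsLocalSum L (n • x) := by
  rw [← mem_C1Add] at hx ⊢
  exact (C1Add D L).nsmul_mem hx n

lemma isLocalSum_tr' {D : TowerDatum S} (h7 : TrCompat D) {L L' : Level S} (h : L ≤ L')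
    {x : (D.C L).V} (hx : D.IsLocalSum L x) : D.IsLocalSum L' ((D.tr h).hom x) := by
  rw [← mem_C1Add] at hx ⊢
  exact tr_mem_C1Add h7 h x hx

/-- **Clearing lemma.**  Finitely many elements of `C(F)` are moved into `C'(F') = im J(F')`,
`F' ≥ F`, by `m · tr`, with `m` prime to `p`. -/
theorem exists_clear (c : Ctx S p) (hp : p.Prime) (L : Level S) {ι : Type} (b : ι → (c.D.C L).V)
    (s : Finset ι) :
    ∃ (m : ℕ) (L' : Level S) (h : L ≤ L'), ¬ p ∣ m ∧
      ∀ x ∈ s, c.D.IsLocalSum L' ((c.D.tr h).hom (m • b x)) := by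
  classical
  induction s using Finset.induction_on with
  | empty =>
    exact ⟨1, L, le_refl L, fun h => hp.one_lt.ne' (Nat.dvd_one.mp h), fun x hx => by simp at hx⟩
  | insert x s hxs ih =>
    obtain ⟨m₁, L₁, h₁, hm₁, hs⟩ := ih
    obtain ⟨m, hm0, hm⟩ := c.good.gd5b L (b x)
    obtain ⟨e, m₂, hm₂, rfl⟩ := Nat.exists_eq_pow_mul_and_not_dvd hm0.ne' p hp.ne_one
    have hx2 : c.D.IsLocalSum L (p ^ e • (m₂ • b x)) := by
      rw [← mul_smul]
      exact hm
    obtain ⟨L₂, h₂, hL₂⟩ := c.good.good.gd5 L (m₂ • b x) e hx2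
    obtain ⟨L₃, hk₁, hk₂⟩ := exists_ge_ge L₁ L₂
    refine ⟨m₁ * m₂, L₃, h₁.trans hk₁, ?_, ?_⟩
    · intro hdvd
      rcases (Nat.Prime.dvd_mul hp).mp hdvd with h | h
      · exact hm₁ h
      · exact hm₂ h
    · intro y hy
      rcases Finset.mem_insert.mp hy with rfl | hy
      · have h3 := isLocalSum_tr' c.h7 hk₂ hL₂
        rw [c.good.good.gd7b h₂ hk₂] at h3
        have h4 := isLocalSum_nsmul' m₁ h3
        rw [← map_nsmul, ← mul_smul] at h4
        exact h4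
      · have h3 := isLocalSum_tr' c.h7 hk₁ (hs y hy)
        rw [c.good.good.gd7b h₁ hk₁] at h3
        have h4 := isLocalSum_nsmul' m₂ h3
        rw [← map_nsmul, ← mul_smul, mul_comm] at h4
        exact h4

/-- Lifting an element of `im J(F')` to `C'(F')`. -/
lemma exists_C1_of_isLocalSum {D : TowerDatum S} {L : Level S} {x : (D.C L).V}
    (hx : D.IsLocalSum L x) : ∃ y : (C1 D L).V, (inclC1 D L).hom y = x :=
  ⟨subMk x ((mem_C1Add D L x).2 hx), rfl⟩

/-- **AR-CAP1.** -/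
theorem capH1 (S : Finset Nat.Primes) (p : ℕ) : CapH1Leaf S p := by
  intro c L H s hs hs0
  obtain ⟨hp, -, -⟩ := c.adm
  obtain ⟨a, hsa⟩ := hs
  induction s using H1_induction_on with
  | h ζ =>
    have h1 : coe H (inclC1 c.D L) 1 ((H1π (T.resSub (C1 c.D L) H)).hom ζ) =
        (H1π (T.resSub (c.D.C L) H)).hom
          (mapCocycles₁ (MonoidHom.id H) ((Rep.resFunctor H.subtype).map (inclC1 c.D L)) ζ) :=
      congr($(H1π_comp_map (A := T.resSub (C1 c.D L) H) (B := T.resSub (c.D.C L) H)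
        (MonoidHom.id H) ((Rep.resFunctor H.subtype).map (inclC1 c.D L))) ζ)
    rw [h1, H1π_eq_zero_iff] at hs0
    obtain ⟨b, hb⟩ := hs0
    have hb' : ∀ g : H, (T.resSub (c.D.C L) H).ρ g b - b =
        ((Rep.resFunctor H.subtype).map (inclC1 c.D L)).hom (ζ g) := fun g => congrFun hb g
    obtain ⟨m, L', h, hm, hmem⟩ := exists_clear c hp L (fun _ : Unit => b) {()}
    obtain ⟨b₁, hb₁⟩ := exists_C1_of_isLocalSum (hmem () (Finset.mem_singleton_self _))
    refine ⟨L', h, ?_⟩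
    have hpa : p ^ a • infUp h H (trC1 c.h7 h) 1 ((H1π (T.resSub (C1 c.D L) H)).hom ζ) = 0 := by
      rw [← map_nsmul, hsa, map_zero]
    refine eq_zero_of_nsmul_of_pow hp hm ?_ hpa
    exact nsmul_map_H1π_eq_zero (projSub (Level.proj h) H)
      ((Rep.resFunctor H.subtype).map (inclC1 c.D L))
      ((Rep.resFunctor (up h H).subtype).map (inclC1 c.D L'))
      (semiSub (Level.proj h) H (trC1 c.h7 h)) (semiSub (Level.proj h) H (c.D.tr h))
      (inclC1_injective c.D L') (fun x => inclC1_trC1 c.h7 h x) ζ b hb' m b₁ hb₁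

/-- **AR-CAP2.** -/
theorem capH2 (S : Finset Nat.Primes) (p : ℕ) : CapH2Leaf S p := by
  intro c L H s hs hs0
  obtain ⟨hp, -, -⟩ := c.adm
  obtain ⟨a, hsa⟩ := hs
  induction s using H2_induction_on with
  | h ζ =>
    have h1 : coe H (inclC1 c.D L) 2 ((H2π (T.resSub (C1 c.D L) H)).hom ζ) =
        (H2π (T.resSub (c.D.C L) H)).hom
          (mapCocycles₂ (MonoidHom.id H) ((Rep.resFunctor H.subtype).map (inclC1 c.D L)) ζ) :=
      congr($(H2π_comp_map (A := T.resSub (C1 c.D L) H) (B := T.resSub (c.D.C L) H)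
        (MonoidHom.id H) ((Rep.resFunctor H.subtype).map (inclC1 c.D L))) ζ)
    rw [h1, H2π_eq_zero_iff] at hs0
    obtain ⟨b, hb⟩ := hs0
    have hb' : ∀ g k : H, (T.resSub (c.D.C L) H).ρ g (b k) - b (g * k) + b g =
        ((Rep.resFunctor H.subtype).map (inclC1 c.D L)).hom (ζ (g, k)) :=
      fun g k => congrFun hb (g, k)
    letI : Fintype H := Fintype.ofFinite H
    obtain ⟨m, L', h, hm, hmem⟩ := exists_clear c hp L b Finset.univ
    choose b₁ hb₁ using fun g => exists_C1_of_isLocalSum (hmem g (Finset.mem_univ g))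
    refine ⟨L', h, ?_⟩
    have hpa : p ^ a • infUp h H (trC1 c.h7 h) 2 ((H2π (T.resSub (C1 c.D L) H)).hom ζ) = 0 := by
      rw [← map_nsmul, hsa, map_zero]
    refine eq_zero_of_nsmul_of_pow hp hm ?_ hpa
    exact nsmul_map_H2π_eq_zero (projSub (Level.proj h) H)
      ((Rep.resFunctor H.subtype).map (inclC1 c.D L))
      ((Rep.resFunctor (up h H).subtype).map (inclC1 c.D L'))
      (semiSub (Level.proj h) H (trC1 c.h7 h)) (semiSub (Level.proj h) H (c.D.tr h))
      (inclC1_injective c.D L') (fun x => inclC1_trC1 c.h7 h x) ζ b hb' m b₁ hb₁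

end Tower

end Fermat.Agent.S55.K.AR.H837

end
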