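import Fermat.Agent.S55.K.AR.E2H79

/-!
# S55 / layer K / block AR, leaf AR-COKER (helper635)

`cokerLeaf : CokerLeaf S p`  (GO4 in the tower): of two classes of `H²(Gal(F/K), J(F))[p]` a
non-trivial combination comes, at a higher level, from `H²(Gal(F'/K), E(F'))[p]`.

Chase (blueprint `coord/S55-K-AR.md` §2), on top of the library of `E2H79.lean` (helper79):
`c_i := jTot_* x_i ∈ H²(H, C)[p]`; C2 ⇒ `a c₁ + b c₂ = 0`, `(a, b) ≢ 0 mod p`; `z := a x₁ + b x₂`;
`jC1_* z` dies in `H²(C)` ⇒ CAP2 ⇒ `inf z = diag_* w`, `w` `p`-primary; `diag_* (p w) = 0` ⇒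
HASSE ⇒ `p · inf w = 0`.
-/

set_option autoImplicit false

open CategoryTheory

namespace Fermat.Agent.S55.K.AR.H635

open Fermat.Agent.S55 Fermat.Agent.S55.Tow Fermat.Agent.S55.E1.Lim Fermat.Agent.S55.K.AR

noncomputable section

attribute [local instance 10000] Rep.hV2

/-! ## The comparison (restriction) map for `K ≤ K'` -/

section General

variable {Γ Γ' : Type} [Group Γ] [Group Γ']

/-- Restriction `Hⁿ(K', A) → Hⁿ(K, A)` for `K ≤ K'`. -/
def kap {K K' : Subgroup Γ} (hK : K ≤ K') (A : Rep.{0} ℤ Γ) (n : ℕ) :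
    Hn K' A n →ₗ[ℤ] Hn K A n :=
  (groupCohomology.map (A := T.resSub A K') (B := T.resSub A K) (Subgroup.inclusion hK)
    (H79.inclSemi hK A) n).hom

/-- `kap` is natural in the coefficients. -/
lemma kap_coe {K K' : Subgroup Γ} (hK : K ≤ K') {A B : Rep.{0} ℤ Γ} (f : A ⟶ B) (n : ℕ)
    (x : Hn K' A n) : kap hK B n (coe K' f n x) = coe K f n (kap hK A n x) := by
  have h1 := groupCohomology.map_comp (A := T.resSub A K') (B := T.resSub B K')
    (C := T.resSub B K) (MonoidHom.id K') (Subgroup.inclusion hK)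
    ((Rep.resFunctor K'.subtype).map f) (H79.inclSemi hK B) n
  have h2 := groupCohomology.map_comp (A := T.resSub A K') (B := T.resSub A K)
    (C := T.resSub B K) (Subgroup.inclusion hK) (MonoidHom.id K)
    (H79.inclSemi hK A) ((Rep.resFunctor K.subtype).map f) n
  have h3 : groupCohomology.map (A := T.resSub A K') (B := T.resSub B K)
      ((MonoidHom.id K').comp (Subgroup.inclusion hK))
      ((Rep.resFunctor (Subgroup.inclusion hK)).map ((Rep.resFunctor K'.subtype).map f) ≫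
        H79.inclSemi hK B) n =
      groupCohomology.map (A := T.resSub A K') (B := T.resSub B K)
      ((Subgroup.inclusion hK).comp (MonoidHom.id K))
      ((Rep.resFunctor (MonoidHom.id K)).map (H79.inclSemi hK A) ≫
        (Rep.resFunctor K.subtype).map f) n := by
    refine groupCohomology.map_congr rfl (LinearMap.ext fun a => ?_) n
    rfl
  rw [h1, h2] at h3
  exact congrArg (fun m => m.hom x) h3

/-- Transitivity of inflation through `kap`. -/
lemma kap_infSub {Γ'' : Type} [Group Γ''] (π : Γ' →* Γ) (π' : Γ'' →* Γ') (π'' : Γ'' →* Γ)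
    (hπ : ∀ g, π'' g = π (π' g)) (H : Subgroup Γ) {A : Rep.{0} ℤ Γ} {A' : Rep.{0} ℤ Γ'}
    {A'' : Rep.{0} ℤ Γ''} (t : Rep.res π A ⟶ A') (t' : Rep.res π' A' ⟶ A'')
    (t'' : Rep.res π'' A ⟶ A'') (ht : ∀ a : A.V, t''.hom a = t'.hom (t.hom a)) (n : ℕ)
    (hle : H.comap π'' ≤ (H.comap π).comap π') (x : Hn H A n) :
    kap hle A'' n (infSub π' (H.comap π) t' n (infSub π H t n x)) = infSub π'' H t'' n x := by
  have h1 := groupCohomology.map_comp (A := T.resSub A H) (B := T.resSub A' (H.comap π))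
    (C := T.resSub A'' ((H.comap π).comap π')) (projSub π H) (projSub π' (H.comap π))
    (semiSub π H t) (semiSub π' (H.comap π) t') n
  have h2 := groupCohomology.map_comp (A := T.resSub A H)
    (B := T.resSub A'' ((H.comap π).comap π')) (C := T.resSub A'' (H.comap π''))
    ((projSub π H).comp (projSub π' (H.comap π))) (Subgroup.inclusion hle)
    ((Rep.resFunctor (projSub π' (H.comap π))).map (semiSub π H t) ≫ semiSub π' (H.comap π) t')
    (H79.inclSemi hle A'') n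
  have h3 : groupCohomology.map (A := T.resSub A H) (B := T.resSub A'' (H.comap π''))
      (((projSub π H).comp (projSub π' (H.comap π))).comp (Subgroup.inclusion hle))
      ((Rep.resFunctor (Subgroup.inclusion hle)).map
        ((Rep.resFunctor (projSub π' (H.comap π))).map (semiSub π H t) ≫
          semiSub π' (H.comap π) t') ≫ H79.inclSemi hle A'') n =
      groupCohomology.map (A := T.resSub A H) (B := T.resSub A'' (H.comap π''))
        (projSub π'' H) (semiSub π'' H t'') n := by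
    have hfg : ((projSub π H).comp (projSub π' (H.comap π))).comp (Subgroup.inclusion hle) =
        projSub π'' H := by
      refine MonoidHom.ext fun g => Subtype.ext ?_
      exact (hπ g).symm
    refine groupCohomology.map_congr hfg ?_ n
    refine LinearMap.ext fun a => ?_
    exact (ht a).symm
  have h4 := (congrArg (fun m => m ≫ groupCohomology.map (A := T.resSub A'' ((H.comap π).comap π'))
    (B := T.resSub A'' (H.comap π'')) (Subgroup.inclusion hle) (H79.inclSemi hle A'') n) h1).symm.trans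
      (h2.symm.trans h3)
  exact congrArg (fun m => m.hom x) h4

end General

/-! ## Cyclic bookkeeping -/

section Arith

variable {A : Type} [AddCommGroup A]

/-- Two `p`-torsion multiples of a `p`-primary element are dependent modulo `p`. -/
lemma exists_dependent (p : ℕ) (hp : p.Prime) (g c₁ c₂ : A) (hg : ∃ k : ℕ, p ^ k • g = 0)
    (h₁ : ∃ n : ℕ, c₁ = n • g) (h₂ : ∃ n : ℕ, c₂ = n • g) (hc₁ : p • c₁ = 0)
    (hc₂ : p • c₂ = 0) :
    ∃ a b : ℕ, (¬ p ∣ a ∨ ¬ p ∣ b) ∧ a • c₁ + b • c₂ = 0 := by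
  by_cases h0 : c₁ = 0
  · exact ⟨1, 0, Or.inl (fun h => hp.one_lt.ne' (Nat.dvd_one.1 h)), by simp [h0]⟩
  obtain ⟨k, hk⟩ := hg
  obtain ⟨n₁, rfl⟩ := h₁
  obtain ⟨n₂, rfl⟩ := h₂
  -- the order of `g`
  obtain ⟨j, -, hj⟩ := (Nat.dvd_prime_pow hp).1 (addOrderOf_dvd_of_nsmul_eq_zero hk)
  have hjpos : j ≠ 0 := by
    rintro rfl
    rw [pow_zero, AddMonoid.addOrderOf_eq_one_iff] at hj
    apply h0
    rw [hj, smul_zero]
  obtain ⟨i, rfl⟩ : ∃ i, j = i + 1 := ⟨j - 1, by omega⟩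
  have hdiv : ∀ n : ℕ, p • n • g = 0 → p ^ i ∣ n := by
    intro n hn
    rw [← mul_nsmul'] at hn
    have h1 : p ^ (i + 1) ∣ p * n := by
      rw [← hj]
      exact addOrderOf_dvd_of_nsmul_eq_zero hn
    rw [pow_succ, mul_comm] at h1
    exact Nat.dvd_of_mul_dvd_mul_left hp.pos h1
  obtain ⟨m₁, rfl⟩ := hdiv n₁ hc₁
  obtain ⟨m₂, rfl⟩ := hdiv n₂ hc₂
  have hm₁ : ¬ p ∣ m₁ := by
    rintro ⟨u, rfl⟩
    apply h0
    have h2 : p ^ i * (p * u) = u * p ^ (i + 1) := by ring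
    rw [h2, mul_nsmul', ← hj, addOrderOf_nsmul_eq_zero, smul_zero]
  refine ⟨m₂, (p - 1) * m₁, Or.inr ?_, ?_⟩
  · intro h
    rcases (Nat.Prime.dvd_mul hp).1 h with h3 | h3
    · have := Nat.le_of_dvd (Nat.sub_pos_of_lt hp.one_lt) h3
      have := hp.one_lt
      omega
    · exact hm₁ h3
  · rw [← mul_nsmul', ← mul_nsmul', ← add_nsmul]
    have h4 : m₂ * (p ^ i * m₁) + (p - 1) * m₁ * (p ^ i * m₂) = (m₁ * m₂) * p ^ (i + 1) := by
      have hp1 : p - 1 + 1 = p := Nat.sub_add_cancel hp.one_lt.le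
      calc m₂ * (p ^ i * m₁) + (p - 1) * m₁ * (p ^ i * m₂)
          = (m₁ * m₂) * (p ^ i * (p - 1 + 1)) := by ring
        _ = (m₁ * m₂) * p ^ (i + 1) := by rw [hp1, pow_succ]
    rw [h4, mul_nsmul', ← hj, addOrderOf_nsmul_eq_zero, smul_zero]

end Arith

/-! ## The tower -/

section Tower

variable {S : Finset Nat.Primes}

lemma trJ_trans {L L' L'' : Level S} (h : L ≤ L') (h' : L' ≤ L'') (q : Nat.Primes)
    (f : (L.J q).V) :
    (Level.trJ (h.trans h') q).hom f = (Level.trJ h' q).hom ((Level.trJ h q).hom f) := by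
  apply L''.J_ext q
  intro g
  show Level.inclLoc (h.trans h') q (L.Jeval q f (Level.proj (h.trans h') g)) =
    Level.inclLoc h' q (Level.inclLoc h q (L.Jeval q f (Level.proj h (Level.proj h' g))))
  rw [H79.proj_trans_apply]
  apply L''.locCoe_injective q
  rfl

lemma trJtot_trans {L L' L'' : Level S} (h : L ≤ L') (h' : L' ≤ L'') (x : (Jtot L).V) :
    (trJtot (h.trans h')).hom x = (trJtot h').hom ((trJtot h).hom x) := by
  apply piRep_ext
  intro q
  exact trJ_trans h h' q.1 (piTo x q)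

/-- The class `z ∈ H²(H, J(F))` comes, at a higher level, from `H²(E)[p]`. -/
def Cok (p : ℕ) (L : Level S) (H : Subgroup L.Gal) (z : Hn H (Jtot L) 2) : Prop :=
  ∃ (L' : Level S) (h : L ≤ L') (y : Hn (up h H) (E1.Lim.sUnits L') 2), p • y = 0 ∧
    coe (up h H) (diagTot L') 2 y = infUp h H (trJtot h) 2 z

lemma Cok.descend {p : ℕ} {L L' : Level S} (h : L ≤ L') (H : Subgroup L.Gal)
    (z : Hn H (Jtot L) 2) (hz : Cok p L' (up h H) (infUp h H (trJtot h) 2 z)) : Cok p L H z := by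
  obtain ⟨L'', h', y, hy, hyz⟩ := hz
  have hle : H.comap (Level.proj (h.trans h')) ≤ (H.comap (Level.proj h)).comap (Level.proj h') := by
    intro g hg
    show Level.proj h (Level.proj h' g) ∈ H
    rw [← H79.proj_trans_apply]
    exact hg
  refine ⟨L'', h.trans h', kap hle (E1.Lim.sUnits L'') 2 y, ?_, ?_⟩
  · rw [← map_nsmul, hy, map_zero]
  · have h1 := kap_coe hle (diagTot L'') 2 y
    have h2 := kap_infSub (Level.proj h) (Level.proj h') (Level.proj (h.trans h'))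
      (H79.proj_trans_apply h h') H (trJtot h) (trJtot h') (trJtot (h.trans h'))
      (trJtot_trans h h') 2 hle z
    rw [← h1, hyz]
    exact h2

variable {p : ℕ} (c : Ctx S p)

/-- The core of the argument, at a level containing `μ_p`. -/
lemma coker_of_hasMu (hp : p.Prime) (hses : SesExact c) (hcyc : H2CCyclic c) (hcap : CapH2 c)
    (hhasse : HasseTower S p) (L : Level S) (hμ : L.HasMu p) (H : Subgroup L.Gal)
    (x₁ x₂ : Hn H (Jtot L) 2) (hx₁ : p • x₁ = 0) (hx₂ : p • x₂ = 0) :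
    ∃ a b : ℕ, (¬ p ∣ a ∨ ¬ p ∣ b) ∧ Cok p L H (a • x₁ + b • x₂) := by
  -- the images in `H²(C)` are dependent
  obtain ⟨g, hg, hgen⟩ := hcyc L hμ H
  have hc₁ : p • coe H (jTot c.D L) 2 x₁ = 0 := by rw [← map_nsmul, hx₁, map_zero]
  have hc₂ : p • coe H (jTot c.D L) 2 x₂ = 0 := by rw [← map_nsmul, hx₂, map_zero]
  obtain ⟨a, b, hab, hdep⟩ := exists_dependent p hp g _ _ hg
    (hgen _ ⟨1, by rw [pow_one]; exact hc₁⟩) (hgen _ ⟨1, by rw [pow_one]; exact hc₂⟩) hc₁ hc₂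
  refine ⟨a, b, hab, ?_⟩
  -- `z := a x₁ + b x₂`
  obtain ⟨z, hzdef⟩ : ∃ z, z = a • x₁ + b • x₂ := ⟨_, rfl⟩
  rw [← hzdef]
  have hz : p • z = 0 := by
    rw [hzdef, smul_add, smul_comm p a, smul_comm p b, hx₁, hx₂, smul_zero, smul_zero, add_zero]
  have hz0 : coe H (jTot c.D L) 2 z = 0 := by
    rw [hzdef, map_add, map_nsmul, map_nsmul]
    exact hdep
  -- capitulation
  have hs0 : coe H (inclC1 c.D L) 2 (coe H (jC1 c.D L) 2 z) = 0 := by
    rw [← H79.coe_comp, jC1_inclC1]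
    exact hz0
  have hsp : IsPPrim p (coe H (jC1 c.D L) 2 z) :=
    ⟨1, by rw [pow_one, ← map_nsmul, hz, map_zero]⟩
  obtain ⟨L₂, h₂, hcap2⟩ := hcap L H _ hsp hs0
  have hz2 : coe (up h₂ H) (jC1 c.D L₂) 2 (infUp h₂ H (trJtot h₂) 2 z) = 0 := by
    rw [← H79.infSub_coe (Level.proj h₂) H (jC1 c.D L) (jC1 c.D L₂) (trJtot h₂)
      (trC1 c.h7 h₂) (fun a => trC1_jC1 c.h7 h₂ a) 2 z]
    exact hcap2
  obtain ⟨w₀, hw₀⟩ : ∃ w₀ : Hn (up h₂ H) (E1.Lim.sUnits L₂) 2,
      coe (up h₂ H) (diagTot L₂) 2 w₀ = infUp h₂ H (trJtot h₂) 2 z :=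
    H79.exists_of_coe_eq_zero (X := ses c.h4 L₂) (hses L₂) (up h₂ H) 2 _ hz2
  -- a `p`-primary lift
  have hz2p : p ^ 1 • infUp h₂ H (trJtot h₂) 2 z = 0 := by
    rw [pow_one, ← map_nsmul, hz, map_zero]
  obtain ⟨e, k, he1, hdvd⟩ := H79.exists_pprim_mul p hp (Nat.card (up h₂ H)) Nat.card_pos 1
  have hw₁p : p ^ k • e • w₀ = 0 := by
    rw [← mul_nsmul']
    exact H79.nsmul_eq_zero_of_dvd hdvd (H79.card_smul_eq_zero _ _ w₀)
  have hw₁ : coe (up h₂ H) (diagTot L₂) 2 (e • w₀) = infUp h₂ H (trJtot h₂) 2 z := by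
    rw [map_nsmul, hw₀, H79.nsmul_eq_of_modEq he1 hz2p, one_nsmul]
  -- Hasse for `p • w₁`
  have hpw : IsPPrim p (p • e • w₀) := ⟨k, by rw [smul_comm, hw₁p, smul_zero]⟩
  have hpw0 : coe (up h₂ H) (diagTot L₂) 2 (p • e • w₀) = 0 := by
    rw [map_nsmul, hw₁, ← map_nsmul, hz, map_zero]
  obtain ⟨L₃, h₃, hh⟩ := hhasse L₂ (up h₂ H) _ hpw hpw0
  refine Cok.descend h₂ H z ⟨L₃, h₃, infUp h₃ (up h₂ H) (trS h₃) 2 (e • w₀), ?_, ?_⟩
  · rw [← map_nsmul]
    exact hh
  · rw [← H79.infSub_coe (Level.proj h₃) (up h₂ H) (diagTot L₂) (diagTot L₃) (trS h₃)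
      (trJtot h₃) (fun a => H79.trJtot_diagTot h₃ a) 2, hw₁]

/-- **AR-COKER**. -/
theorem cokerLeaf (S : Finset Nat.Primes) (p : ℕ) : CokerLeaf S p := by
  intro c hses hcyc hcap hhasse hmu L H x₁ x₂ hx₁ hx₂
  obtain ⟨hp, -, -⟩ := c.adm
  obtain ⟨⟨L₀, hL₀⟩, hdir⟩ := hmu
  obtain ⟨L₁, h₁, h₀₁⟩ := hdir L L₀
  obtain ⟨a, b, hab, hcok⟩ := coker_of_hasMu c hp hses hcyc hcap hhasse L₁ (hL₀.mono h₀₁)
    (up h₁ H) (infUp h₁ H (trJtot h₁) 2 x₁) (infUp h₁ H (trJtot h₁) 2 x₂)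
    (by rw [← map_nsmul, hx₁, map_zero]) (by rw [← map_nsmul, hx₂, map_zero])
  refine ⟨a, b, hab, ?_⟩
  have h2 : Cok p L H (a • x₁ + b • x₂) := by
    apply Cok.descend h₁ H
    rw [map_add, map_nsmul, map_nsmul]
    exact hcok
  exact h2

end Tower

end

end Fermat.Agent.S55.K.AR.H635
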