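import Fermat.Agent.S55.K.AR.Spec
import Fermat.Agent.S55.KL.H824.PUnbounded
import Fermat.Agent.S55.H414.CycloLevel
import Fermat.Agent.S55.E1.H603.FinLevelH1

/-!
# S55 / layer K, block AR, leaves AR-DEG and AR-MU (helper181)

* `decLeaf : DecLeaf S p` — the `p`-parts of the local degrees `|Gal(F_q/ℚ_q)|`, `q ∈ S`, are
  unbounded in the tower of `S`-levels (`p ∈ S`): adjoin `ζ_{p^J}` for `J` large
  (helper824's `exists_pow_dvd_finrank_adjoin`, helper414's `cycloLevel`).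
* `muDirLeaf : MuDirLeaf S p` — `ℚ(ζ_p)` is a level containing `μ_p`, and levels are directed
  (helper603's `levelSup`).
-/

set_option autoImplicit false
set_option linter.style.haveILetI false

noncomputable section

namespace Fermat.Agent.S55.K.AR.H181

open Fermat.Agent.S55 Fermat.Agent.S55.Tow ExtCitation

variable (S : Finset Nat.Primes) (p : ℕ) [Fact p.Prime]

instance neZero_prime_pow (j : ℕ) : NeZero (p ^ j) := ⟨pow_ne_zero j (Fact.out : p.Prime).ne_zero⟩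

/-- The level `ℚ(ζ_{p^j})` of `S ∋ p`. -/
def cycLevel (hpS : pPrime p ∈ S) (j : ℕ) : Level S :=
  E1.H603.levelOfGalois (H414.cycloLevel (p ^ j))
    (H414.isUnramifiedOutside_cycloLevel p j S hpS) inferInstance

lemma cycLevel_F (hpS : pPrime p ∈ S) (j : ℕ) :
    (cycLevel S p hpS j).F = H414.cycloLevel (p ^ j) := rfl

/-- `ℚ(ζ_{p^i}) ⊆ ℚ(ζ_{p^j})` for `i ≤ j`. -/
lemma cycloLevel_mono {i j : ℕ} (hij : i ≤ j) :
    H414.cycloLevel (p ^ i) ≤ H414.cycloLevel (p ^ j) := by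
  haveI : Algebra.IsIntegral ℚ (AlgebraicClosure ℚ) :=
    (AlgebraicClosure.isAlgebraic ℚ).isIntegral
  exact KL.H824.adjoin_primitiveRoot_mono ℚ (Fact.out : p.Prime)
    (ζ := fun j => H414.zetaBar (p ^ j)) (fun j => H414.zetaBar_spec (p ^ j)) hij

/-- For every prime `q` some `ℚ(ζ_{p^j})` has local degree at `q` divisible by `p^m`. -/
lemma exists_pow_dvd_index (q : Nat.Primes) (m : ℕ) :
    ∃ j : ℕ, p ^ m ∣ ((H414.cycloLevel (p ^ j)).fixingSubgroup.comap (locQ q)).index := by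
  letI : Fact (q : ℕ).Prime := ⟨q.2⟩
  have hp : p.Prime := Fact.out
  have hζ : ∀ j, IsPrimitiveRoot (padicEmbedding (q : ℕ) (H414.zetaBar (p ^ j))) (p ^ j) :=
    fun j => (H414.zetaBar_spec (p ^ j)).map_of_injective (padicEmbedding (q : ℕ)).injective
  have hpK : ((p : ℕ) : PadicAlgCl (q : ℕ)) ≠ 0 := Nat.cast_ne_zero.2 hp.ne_zero
  obtain ⟨j, hj⟩ := KL.H824.exists_pow_dvd_finrank_adjoin ℚ_[(q : ℕ)] hp hpK
    (fun j => padicEmbedding (q : ℕ) (H414.zetaBar (p ^ j))) hζ m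
  refine ⟨j, ?_⟩
  have hidx : ((IntermediateField.adjoin ℚ {H414.zetaBar (p ^ j)}).fixingSubgroup.comap
      (locQ q)).index = Module.finrank ℚ_[(q : ℕ)]
        (IntermediateField.adjoin ℚ_[(q : ℕ)] {padicEmbedding (q : ℕ) (H414.zetaBar (p ^ j))}) :=
    KL.H824.index_comap_fixingSubgroup_adjoin (q : ℕ) (H414.zetaBar (p ^ j))
  show p ^ m ∣ ((IntermediateField.adjoin ℚ {H414.zetaBar (p ^ j)}).fixingSubgroup.comap
      (locQ q)).index
  rw [hidx]
  exact hj

omit [Fact p.Prime] in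
/-- **AR-DEG.** -/
theorem decLeaf : DecLeaf S p := by
  rintro ⟨hp, -, hpS⟩ L m
  haveI : Fact p.Prime := ⟨hp⟩
  have hpS' : pPrime p ∈ S := hpS
  choose j hj using fun q : Nat.Primes => exists_pow_dvd_index p q m
  refine ⟨E1.H603.levelSup L (cycLevel S p hpS' (S.sup j)), E1.H603.le_levelSup_left _ _,
    fun q hq => ?_⟩
  have hle : (E1.H603.levelSup L (cycLevel S p hpS' (S.sup j))).V q ≤
      (H414.cycloLevel (p ^ j q)).fixingSubgroup.comap (locQ q) := by
    apply Subgroup.comap_mono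
    apply IntermediateField.fixingSubgroup_antitone
    exact (cycloLevel_mono p (Finset.le_sup hq)).trans
      (le_sup_right : H414.cycloLevel (p ^ S.sup j) ≤ L.F ⊔ H414.cycloLevel (p ^ S.sup j))
  have h1 := Subgroup.index_dvd_of_le hle
  rw [← Subgroup.index_eq_card]
  exact (hj q).trans h1

omit [Fact p.Prime] in
/-- **AR-MU.** -/
theorem muDirLeaf : MuDirLeaf S p := by
  rintro ⟨hp, -, hpS⟩
  haveI : Fact p.Prime := ⟨hp⟩
  have hpS' : pPrime p ∈ S := hpS
  refine ⟨⟨cycLevel S p hpS' 1, H414.zetaBar (p ^ 1), H414.zetaBar_mem_cycloLevel (p ^ 1), ?_⟩,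
    fun L L' => ⟨E1.H603.levelSup L L', E1.H603.le_levelSup_left _ _,
      E1.H603.le_levelSup_right _ _⟩⟩
  have h := H414.zetaBar_spec (p ^ 1)
  exact Eq.mp (congrArg (IsPrimitiveRoot (H414.zetaBar (p ^ 1))) (pow_one p)) h

end Fermat.Agent.S55.K.AR.H181
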