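/-
S55 moonshot — LAYER K, block AR, leaf **AR-DICT** (helper587).
`dictE3 : DictE3Spec S p`, `dictE2 : DictE2Spec S p`  (`K/AR/Spec.lean` §2).

Dictionary tower → finite levels of `G_ℚ`.  For a level `L` of the tower (`F = L.F`, `U_F = L.U`),
a subgroup `H ≤ Gal(F/ℚ)` and its full preimage `V ≤ G_ℚ` (`IsPre L H V`):
* `quotEquiv : V ⧸ (U_F ∩ V) ≃* H`,  `dictEquiv : 𝔼^{U_F ∩ V} ≃ E(F)` (the two notions of `S`-unit
  agree: `isSUnit_level_iff`, via helper371),
* `dictIso : KL.HL (Res_V 𝔼) (U_F ∩ V) n ≅ Hn H (E(F)) n` (Mathlib `groupCohomology.mapIso`),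
* `dict_infl` : `dictIso⁻¹` intertwines `infUp h H (trS h) n` with `KL.infl`.
A level `W ∩ V` of `(gN S).restrict V` contains some `U_F ∩ V` with `U_F ≤ V` (`exists_level_le`).
-/
import Fermat.Agent.S55.K.AR.Spec
import Fermat.Agent.S55.K.GO3H535.H371.CapDiv
import Fermat.Agent.S55.KL.DevPGroupH784

set_option autoImplicit false

open CategoryTheory

namespace Fermat.Agent.S55.K.AR.H587

open Fermat.Agent.S55 Fermat.Agent.S55.Tow Fermat.Agent.S55.E1.Lim

noncomputable section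

variable {S : Finset Nat.Primes}

/-- The two notions of `S`-unit agree. -/
lemma isSUnit_level_iff (L : Level S) (x : L.units.V) :
    L.IsSUnit x ↔ K.IsSUnit S (L.val x) := by
  constructor
  · intro h
    apply K.GO3H535.H371.isSUnit_of_forall_liesOver
    intro q hq A hA
    exact (K.GO3H535.H371.unitAt_iff_mem (L.val x).ne_zero).2 (by
      have := h q hq A hA
      rwa [Units.val_inv_eq_inv_val] at this)
  · intro h ℓ hℓ A hA
    exact h A (K.GO3H535.H371.outsideS_of_liesOver hℓ hA)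

section Grp

variable (L : Level S) (H : Subgroup L.Gal) (V : Subgroup GQ)

/-- `V` is the full preimage of `H ≤ Gal(F/ℚ)` in `G_ℚ`. -/
def IsPre : Prop := ∀ g : GQ, g ∈ V ↔ (QuotientGroup.mk g : L.Gal) ∈ H

variable {L H V}

lemma IsPre.le (hV : IsPre L H V) : L.U ≤ V := fun g hg =>
  (hV g).2 (by rw [(QuotientGroup.eq_one_iff g).2 hg]; exact H.one_mem)

/-- `V → H`, `v ↦ v mod U_F`. -/
def toH (hV : IsPre L H V) : ↥V →* ↥H where
  toFun v := ⟨QuotientGroup.mk v.1, (hV v.1).1 v.2⟩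
  map_one' := rfl
  map_mul' _ _ := rfl

lemma toH_surjective (hV : IsPre L H V) : Function.Surjective (toH hV) := by
  rintro ⟨h, hh⟩
  obtain ⟨g, rfl⟩ := QuotientGroup.mk_surjective h
  exact ⟨⟨g, (hV g).2 hh⟩, rfl⟩

lemma toH_ker (hV : IsPre L H V) : (toH hV).ker = L.U.subgroupOf V := by
  ext v
  rw [MonoidHom.mem_ker, Subgroup.mem_subgroupOf]
  constructor
  · intro h
    have := congrArg Subtype.val h
    exact (QuotientGroup.eq_one_iff v.1).1 this
  · intro h
    exact Subtype.ext ((QuotientGroup.eq_one_iff v.1).2 h)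

/-- `V ⧸ (U_F ∩ V) ≃ H`. -/
def quotEquiv (hV : IsPre L H V) : (↥V ⧸ L.U.subgroupOf V) ≃* ↥H :=
  (QuotientGroup.quotientMulEquivOfEq (toH_ker hV).symm).trans
    (QuotientGroup.quotientKerEquivOfSurjective (toH hV) (toH_surjective hV))

@[simp] lemma quotEquiv_mk (hV : IsPre L H V) (v : ↥V) :
    quotEquiv hV (QuotientGroup.mk v) = toH hV v := rfl

lemma isPre_up {L' : Level S} (h : L ≤ L') (hV : IsPre L H V) : IsPre L' (up h H) V :=
  fun g => hV g

lemma isPre_map (hle : L.U ≤ V) : IsPre L (V.map (QuotientGroup.mk' L.U)) V := by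
  intro g
  constructor
  · intro hg
    exact ⟨g, hg, rfl⟩
  · rintro ⟨g', hg', he⟩
    have h1 : g'⁻¹ * g ∈ L.U := QuotientGroup.eq.1 he
    have h2 : g = g' * (g'⁻¹ * g) := by group
    rw [h2]
    exact V.mul_mem hg' (hle h1)

lemma index_eq (hV : IsPre L H V) : H.index = V.index := by
  have h1 : V = H.comap (QuotientGroup.mk' L.U) := by
    ext g
    exact hV g
  rw [h1]
  exact (Subgroup.index_comap_of_surjective H (QuotientGroup.mk'_surjective L.U)).symm

end Grp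

section Mod

attribute [local instance 10000] Rep.hV2

/-- The module `𝔼^{U_F ∩ V}` of `V ⧸ (U_F ∩ V)`. -/
abbrev BV (V : Subgroup GQ) (L : Level S) : Rep.{0} ℤ (↥V ⧸ L.U.subgroupOf V) :=
  (Rep.res V.subtype (K.sUnits S)).quotientToInvariants (L.U.subgroupOf V)

variable {L : Level S} {H : Subgroup L.Gal} {V : Subgroup GQ}

/-- The underlying element of `ℚ̄ˣ`. -/
def bCoe (b : (BV V L).V) : unitsQbar.V := (b.1.1 : Additive Qbarˣ)

lemma bCoe_injective : Function.Injective (bCoe : (BV V L).V → unitsQbar.V) := by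
  intro b b' h
  exact Subtype.ext (Subtype.ext h)

lemma bCoe_isSUnit (b : (BV V L).V) : K.IsSUnit S (Additive.toMul (bCoe b)) := b.1.2

lemma bCoe_fixed (b : (BV V L).V) (g : GQ) (hgV : g ∈ V) (hg : g ∈ L.U) :
    unitsQbar.ρ g (bCoe b) = bCoe b := by
  have := b.2 ⟨⟨g, hgV⟩, Subgroup.mem_subgroupOf.2 hg⟩
  exact congrArg Subtype.val this

lemma bCoe_ρ (b : (BV V L).V) (v : ↥V) :
    bCoe ((BV V L).ρ (QuotientGroup.mk v) b) = unitsQbar.ρ v.1 (bCoe b) := rfl

/-- The underlying element of `ℚ̄ˣ`. -/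
def aCoe (a : (E1.Lim.sUnits L).V) : unitsQbar.V := L.unitsCoe (subVal a)

lemma aCoe_injective : Function.Injective (aCoe : (E1.Lim.sUnits L).V → unitsQbar.V) := by
  intro a a' h
  exact subVal_injective (L.unitsCoe_injective h)

lemma aCoe_ρ (a : (E1.Lim.sUnits L).V) (g : GQ) :
    aCoe ((E1.Lim.sUnits L).ρ (QuotientGroup.mk g) a) = unitsQbar.ρ g (aCoe a) := rfl

lemma aCoe_fixed (a : (E1.Lim.sUnits L).V) (g : GQ) (hg : g ∈ L.U) :
    unitsQbar.ρ g (aCoe a) = aCoe a := L.unitsCoe_fixed (subVal a) g hg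

lemma aCoe_isSUnit (a : (E1.Lim.sUnits L).V) : K.IsSUnit S (Additive.toMul (aCoe a)) :=
  (isSUnit_level_iff L (subVal a)).1 (isSUnit_of_mem L (subVal_mem a))


/-- `𝔼^{U_F ∩ V} → E(F)` on elements. -/
def fwdFun (hle : L.U ≤ V) (b : (BV V L).V) : (E1.Lim.sUnits L).V :=
  subMk (A := L.units) (W := sUnitsAdd L) (hW := sUnitsAdd_stable L)
    (L.unitsMk (bCoe b) (fun g hg => bCoe_fixed b g (hle hg) hg)) (by
    intro g
    induction g using QuotientGroup.induction_on with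
    | H σ =>
      rw [isSUnit_level_iff]
      exact K.IsSUnit.smul (bCoe_isSUnit b) σ)

lemma aCoe_fwdFun (hle : L.U ≤ V) (b : (BV V L).V) : aCoe (fwdFun hle b) = bCoe b := rfl

/-- `E(F) → 𝔼^{U_F ∩ V}` on elements. -/
def bwdFun (V : Subgroup GQ) (a : (E1.Lim.sUnits L).V) : (BV V L).V :=
  ⟨⟨aCoe a, aCoe_isSUnit a⟩, fun w =>
    Subtype.ext (aCoe_fixed a w.1.1 (Subgroup.mem_subgroupOf.1 w.2))⟩

lemma bCoe_bwdFun (a : (E1.Lim.sUnits L).V) : bCoe (bwdFun V a) = aCoe a := rfl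

/-- `𝔼^{U_F ∩ V} ≃ E(F)`. -/
def dictEquiv (hV : IsPre L H V) : (BV V L).V ≃ₗ[ℤ] (T.resSub (E1.Lim.sUnits L) H).V where
  toFun b := fwdFun hV.le b
  invFun a := bwdFun V a
  map_add' _ _ := rfl
  map_smul' _ _ := rfl
  left_inv _ := rfl
  right_inv _ := rfl

lemma bCoe_dictEquiv_symm (hV : IsPre L H V) (a : (T.resSub (E1.Lim.sUnits L) H).V) :
    bCoe ((dictEquiv hV).symm a) = aCoe a := rfl

lemma dictEquiv_equivariant (hV : IsPre L H V) (g : ↥V ⧸ L.U.subgroupOf V) :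
    (dictEquiv hV).toLinearMap ∘ₗ (BV V L).ρ g =
      (T.resSub (E1.Lim.sUnits L) H).ρ (quotEquiv hV g) ∘ₗ (dictEquiv hV).toLinearMap := by
  induction g using QuotientGroup.induction_on with
  | H v =>
    refine LinearMap.ext fun b => ?_
    rfl

/-- **The dictionary**: `Hⁿ(V ⧸ (U_F ∩ V), 𝔼^{U_F ∩ V}) ≅ Hⁿ(H, E(F))`. -/
def dictIso (hV : IsPre L H V) (n : ℕ) :
    KL.HL (Rep.res V.subtype (K.sUnits S)) (L.U.subgroupOf V) n ≅ Hn H (E1.Lim.sUnits L) n :=
  groupCohomology.mapIso (quotEquiv hV) (dictEquiv hV) (dictEquiv_equivariant hV) n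


lemma subgroupOf_anti {L L' : Level S} (h : L ≤ L') (V : Subgroup GQ) :
    L'.U.subgroupOf V ≤ L.U.subgroupOf V := fun _ hv =>
  Subgroup.mem_subgroupOf.2 (Level.U_anti h (Subgroup.mem_subgroupOf.1 hv))

/-- The inverse of the dictionary on coefficients, as a semilinear morphism. -/
def dictInvHom (hV : IsPre L H V) :
    Rep.res (quotEquiv hV).toMonoidHom (T.resSub (E1.Lim.sUnits L) H) ⟶ BV V L :=
  semiOfAdd (quotEquiv hV).toMonoidHom (A := T.resSub (E1.Lim.sUnits L) H) (B := BV V L)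
    { toFun := fun a => bwdFun V a
      map_zero' := rfl
      map_add' := fun _ _ => rfl }
    (fun g a => by
      induction g using QuotientGroup.induction_on with
      | H v => rfl)

lemma dictIso_inv (hV : IsPre L H V) (n : ℕ) :
    (dictIso hV n).inv = groupCohomology.map (quotEquiv hV).toMonoidHom (dictInvHom hV) n := rfl

/-- The dictionary is compatible with inflation. -/
theorem dict_infl {L' : Level S} (h : L ≤ L') (hV : IsPre L H V) (n : ℕ) :
    (dictIso hV n).inv ≫ KL.infl (Rep.res V.subtype (K.sUnits S)) (subgroupOf_anti h V) n =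
      groupCohomology.map (projSub (Level.proj h) H) (semiSub (Level.proj h) H (trS h)) n ≫
        (dictIso (isPre_up h hV) n).inv := by
  rw [dictIso_inv, dictIso_inv]
  unfold KL.infl KL.HLmap
  rw [← groupCohomology.map_comp, ← groupCohomology.map_comp]
  apply groupCohomology.map_congr
  · ext g
    rfl
  · ext a
    rfl


lemma dict_infl_apply {L' : Level S} (h : L ≤ L') (hV : IsPre L H V) (n : ℕ)
    (x : Hn H (E1.Lim.sUnits L) n) :
    (KL.infl (Rep.res V.subtype (K.sUnits S)) (subgroupOf_anti h V) n).hom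
        ((dictIso hV n).inv.hom x) =
      (dictIso (isPre_up h hV) n).inv.hom (infUp h H (trS h) n x) :=
  congrArg (fun f => f.hom x) (dict_infl h hV n)

lemma dictIso_inv_hom (hV : IsPre L H V) (n : ℕ)
    (y : KL.HL (Rep.res V.subtype (K.sUnits S)) (L.U.subgroupOf V) n) :
    (dictIso hV n).inv.hom ((dictIso hV n).hom.hom y) = y :=
  congrArg (fun f => f.hom y) (dictIso hV n).hom_inv_id

lemma dictIso_hom_inv (hV : IsPre L H V) (n : ℕ) (x : Hn H (E1.Lim.sUnits L) n) :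
    (dictIso hV n).hom.hom ((dictIso hV n).inv.hom x) = x :=
  congrArg (fun f => f.hom x) (dictIso hV n).inv_hom_id

end Mod


/-! ## The levels -/

/-- A normal level of `G_ℚ` is `U_F` for a level `F` of the tower. -/
lemma exists_level {W : Subgroup GQ} (hW : W ∈ (ColH543.gN S).carrier) :
    ∃ L : Level S, L.U = W := by
  obtain ⟨⟨F, hF, rfl⟩, hn⟩ := hW
  exact ⟨⟨F, hF, hn⟩, rfl⟩

/-- `U_F` is a normal level of `G_ℚ`. -/
lemma level_mem (L : Level S) : L.U ∈ (ColH543.gN S).carrier :=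
  ⟨⟨L.F, L.unram, rfl⟩, L.normalU⟩

/-- The level of `V` cut out by a level of the tower. -/
def lvlOf (V : Subgroup GQ) (L : Level S) : ((ColH543.gN S).restrict V).Lvl :=
  ⟨L.U.subgroupOf V, L.U, level_mem L, rfl⟩

/-- Below a level of `(gN S).restrict V` there is a level `U_F ∩ V` with `U_F ≤ V`. -/
lemma exists_level_le {V : Subgroup GQ} (hV : V ∈ (PT.globalLevels S).levels)
    (V₁ : ((ColH543.gN S).restrict V).Lvl) :
    ∃ L : Level S, L.U ≤ V ∧ L.U.subgroupOf V ≤ V₁.W := by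
  obtain ⟨X, W, hW, rfl⟩ := V₁
  obtain ⟨V₀, hV₀, hV₀V, hV₀n⟩ := ColH543.globalLevels_normalCofinal S V hV
  obtain ⟨W₁, hW₁, hle⟩ := (ColH543.gN S).directed W hW V₀ ⟨hV₀, hV₀n⟩
  obtain ⟨L, rfl⟩ := exists_level hW₁
  refine ⟨L, (le_inf_iff.1 hle).2.trans hV₀V, fun v hv => ?_⟩
  exact Subgroup.mem_subgroupOf.2 ((le_inf_iff.1 hle).1 (Subgroup.mem_subgroupOf.1 hv))

/-! ## The deliverables -/

/-- **AR-DICT, degree 3.** -/
theorem dictE3 (S : Finset Nat.Primes) (p : ℕ) : DictE3Spec S p := by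
  intro hE3 V hV hcop V₁ y hy
  obtain ⟨L, hLV, hle⟩ := exists_level_le hV V₁
  have hpre : IsPre L (V.map (QuotientGroup.mk' L.U)) V := isPre_map hLV
  obtain ⟨L', h, hinf⟩ := hE3 L (V.map (QuotientGroup.mk' L.U))
    (by rw [index_eq hpre]; exact hcop)
    ((dictIso hpre 3).hom.hom ((KL.infl _ hle 3).hom y))
    (by rw [← map_nsmul, ← map_nsmul, hy, map_zero, map_zero])
  refine ⟨lvlOf V L', (subgroupOf_anti h V).trans hle, ?_⟩
  have h1 := dict_infl_apply h hpre 3 ((dictIso hpre 3).hom.hom ((KL.infl _ hle 3).hom y))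
  rw [dictIso_inv_hom, hinf, map_zero] at h1
  exact (KL.H784.infl_infl_apply _ hle (subgroupOf_anti h V) 3 y).symm.trans h1

/-- **AR-DICT, degree 2.** -/
theorem dictE2 (S : Finset Nat.Primes) (p : ℕ) : DictE2Spec S p := by
  intro hE2 V hV hcop V₁ x
  obtain ⟨L, hLV, hle⟩ := exists_level_le hV V₁
  have hpre : IsPre L (V.map (QuotientGroup.mk' L.U)) V := isPre_map hLV
  obtain ⟨L', h, w, hw⟩ := hE2 L (V.map (QuotientGroup.mk' L.U))
    (by rw [index_eq hpre]; exact hcop)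
    ((dictIso hpre 2).hom.hom ((KL.infl _ hle 2).hom x))
  refine ⟨lvlOf V L', (subgroupOf_anti h V).trans hle,
    (dictIso (isPre_up h hpre) 2).inv.hom w, ?_⟩
  have h1 := dict_infl_apply h hpre 2 ((dictIso hpre 2).hom.hom ((KL.infl _ hle 2).hom x))
  rw [dictIso_inv_hom, hw, map_nsmul] at h1
  exact (KL.H784.infl_infl_apply _ hle (subgroupOf_anti h V) 2 x).symm.trans h1

end

end Fermat.Agent.S55.K.AR.H587
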