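/-
S55 / layer K / block AR, leaf **AR-E2** (helper79): `e2Leaf : E2Leaf S p`.
Blueprint: `coord/S55-K-AR.md` §2.  Namespace `Fermat.Agent.S55.K.AR.H79`.
-/
import Fermat.Agent.S55.K.AR.Spec

set_option autoImplicit false

open CategoryTheory

namespace Fermat.Agent.S55.K.AR.H79

open Fermat.Agent.S55 Fermat.Agent.S55.Tow Fermat.Agent.S55.E1.Lim Fermat.Agent.S55.K.AR

noncomputable section

attribute [local instance 10000] Rep.hV2

/-! ## Functoriality of `coe` and `infSub` -/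

section General

variable {Γ Γ' : Type} [Group Γ] [Group Γ']

lemma coe_comp (H : Subgroup Γ) {A B C : Rep.{0} ℤ Γ} (f : A ⟶ B) (g : B ⟶ C) (n : ℕ)
    (x : Hn H A n) : coe H (f ≫ g) n x = coe H g n (coe H f n x) := by
  have := groupCohomology.map_id_comp ((Rep.resFunctor H.subtype).map f)
    ((Rep.resFunctor H.subtype).map g) n
  rw [← Functor.map_comp] at this
  exact congrArg (fun m => m.hom x) this

lemma coe_zero (H : Subgroup Γ) {A B : Rep.{0} ℤ Γ} (n : ℕ) (x : Hn H A n) :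
    coe H (0 : A ⟶ B) n x = 0 := by
  have h : T.coeffMap ((Rep.resFunctor H.subtype).map (0 : A ⟶ B)) n = 0 := by
    rw [Functor.map_zero]
    show HomologicalComplex.homologyMap (groupCohomology.cochainsMap _ 0) n = 0
    rw [groupCohomology.cochainsMap_zero, HomologicalComplex.homologyMap_zero]
  exact congrArg (fun m => m.hom x) h

/-- Inflation commutes with maps of coefficients. -/
lemma infSub_coe (π : Γ' →* Γ) (H : Subgroup Γ) {A B : Rep.{0} ℤ Γ} {A' B' : Rep.{0} ℤ Γ'}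
    (f : A ⟶ B) (f' : A' ⟶ B') (t : Rep.res π A ⟶ A') (s : Rep.res π B ⟶ B')
    (hc : ∀ a : A.V, s.hom (f.hom a) = f'.hom (t.hom a)) (n : ℕ) (x : Hn H A n) :
    infSub π H s n (coe H f n x) = coe (H.comap π) f' n (infSub π H t n x) := by
  have h1 := groupCohomology.map_comp (A := T.resSub A H) (B := T.resSub B H)
    (C := T.resSub B' (H.comap π)) (MonoidHom.id H) (projSub π H)
    ((Rep.resFunctor H.subtype).map f) (semiSub π H s) n
  have h2 := groupCohomology.map_comp (A := T.resSub A H) (B := T.resSub A' (H.comap π))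
    (C := T.resSub B' (H.comap π)) (projSub π H) (MonoidHom.id (H.comap π))
    (semiSub π H t) ((Rep.resFunctor (H.comap π).subtype).map f') n
  have h3 : groupCohomology.map (A := T.resSub A H) (B := T.resSub B' (H.comap π))
      ((MonoidHom.id H).comp (projSub π H))
      ((Rep.resFunctor (projSub π H)).map ((Rep.resFunctor H.subtype).map f) ≫ semiSub π H s) n =
      groupCohomology.map (A := T.resSub A H) (B := T.resSub B' (H.comap π))
      ((projSub π H).comp (MonoidHom.id (H.comap π)))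
      ((Rep.resFunctor (MonoidHom.id (H.comap π))).map (semiSub π H t) ≫
        (Rep.resFunctor (H.comap π).subtype).map f') n := by
    refine groupCohomology.map_congr rfl (LinearMap.ext fun a => ?_) n
    exact hc a
  rw [h1, h2] at h3
  exact congrArg (fun m => m.hom x) h3

/-- The identity of `A` as a semilinear map between its restrictions to `K ≤ K'`. -/
def inclSemi {K K' : Subgroup Γ} (hK : K ≤ K') (A : Rep.{0} ℤ Γ) :
    Rep.res (Subgroup.inclusion hK) (T.resSub A K') ⟶ T.resSub A K :=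
  E1.Lim.semiOfAdd (Subgroup.inclusion hK) (A := T.resSub A K') (B := T.resSub A K)
    (AddMonoidHom.id A.V) (fun _ _ => rfl)

/-- Transitivity of inflation, through the comparison map between the two descriptions of the
preimage of `H`. -/
lemma exists_comparison {Γ'' : Type} [Group Γ''] (π : Γ' →* Γ) (π' : Γ'' →* Γ') (π'' : Γ'' →* Γ)
    (hπ : ∀ g, π'' g = π (π' g)) (H : Subgroup Γ) {A : Rep.{0} ℤ Γ} {A' : Rep.{0} ℤ Γ'}
    {A'' : Rep.{0} ℤ Γ''} (t : Rep.res π A ⟶ A') (t' : Rep.res π' A' ⟶ A'')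
    (t'' : Rep.res π'' A ⟶ A'') (ht : ∀ a : A.V, t''.hom a = t'.hom (t.hom a)) (n : ℕ) :
    ∃ κ : Hn ((H.comap π).comap π') A'' n →ₗ[ℤ] Hn (H.comap π'') A'' n,
      ∀ x : Hn H A n, κ (infSub π' (H.comap π) t' n (infSub π H t n x)) = infSub π'' H t'' n x := by
  have hle : H.comap π'' ≤ (H.comap π).comap π' := by
    intro g hg
    show π (π' g) ∈ H
    rw [← hπ]
    exact hg
  refine ⟨(groupCohomology.map (A := T.resSub A'' ((H.comap π).comap π'))
    (B := T.resSub A'' (H.comap π'')) (Subgroup.inclusion hle) (inclSemi hle A'') n).hom,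
    fun x => ?_⟩
  have h1 := groupCohomology.map_comp (A := T.resSub A H) (B := T.resSub A' (H.comap π))
    (C := T.resSub A'' ((H.comap π).comap π')) (projSub π H) (projSub π' (H.comap π))
    (semiSub π H t) (semiSub π' (H.comap π) t') n
  have h2 := groupCohomology.map_comp (A := T.resSub A H)
    (B := T.resSub A'' ((H.comap π).comap π')) (C := T.resSub A'' (H.comap π''))
    ((projSub π H).comp (projSub π' (H.comap π))) (Subgroup.inclusion hle)
    ((Rep.resFunctor (projSub π' (H.comap π))).map (semiSub π H t) ≫ semiSub π' (H.comap π) t')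
    (inclSemi hle A'') n
  have h3 : groupCohomology.map (A := T.resSub A H) (B := T.resSub A'' (H.comap π''))
      (((projSub π H).comp (projSub π' (H.comap π))).comp (Subgroup.inclusion hle))
      ((Rep.resFunctor (Subgroup.inclusion hle)).map
        ((Rep.resFunctor (projSub π' (H.comap π))).map (semiSub π H t) ≫
          semiSub π' (H.comap π) t') ≫ inclSemi hle A'') n =
      groupCohomology.map (A := T.resSub A H) (B := T.resSub A'' (H.comap π''))
        (projSub π'' H) (semiSub π'' H t'') n := by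
    have hfg : ((projSub π H).comp (projSub π' (H.comap π))).comp (Subgroup.inclusion hle) =
        projSub π'' H := by
      refine MonoidHom.ext fun g => Subtype.ext ?_
      exact (hπ g).symm
    refine groupCohomology.map_congr hfg ?_ n
    refine LinearMap.ext fun a => ?_
    exact (ht a).symm
  have h4 := (congrArg (fun m => m ≫ groupCohomology.map (A := T.resSub A'' ((H.comap π).comap π'))
    (B := T.resSub A'' (H.comap π'')) (Subgroup.inclusion hle) (inclSemi hle A'') n) h1).symm.trans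
      (h2.symm.trans h3)
  exact congrArg (fun m => m.hom x) h4

/-- Exactness of `Hⁿ(H, X₁) → Hⁿ(H, X₂) → Hⁿ(H, X₃)`. -/
lemma exists_of_coe_eq_zero {X : ShortComplex (Rep.{0} ℤ Γ)} (hX : X.ShortExact)
    (H : Subgroup Γ) (n : ℕ) (y : Hn H X.X₂ n) (hy : coe H X.g n y = 0) :
    ∃ w : Hn H X.X₁ n, coe H X.f n w = y := by
  have hX' : (X.map (Rep.resFunctor H.subtype)).ShortExact := (Rep.shortExact_res H.subtype).2 hX
  have hex := groupCohomology.mapShortComplex₂_exact hX' n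
  rw [ShortComplex.moduleCat_exact_iff] at hex
  exact hex y hy

end General

/-! ## Elementary arithmetic -/

section Arith

variable {A : Type} [AddCommGroup A]

lemma nsmul_eq_of_modEq {k n m : ℕ} (h : n ≡ m [MOD k]) {y : A} (hy : k • y = 0) :
    n • y = m • y := by
  have key : ∀ n : ℕ, n • y = (n % k) • y := by
    intro n
    conv_lhs => rw [← Nat.div_add_mod n k]
    rw [add_nsmul, mul_nsmul, hy, smul_zero, zero_add]
  rw [key n, key m, h]

lemma nsmul_eq_zero_of_dvd {N n : ℕ} (h : N ∣ n) {y : A} (hy : N • y = 0) : n • y = 0 := by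
  obtain ⟨u, rfl⟩ := h
  rw [mul_nsmul, hy, smul_zero]

/-- The idempotent of the `p`-primary part modulo `N`. -/
lemma exists_pprim_mul (p : ℕ) (hp : p.Prime) (N : ℕ) (hN : 0 < N) (b : ℕ) :
    ∃ e a : ℕ, e ≡ 1 [MOD p ^ b] ∧ N ∣ p ^ a * e := by
  obtain ⟨a, N', hN', hNeq⟩ := Nat.exists_eq_pow_mul_and_not_dvd hN.ne' p hp.ne_one
  have hcop : Nat.Coprime (p ^ b) N' :=
    Nat.Coprime.pow_left _ ((Nat.Prime.coprime_iff_not_dvd hp).2 hN')
  obtain ⟨e, he1, he0⟩ := Nat.chineseRemainder hcop 1 0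
  refine ⟨e, a, he1, ?_⟩
  rw [hNeq]
  exact Nat.mul_dvd_mul_left _ ((Nat.modEq_zero_iff_dvd).1 he0)

end Arith

/-! ## The tower -/

section Tower

variable {S : Finset Nat.Primes}

lemma proj_trans_apply {L L' L'' : Level S} (h : L ≤ L') (h' : L' ≤ L'') (g : L''.Gal) :
    Level.proj (h.trans h') g = Level.proj h (Level.proj h' g) := by
  induction g using QuotientGroup.induction_on with
  | H g => rfl

lemma proj_surjective {L L' : Level S} (h : L ≤ L') : Function.Surjective (Level.proj h) := by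
  intro g
  induction g using QuotientGroup.induction_on with
  | H g => exact ⟨QuotientGroup.mk g, rfl⟩

lemma index_up {L L' : Level S} (h : L ≤ L') (H : Subgroup L.Gal) : (up h H).index = H.index :=
  Subgroup.index_comap_of_surjective H (proj_surjective h)

lemma trS_trans {L L' L'' : Level S} (h : L ≤ L') (h' : L' ≤ L'') (e : (E1.Lim.sUnits L).V) :
    (trS (h.trans h')).hom e = (trS h').hom ((trS h).hom e) := rfl

lemma trJ_diag {L L' : Level S} (h : L ≤ L') (q : Nat.Primes) (x : L.units.V) :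
    (Level.trJ h q).hom ((L.diag q).hom x) = (L'.diag q).hom ((Level.trUnits h).hom x) := by
  apply L'.J_ext q
  intro g'
  have h1 : L'.units.ρ g' ((Level.trUnits h).hom x) =
      (Level.trUnits h).hom (L.units.ρ (Level.proj h g') x) :=
    (Rep.hom_comm_apply (Level.trUnits h) g' x).symm
  show Level.inclLoc h q (L.embFun q (L.units.ρ (Level.proj h g') x)) =
    L'.embFun q (L'.units.ρ g' ((Level.trUnits h).hom x))
  rw [h1]
  apply L'.locCoe_injective q
  rfl

lemma trJtot_diagTot {L L' : Level S} (h : L ≤ L') (e : (E1.Lim.sUnits L).V) :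
    (trJtot h).hom ((diagTot L).hom e) = (diagTot L').hom ((trS h).hom e) := by
  apply piRep_ext
  intro q
  exact trJ_diag h q.1 ((sIncl L).hom e)

/-- The class `x` becomes divisible by `p` at a higher level. -/
def Div (p : ℕ) (L : Level S) (H : Subgroup L.Gal) (x : Hn H (E1.Lim.sUnits L) 2) : Prop :=
  ∃ (L' : Level S) (h : L ≤ L') (w : Hn (up h H) (E1.Lim.sUnits L') 2), infUp h H (trS h) 2 x = p • w

lemma Div.descend {p : ℕ} {L L' : Level S} (h : L ≤ L') (H : Subgroup L.Gal)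
    (x : Hn H (E1.Lim.sUnits L) 2) (hx : Div p L' (up h H) (infUp h H (trS h) 2 x)) : Div p L H x := by
  obtain ⟨L'', h', w, hw⟩ := hx
  obtain ⟨κ, hκ⟩ := exists_comparison (Level.proj h) (Level.proj h') (Level.proj (h.trans h'))
    (proj_trans_apply h h') H (trS h) (trS h') (trS (h.trans h')) (trS_trans h h') 2
  refine ⟨L'', h.trans h', κ w, ?_⟩
  have := hκ x
  rw [← map_nsmul, ← hw]
  exact this.symm

variable {p : ℕ} (c : Ctx S p)

lemma diagTot_jTot_eq_zero (L : Level S) : diagTot L ≫ jTot c.D L = 0 := by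
  rw [← jC1_inclC1, ← Category.assoc, diagTot_jC1 c.h4, Limits.zero_comp]

lemma card_smul_eq_zero {L : Level S} (H : Subgroup L.Gal) (A : Rep.{0} ℤ L.Gal)
    (z : Hn H A 2) : Nat.card H • z = 0 :=
  T.H572.cardTorsion ℤ H (T.resSub A H) 2 (by norm_num) z

/-- The core of the argument: `p`-primary classes at a level containing `μ_p`. -/
lemma div_of_pprim (hp : p.Prime) (hses : SesExact c) (hker : KerDiv c) (hcap : CapH2 c)
    (hhasse : HasseTower S p) (L : Level S) (hμ : L.HasMu p) (H : Subgroup L.Gal)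
    (hcop : Nat.Coprime H.index p) (x : Hn H (E1.Lim.sUnits L) 2) (hx : IsPPrim p x) : Div p L H x := by
  obtain ⟨b, hb⟩ := hx
  -- the image in `J`
  have hxJ : IsPPrim p (coe H (diagTot L) 2 x) := ⟨b, by rw [← map_nsmul, hb, map_zero]⟩
  have hxJ0 : coe H (jTot c.D L) 2 (coe H (diagTot L) 2 x) = 0 := by
    rw [← coe_comp, diagTot_jTot_eq_zero, coe_zero]
  obtain ⟨L₂, h₂, y, hy, hy0⟩ := hker L hμ H hcop _ hxJ hxJ0
  have hyp : p ^ (b + 1) • y = 0 := by
    rw [pow_succ, mul_nsmul', hy, ← map_nsmul, ← map_nsmul, hb, map_zero, map_zero]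
  -- capitulation
  have hs0 : coe (up h₂ H) (inclC1 c.D L₂) 2 (coe (up h₂ H) (jC1 c.D L₂) 2 y) = 0 := by
    rw [← coe_comp, jC1_inclC1]
    exact hy0
  have hsp : IsPPrim p (coe (up h₂ H) (jC1 c.D L₂) 2 y) :=
    ⟨b + 1, by rw [← map_nsmul, hyp, map_zero]⟩
  obtain ⟨L₃, h₃, hcap3⟩ := hcap L₂ (up h₂ H) _ hsp hs0
  have hy3 : coe (up h₃ (up h₂ H)) (jC1 c.D L₃) 2 (infUp h₃ (up h₂ H) (trJtot h₃) 2 y) = 0 := by
    rw [← infSub_coe (Level.proj h₃) (up h₂ H) (jC1 c.D L₂) (jC1 c.D L₃) (trJtot h₃)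
      (trC1 c.h7 h₃) (fun a => trC1_jC1 c.h7 h₃ a) 2 y]
    exact hcap3
  obtain ⟨w₀, hw₀⟩ : ∃ w₀ : Hn (up h₃ (up h₂ H)) (E1.Lim.sUnits L₃) 2,
      coe (up h₃ (up h₂ H)) (diagTot L₃) 2 w₀ = infUp h₃ (up h₂ H) (trJtot h₃) 2 y :=
    exists_of_coe_eq_zero (X := ses c.h4 L₃) (hses L₃) (up h₃ (up h₂ H)) 2 _ hy3
  -- a `p`-primary lift
  have hy3p : p ^ (b + 1) • infUp h₃ (up h₂ H) (trJtot h₃) 2 y = 0 := by
    rw [← map_nsmul, hyp, map_zero]
  obtain ⟨e, a, he1, hdvd⟩ := exists_pprim_mul p hp (Nat.card (up h₃ (up h₂ H))) Nat.card_pos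
    (b + 1)
  have hw₁p : p ^ a • e • w₀ = 0 := by
    rw [← mul_nsmul']
    exact nsmul_eq_zero_of_dvd hdvd (card_smul_eq_zero _ _ w₀)
  have hw₁ : coe (up h₃ (up h₂ H)) (diagTot L₃) 2 (e • w₀) =
      infUp h₃ (up h₂ H) (trJtot h₃) 2 y := by
    rw [map_nsmul, hw₀, nsmul_eq_of_modEq he1 hy3p, one_nsmul]
  -- Hasse
  have hx3 : coe (up h₃ (up h₂ H)) (diagTot L₃) 2
      (infUp h₃ (up h₂ H) (trS h₃) 2 (infUp h₂ H (trS h₂) 2 x)) =
      p • infUp h₃ (up h₂ H) (trJtot h₃) 2 y := by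
    rw [← infSub_coe (Level.proj h₃) (up h₂ H) (diagTot L₂) (diagTot L₃) (trS h₃) (trJtot h₃)
      (fun a => trJtot_diagTot h₃ a) 2,
      ← infSub_coe (Level.proj h₂) H (diagTot L) (diagTot L₂) (trS h₂) (trJtot h₂)
      (fun a => trJtot_diagTot h₂ a) 2, ← map_nsmul, hy]
  have hx3p : p ^ b • infUp h₃ (up h₂ H) (trS h₃) 2 (infUp h₂ H (trS h₂) 2 x) = 0 := by
    rw [← map_nsmul, ← map_nsmul, hb, map_zero, map_zero]
  have he0p : IsPPrim p (p • e • w₀ - infUp h₃ (up h₂ H) (trS h₃) 2 (infUp h₂ H (trS h₂) 2 x)) := by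
    refine ⟨a + b, ?_⟩
    rw [smul_sub, pow_add]
    have h1 : (p ^ a * p ^ b) • p • e • w₀ = 0 := by
      rw [mul_nsmul, smul_comm (p ^ a) p, hw₁p, smul_zero, smul_zero]
    have h2 : (p ^ a * p ^ b) •
        infUp h₃ (up h₂ H) (trS h₃) 2 (infUp h₂ H (trS h₂) 2 x) = 0 := by
      rw [mul_nsmul', hx3p, smul_zero]
    rw [h1, h2, sub_zero]
  have he00 : coe (up h₃ (up h₂ H)) (diagTot L₃) 2
      (p • e • w₀ - infUp h₃ (up h₂ H) (trS h₃) 2 (infUp h₂ H (trS h₂) 2 x)) = 0 := by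
    rw [map_sub, map_nsmul, hw₁, hx3, sub_self]
  obtain ⟨L₄, h₄, hh⟩ := hhasse L₃ (up h₃ (up h₂ H)) _ he0p he00
  rw [map_sub, map_nsmul, sub_eq_zero] at hh
  refine Div.descend h₂ H x (Div.descend h₃ (up h₂ H) _ ⟨L₄, h₄, _, hh.symm⟩)

/-- All classes at a level containing `μ_p`. -/
lemma div_of_hasMu (hp : p.Prime) (hses : SesExact c) (hker : KerDiv c) (hcap : CapH2 c)
    (hhasse : HasseTower S p) (L : Level S) (hμ : L.HasMu p) (H : Subgroup L.Gal)
    (hcop : Nat.Coprime H.index p) (x : Hn H (E1.Lim.sUnits L) 2) : Div p L H x := by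
  obtain ⟨e, a, he1, hdvd⟩ := exists_pprim_mul p hp (Nat.card H) Nat.card_pos 1
  have hex : IsPPrim p (e • x) := ⟨a, by
    rw [← mul_nsmul']
    exact nsmul_eq_zero_of_dvd hdvd (card_smul_eq_zero _ _ x)⟩
  obtain ⟨L', h, w, hw⟩ := div_of_pprim c hp hses hker hcap hhasse L hμ H hcop _ hex
  rw [pow_one] at he1
  obtain ⟨q, he⟩ : ∃ q : ℕ, e = p * q + 1 := by
    have h1 := Nat.div_add_mod e p
    have h2 : e % p = 1 := by
      rw [he1]
      exact Nat.mod_eq_of_lt hp.one_lt
    exact ⟨e / p, by omega⟩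
  refine ⟨L', h, w - q • infUp h H (trS h) 2 x, ?_⟩
  rw [map_nsmul, he] at hw
  rw [smul_sub, ← hw, add_nsmul, one_nsmul, mul_nsmul', add_sub_cancel_left]

/-- **AR-E2**. -/
theorem e2Leaf (S : Finset Nat.Primes) (p : ℕ) : E2Leaf S p := by
  intro c hses hker hcap hhasse hmu L H hcop x
  obtain ⟨hp, -, -⟩ := c.adm
  obtain ⟨⟨L₀, hL₀⟩, hdir⟩ := hmu
  obtain ⟨L₁, h₁, h₀₁⟩ := hdir L L₀
  refine Div.descend h₁ H x (div_of_hasMu c hp hses hker hcap hhasse L₁ (hL₀.mono h₀₁) (up h₁ H)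
    ?_ _)
  rw [index_up]
  exact hcop

end Tower

end

end Fermat.Agent.S55.K.AR.H79
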