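import Fermat.Agent.S55.K.AR.Spec
import Fermat.Agent.S55.H783.Natural
import Fermat.Agent.S55.H783.ResCor
import Fermat.Agent.S55.Spec.Datum2

/-!
# S55, layer K, block AR, leaf AR-E3 (subtask 638; helper206)

`e3Leaf : E3Leaf S p`:  `colim H³(Gal(F/K), E(F))[p] = 0` from the short exact sequences
`E → J → C'`, `H³(H, J)(p) = 0`, the surjectivity (c) `SurjJC`, capitulation `CapH2` and
`MuDirected`.

General tools (reusable for AR-E2 / AR-HASSE / AR-COKER), all for arbitrary groups: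
* `infSub_coe`      : `infSub ∘ coe = coe ∘ infSub` for a commuting square of coefficients;
* `infSub_trans_zero`: transitivity of `infSub` in the form "dies after two steps ⇒ dies after
  the composite step" (no casts);
* `sesSub`, `dSub`  : the long exact sequence of a short exact sequence restricted to `H`;
* `infSub_dSub`     : naturality of the connecting homomorphism under `infSub`;
* `exists_pproj`    : the `p`-primary projector of a group killed by `N`.
-/

set_option autoImplicit false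

open CategoryTheory groupCohomology

namespace Fermat.Agent.S55.K.AR.H206

open Fermat.Agent.S55 Fermat.Agent.S55.Tow Fermat.Agent.S55.E1.Lim Fermat.Agent.S55.K.AR

noncomputable section

/-! ## `p`-primary bookkeeping -/

section PPrim

variable {p : ℕ}

lemma isPPrim_zero {A : Type} [AddCommGroup A] : IsPPrim p (0 : A) := ⟨0, by simp⟩

lemma IsPPrim.map {A B : Type} [AddCommGroup A] [AddCommGroup B] (f : A →+ B) {x : A}
    (hx : IsPPrim p x) : IsPPrim p (f x) := by
  obtain ⟨k, hk⟩ := hx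
  exact ⟨k, by rw [← map_nsmul, hk, map_zero]⟩

lemma IsPPrim.sub {A : Type} [AddCommGroup A] {x y : A} (hx : IsPPrim p x) (hy : IsPPrim p y) :
    IsPPrim p (x - y) := by
  obtain ⟨k, hk⟩ := hx
  obtain ⟨l, hl⟩ := hy
  refine ⟨k + l, ?_⟩
  have h1 : p ^ (k + l) • x = 0 := by rw [pow_add, mul_comm, mul_smul, hk, smul_zero]
  have h2 : p ^ (k + l) • y = 0 := by rw [pow_add, mul_smul, hl, smul_zero]
  rw [smul_sub, h1, h2, sub_zero]

lemma isPPrim_of_nsmul {A : Type} [AddCommGroup A] {x : A} (hx : p • x = 0) : IsPPrim p x :=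
  ⟨1, by rw [pow_one]; exact hx⟩

/-- The `p`-primary projector of the groups killed by `N`: a natural number `e` such that
`e • x` is `p`-primary for all `x`, and `e • x = x` for `p`-primary `x`. -/
lemma exists_pproj (hp : p.Prime) (N : ℕ) (hN : 0 < N) :
    ∃ e : ℕ, ∀ (X : Type) [AddCommGroup X], (∀ x : X, N • x = 0) →
      (∀ x : X, IsPPrim p (e • x)) ∧ (∀ x : X, IsPPrim p x → e • x = x) := by
  obtain ⟨a, N', hN', hNeq⟩ := Nat.exists_eq_pow_mul_and_not_dvd hN.ne' p hp.ne_one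
  have hcop : Nat.Coprime (p ^ a) N' :=
    Nat.Coprime.pow_left _ ((Nat.Prime.coprime_iff_not_dvd hp).2 hN')
  obtain ⟨e, he1, he0⟩ := Nat.chineseRemainder hcop 1 0
  refine ⟨e, fun X _ hX => ⟨fun x => ⟨a, ?_⟩, fun x hx => ?_⟩⟩
  · obtain ⟨u, hu⟩ := (Nat.modEq_zero_iff_dvd).1 he0
    have : p ^ a * e = N * u := by rw [hu, hNeq]; ring
    rw [← mul_smul, this, mul_comm, mul_smul, hX, smul_zero]
  · -- `p ^ a • x = 0`
    obtain ⟨k, hk⟩ := hx
    have h1 : (Nat.gcd (p ^ k) N) • x = 0 := by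
      have := Nat.gcd_eq_gcd_ab (p ^ k) N
      have h2 : ((Nat.gcd (p ^ k) N : ℕ) : ℤ) • x = 0 := by
        rw [this, add_smul, mul_comm, mul_smul, mul_comm, mul_smul]
        rw [natCast_zsmul, natCast_zsmul, hk, hX, smul_zero, smul_zero, add_zero]
      rwa [natCast_zsmul] at h2
    have h3 : Nat.gcd (p ^ k) N ∣ p ^ a := by
      rw [hNeq]
      have h4 : Nat.Coprime (p ^ k) N' :=
        Nat.Coprime.pow_left _ ((Nat.Prime.coprime_iff_not_dvd hp).2 hN')
      rw [Nat.Coprime.gcd_mul_right_cancel_right _ h4.symm]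
      exact Nat.gcd_dvd_right _ _
    have h5 : p ^ a • x = 0 := by
      obtain ⟨v, hv⟩ := h3
      rw [hv, mul_comm, mul_smul, h1, smul_zero]
    -- `e ≡ 1 mod p ^ a`
    have h6 : (e : ℤ) ≡ 1 [ZMOD (p ^ a : ℕ)] := by
      have := (Int.natCast_modEq_iff).2 he1
      simpa using this
    obtain ⟨w, hw⟩ := (Int.modEq_iff_dvd.1 h6.symm)
    have h7 : (e : ℤ) • x = x := by
      have : (e : ℤ) = 1 + ((p ^ a : ℕ) : ℤ) * w := by linarith
      rw [this, add_smul, one_smul, mul_comm, mul_smul, natCast_zsmul, h5, smul_zero, add_zero]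
    rwa [natCast_zsmul] at h7

end PPrim

/-! ## Functoriality of `groupCohomology.map` -/

section MapLemmas

variable {k : Type} [CommRing k]

/-- Composition of `groupCohomology.map`s, triangle form, elementwise. -/
lemma map_tri_apply {G H K : Type} [Group G] [Group H] [Group K]
    {A : Rep.{0} k K} {B : Rep.{0} k H} {C : Rep.{0} k G} (f : H →* K) (g : G →* H)
    (e : G →* K) (φ : Rep.res f A ⟶ B) (ψ : Rep.res g B ⟶ C) (χ : Rep.res e A ⟶ C)
    (hfg : f.comp g = e) (h : ∀ a : A.V, ψ.hom (φ.hom a) = χ.hom a) (n : ℕ)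
    (x : groupCohomology A n) :
    (groupCohomology.map g ψ n).hom ((groupCohomology.map f φ n).hom x) =
      (groupCohomology.map e χ n).hom x := by
  have h1 : groupCohomology.map f φ n ≫ groupCohomology.map g ψ n =
      groupCohomology.map e χ n := by
    rw [← groupCohomology.map_comp]
    exact groupCohomology.map_congr hfg (LinearMap.ext h) n
  rw [← h1]
  rfl

/-- Composition of `groupCohomology.map`s, square form, elementwise. -/
lemma map_sq_apply {G H₁ H₂ K : Type} [Group G] [Group H₁] [Group H₂] [Group K]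
    {A : Rep.{0} k K} {B₁ : Rep.{0} k H₁} {B₂ : Rep.{0} k H₂} {C : Rep.{0} k G}
    (f₁ : H₁ →* K) (g₁ : G →* H₁) (f₂ : H₂ →* K) (g₂ : G →* H₂)
    (φ₁ : Rep.res f₁ A ⟶ B₁) (ψ₁ : Rep.res g₁ B₁ ⟶ C)
    (φ₂ : Rep.res f₂ A ⟶ B₂) (ψ₂ : Rep.res g₂ B₂ ⟶ C)
    (hfg : f₁.comp g₁ = f₂.comp g₂)
    (h : ∀ a : A.V, ψ₁.hom (φ₁.hom a) = ψ₂.hom (φ₂.hom a)) (n : ℕ)
    (x : groupCohomology A n) :
    (groupCohomology.map g₁ ψ₁ n).hom ((groupCohomology.map f₁ φ₁ n).hom x) =
      (groupCohomology.map g₂ ψ₂ n).hom ((groupCohomology.map f₂ φ₂ n).hom x) := by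
  have h1 : groupCohomology.map f₁ φ₁ n ≫ groupCohomology.map g₁ ψ₁ n =
      groupCohomology.map f₂ φ₂ n ≫ groupCohomology.map g₂ ψ₂ n := by
    rw [← groupCohomology.map_comp, ← groupCohomology.map_comp]
    exact groupCohomology.map_congr hfg (LinearMap.ext h) n
  exact congrArg (fun F => F.hom x) h1

end MapLemmas

/-! ## Cohomology of subgroups: functoriality of `infSub` -/

section General

variable {Γ Γ' Γ'' : Type} [Group Γ] [Group Γ'] [Group Γ'']

/-- `coe` of a composite. -/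
lemma coe_comp (H : Subgroup Γ) {A B C : Rep.{0} ℤ Γ} (f : A ⟶ B) (g : B ⟶ C) (n : ℕ)
    (x : Hn H A n) : coe H (f ≫ g) n x = coe H g n (coe H f n x) := by
  have h1 : T.coeffMap ((Rep.resFunctor H.subtype).map (f ≫ g)) n =
      T.coeffMap ((Rep.resFunctor H.subtype).map f) n ≫
        T.coeffMap ((Rep.resFunctor H.subtype).map g) n := by
    rw [Functor.map_comp]
    exact groupCohomology.map_id_comp _ _ n
  exact congrArg (fun F => F.hom x) h1

/-- `infSub ∘ coe = coe ∘ infSub` for a commuting square of coefficients. -/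
lemma infSub_coe (π : Γ' →* Γ) (H : Subgroup Γ) {A B : Rep.{0} ℤ Γ} {A' B' : Rep.{0} ℤ Γ'}
    (f : A ⟶ B) (f' : A' ⟶ B') (t : Rep.res π A ⟶ A') (s : Rep.res π B ⟶ B')
    (hsq : ∀ a : A.V, s.hom (f.hom a) = f'.hom (t.hom a)) (n : ℕ) (x : Hn H A n) :
    infSub π H s n (coe H f n x) = coe (H.comap π) f' n (infSub π H t n x) := by
  have h1 : T.coeffMap ((Rep.resFunctor H.subtype).map f) n ≫
      groupCohomology.map (projSub π H) (semiSub π H s) n =
      groupCohomology.map (projSub π H) (semiSub π H t) n ≫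
        T.coeffMap ((Rep.resFunctor (H.comap π).subtype).map f') n := by
    rw [← groupCohomology.map_comp, ← groupCohomology.map_comp]
    exact groupCohomology.map_congr rfl (DFunLike.ext _ _ hsq) n
  exact congrArg (fun F => F.hom x) h1

/-- Transitivity of `infSub`, in the form: a class which dies after two inflation steps dies
after the composite step. -/
lemma infSub_trans_zero (π : Γ' →* Γ) (π' : Γ'' →* Γ') (π'' : Γ'' →* Γ)
    (hπ : ∀ g, π (π' g) = π'' g) (H : Subgroup Γ)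
    {A : Rep.{0} ℤ Γ} {A' : Rep.{0} ℤ Γ'} {A'' : Rep.{0} ℤ Γ''}
    (t : Rep.res π A ⟶ A') (t' : Rep.res π' A' ⟶ A'') (t'' : Rep.res π'' A ⟶ A'')
    (ht : ∀ a : A.V, t'.hom (t.hom a) = t''.hom a) (n : ℕ) (y : Hn H A n)
    (h0 : infSub π' (H.comap π) t' n (infSub π H t n y) = 0) : infSub π'' H t'' n y = 0 := by
  have hK : H.comap π'' ≤ (H.comap π).comap π' := by
    intro g hg
    show π (π' g) ∈ H
    rw [hπ g]; exact hg
  let ι : ↥(H.comap π'') →* ↥((H.comap π).comap π') := Subgroup.inclusion hK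
  let idm : Rep.res ι (T.resSub A'' ((H.comap π).comap π')) ⟶ T.resSub A'' (H.comap π'') :=
    E1.Lim.semiOfAdd ι (A := T.resSub A'' ((H.comap π).comap π'))
      (B := T.resSub A'' (H.comap π'')) (AddMonoidHom.id A''.V) (fun _ _ => rfl)
  let ψ' : Rep.res ((projSub π' (H.comap π)).comp ι) (T.resSub A' (H.comap π)) ⟶
      T.resSub A'' (H.comap π'') :=
    E1.Lim.semiOfAdd ((projSub π' (H.comap π)).comp ι) (A := T.resSub A' (H.comap π))
      (B := T.resSub A'' (H.comap π''))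
      { toFun := fun x => t'.hom x
        map_zero' := map_zero t'.hom
        map_add' := map_add t'.hom }
      (fun g x => Rep.hom_comm_apply t' (g : Γ'') x)
  have h1 : (groupCohomology.map ι idm n).hom
      (infSub π' (H.comap π) t' n (infSub π H t n y)) =
      (groupCohomology.map ((projSub π' (H.comap π)).comp ι) ψ' n).hom (infSub π H t n y) :=
    map_tri_apply (projSub π' (H.comap π)) ι _ (semiSub π' (H.comap π) t') idm ψ' rfl
      (fun _ => rfl) n _
  have h2 : (groupCohomology.map ((projSub π' (H.comap π)).comp ι) ψ' n).hom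
      (infSub π H t n y) = infSub π'' H t'' n y :=
    map_tri_apply (projSub π H) ((projSub π' (H.comap π)).comp ι) (projSub π'' H)
      (semiSub π H t) ψ' (semiSub π'' H t'')
      (MonoidHom.ext fun g => Subtype.ext (hπ g)) ht n y
  rw [← h2, ← h1, h0, map_zero]

/-! ### The long exact sequence of a short exact sequence restricted to a subgroup -/

/-- A short complex of `Γ`-modules restricted to `H`. -/
abbrev sesSub (X : ShortComplex (Rep.{0} ℤ Γ)) (H : Subgroup Γ) : ShortComplex (Rep.{0} ℤ H) :=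
  X.map (Rep.resFunctor H.subtype)

lemma sesSub_shortExact {X : ShortComplex (Rep.{0} ℤ Γ)} (hX : X.ShortExact) (H : Subgroup Γ) :
    (sesSub X H).ShortExact :=
  (Rep.shortExact_res H.subtype).2 hX

/-- The connecting homomorphism `Hᵃ(H, X₃) → Hᵇ(H, X₁)`. -/
def dSub {X : ShortComplex (Rep.{0} ℤ Γ)} (hX : X.ShortExact) (H : Subgroup Γ) (a b : ℕ)
    (hab : a + 1 = b) : Hn H X.X₃ a →ₗ[ℤ] Hn H X.X₁ b :=
  (δ (sesSub_shortExact hX H) a b hab).hom

/-- Exactness at `Hᵇ(H, X₁)`. -/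
lemma exists_dSub_eq {X : ShortComplex (Rep.{0} ℤ Γ)} (hX : X.ShortExact) (H : Subgroup Γ)
    (a b : ℕ) (hab : a + 1 = b) (y : Hn H X.X₁ b) (hy : coe H X.f b y = 0) :
    ∃ c : Hn H X.X₃ a, dSub hX H a b hab c = y := by
  have hex := mapShortComplex₁_exact (sesSub_shortExact hX H) hab
  rw [ShortComplex.moduleCat_exact_iff_ker_sub_range] at hex
  obtain ⟨z, hz⟩ := hex hy
  exact ⟨z, hz⟩

/-- Exactness at `Hᵃ(H, X₃)`. -/
lemma exists_coe_g_eq {X : ShortComplex (Rep.{0} ℤ Γ)} (hX : X.ShortExact) (H : Subgroup Γ)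
    (a b : ℕ) (hab : a + 1 = b) (c : Hn H X.X₃ a) (hc : dSub hX H a b hab c = 0) :
    ∃ x : Hn H X.X₂ a, coe H X.g a x = c := by
  have hex := mapShortComplex₃_exact (sesSub_shortExact hX H) hab
  rw [ShortComplex.moduleCat_exact_iff_ker_sub_range] at hex
  obtain ⟨z, hz⟩ := hex hc
  exact ⟨z, hz⟩

/-- Exactness at `Hᵃ(H, X₂)`. -/
lemma exists_coe_f_eq {X : ShortComplex (Rep.{0} ℤ Γ)} (hX : X.ShortExact) (H : Subgroup Γ)
    (a : ℕ) (x : Hn H X.X₂ a) (hx : coe H X.g a x = 0) :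
    ∃ w : Hn H X.X₁ a, coe H X.f a w = x := by
  have hex := mapShortComplex₂_exact (sesSub_shortExact hX H) a
  rw [ShortComplex.moduleCat_exact_iff_ker_sub_range] at hex
  obtain ⟨z, hz⟩ := hex hx
  exact ⟨z, hz⟩

/-- `δ ∘ g_* = 0`. -/
lemma dSub_coe_g {X : ShortComplex (Rep.{0} ℤ Γ)} (hX : X.ShortExact) (H : Subgroup Γ)
    (a b : ℕ) (hab : a + 1 = b) (w : Hn H X.X₂ a) :
    dSub hX H a b hab (coe H X.g a w) = 0 := by
  have h := (mapShortComplex₃ (sesSub_shortExact hX H) hab).zero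
  exact congrArg (fun F => F.hom w) h

/-- `f_* ∘ δ = 0`. -/
lemma coe_f_dSub {X : ShortComplex (Rep.{0} ℤ Γ)} (hX : X.ShortExact) (H : Subgroup Γ)
    (a b : ℕ) (hab : a + 1 = b) (c : Hn H X.X₃ a) :
    coe H X.f b (dSub hX H a b hab c) = 0 := by
  have h := (mapShortComplex₁ (sesSub_shortExact hX H) hab).zero
  exact congrArg (fun F => F.hom c) h

/-- Naturality of the connecting homomorphism under `infSub`. -/
lemma infSub_dSub (π : Γ' →* Γ) (H : Subgroup Γ) {X : ShortComplex (Rep.{0} ℤ Γ)}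
    {Y : ShortComplex (Rep.{0} ℤ Γ')} (hX : X.ShortExact) (hY : Y.ShortExact)
    (t₁ : Rep.res π X.X₁ ⟶ Y.X₁) (t₂ : Rep.res π X.X₂ ⟶ Y.X₂) (t₃ : Rep.res π X.X₃ ⟶ Y.X₃)
    (h₁₂ : ∀ a : X.X₁.V, t₂.hom (X.f.hom a) = Y.f.hom (t₁.hom a))
    (h₂₃ : ∀ a : X.X₂.V, t₃.hom (X.g.hom a) = Y.g.hom (t₂.hom a))
    (a b : ℕ) (hab : a + 1 = b) (c : Hn H X.X₃ a) :
    infSub π H t₁ b (dSub hX H a b hab c) =
      dSub hY (H.comap π) a b hab (infSub π H t₃ a c) := by
  let Φ : (sesSub X H).map (Rep.resFunctor (projSub π H)) ⟶ sesSub Y (H.comap π) :=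
    { τ₁ := semiSub π H t₁
      τ₂ := semiSub π H t₂
      τ₃ := semiSub π H t₃
      comm₁₂ := by
        apply Rep.hom_ext
        apply DFunLike.ext
        intro e
        exact (h₁₂ e).symm
      comm₂₃ := by
        apply Rep.hom_ext
        apply DFunLike.ext
        intro x
        exact (h₂₃ x).symm }
  have key := Fermat.Agent.S55.H783.δ_naturality_map (projSub π H) (sesSub_shortExact hX H)
    (sesSub_shortExact hY (H.comap π)) Φ a b hab
  exact congrArg (fun F => F.hom c) key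

end General

/-! ## The tower -/

section Tower

variable {S : Finset Nat.Primes}

lemma proj_proj {L L' L'' : Level S} (h : L ≤ L') (h' : L' ≤ L'') (g : L''.Gal) :
    Level.proj h (Level.proj h' g) = Level.proj (h.trans h') g := by
  induction g using QuotientGroup.induction_on with
  | H g => rfl

lemma proj_surjective {L L' : Level S} (h : L ≤ L') : Function.Surjective (Level.proj h) := by
  intro g
  induction g using QuotientGroup.induction_on with
  | H g => exact ⟨QuotientGroup.mk g, rfl⟩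

lemma index_up {L L' : Level S} (h : L ≤ L') (H : Subgroup L.Gal) :
    (up h H).index = H.index :=
  Subgroup.index_comap_of_surjective H (proj_surjective h)

/-- Transitivity of `infUp` for the `S`-units, in the form "dies after two steps ⇒ dies". -/
lemma infUp_trS_trans_zero {L L' L'' : Level S} (h : L ≤ L') (h' : L' ≤ L'')
    (H : Subgroup L.Gal) (n : ℕ) (y : Hn H (E1.Lim.sUnits L) n)
    (h0 : infUp h' (up h H) (trS h') n (infUp h H (trS h) n y) = 0) :
    infUp (h.trans h') H (trS (h.trans h')) n y = 0 :=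
  infSub_trans_zero (Level.proj h) (Level.proj h') (Level.proj (h.trans h'))
    (proj_proj h h') H (trS h) (trS h') (trS (h.trans h')) (fun _ => rfl) n y h0

/-- `J(F) → J(F')` is compatible with the diagonal. -/
lemma trJtot_diagTot' {L L' : Level S} (h : L ≤ L') (e : (E1.Lim.sUnits L).V) :
    (trJtot h).hom ((diagTot L).hom e) = (diagTot L').hom ((trS h).hom e) := by
  apply piRep_ext
  intro q
  show (Level.trJ h q.1).hom ((L.diag q.1).hom ((sIncl L).hom e)) =
    (L'.diag q.1).hom ((Level.trUnits h).hom ((sIncl L).hom e))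
  apply L'.J_ext q.1
  intro g'
  have h1 : L'.units.ρ g' ((Level.trUnits h).hom ((sIncl L).hom e)) =
      (Level.trUnits h).hom (L.units.ρ (Level.proj h g') ((sIncl L).hom e)) :=
    (Rep.hom_comm_apply (Level.trUnits h) g' ((sIncl L).hom e)).symm
  show Level.inclLoc h q.1 (L.embFun q.1 (L.units.ρ (Level.proj h g') ((sIncl L).hom e))) =
    L'.embFun q.1 (L'.units.ρ g' ((Level.trUnits h).hom ((sIncl L).hom e)))
  rw [h1]
  apply L'.locCoe_injective q.1
  rfl

variable {p : ℕ}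

/-- The core of AR-E3, at a level containing `μ_p`. -/
theorem e3_core (c : Ctx S p) (hp : p.Prime) (hses : SesExact c) (hJ3 : H3JVanish S p)
    (hsurj : SurjJC c) (hcap : CapH2 c) (L : Level S) (hμ : L.HasMu p) (H : Subgroup L.Gal)
    (hcop : Nat.Coprime H.index p) (y : Hn H (E1.Lim.sUnits L) 3) (hy : p • y = 0) :
    ∃ (L' : Level S) (h : L ≤ L'), infUp h H (trS h) 3 y = 0 := by
  -- 1. `y` dies in `H³(H, J)`
  have hyJ : coe H (diagTot L) 3 y = 0 :=
    hJ3 L H _ (isPPrim_of_nsmul (by rw [← map_nsmul, hy, map_zero]))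
  -- 2. `y = δ c₀`
  obtain ⟨c₀, hc₀⟩ := exists_dSub_eq (hses L) H 2 3 rfl y hyJ
  -- 3. `p`-primary part of `c₀`
  obtain ⟨e, he⟩ := exists_pproj hp (Nat.card H) Nat.card_pos
  have hc₁ : IsPPrim p (e • c₀) :=
    (he (Hn H (C1 c.D L) 2) (fun x => Fermat.Agent.S55.H783.card_nsmul_eq_zero _ 1 x)).1 c₀
  have hδc₁ : dSub (hses L) H 2 3 rfl (e • c₀) = y := by
    rw [map_nsmul, hc₀]
    exact (he (Hn H (E1.Lim.sUnits L) 3)
      (fun x => Fermat.Agent.S55.H783.card_nsmul_eq_zero _ 2 x)).2 y (isPPrim_of_nsmul hy)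
  -- 4. surjectivity (c)
  have hx₀ : IsPPrim p (coe H (inclC1 c.D L) 2 (e • c₀)) :=
    IsPPrim.map (coe H (inclC1 c.D L) 2).toAddMonoidHom hc₁
  obtain ⟨L', h, x, hx⟩ := hsurj L hμ H hcop _ hx₀
  -- 5. `p`-primary part of `x`
  obtain ⟨e', he'⟩ := exists_pproj hp (Nat.card (up h H)) Nat.card_pos
  have hx' : IsPPrim p (e' • x) :=
    (he' (Hn (up h H) (Jtot L') 2)
      (fun x => Fermat.Agent.S55.H783.card_nsmul_eq_zero _ 1 x)).1 x
  have hjx' : coe (up h H) (jTot c.D L') 2 (e' • x) =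
      infUp h H (c.D.tr h) 2 (coe H (inclC1 c.D L) 2 (e • c₀)) := by
    rw [map_nsmul, ← hx]
    exact (he' (Hn (up h H) (c.D.C L') 2)
      (fun x => Fermat.Agent.S55.H783.card_nsmul_eq_zero _ 1 x)).2 _
      (IsPPrim.map (infUp h H (c.D.tr h) 2).toAddMonoidHom hx₀)
  -- 6. the difference `e₁`
  have he₁pp : IsPPrim p (infUp h H (trC1 c.h7 h) 2 (e • c₀) -
      coe (up h H) (jC1 c.D L') 2 (e' • x)) :=
    IsPPrim.sub (IsPPrim.map (infUp h H (trC1 c.h7 h) 2).toAddMonoidHom hc₁)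
      (IsPPrim.map (coe (up h H) (jC1 c.D L') 2).toAddMonoidHom hx')
  have he₁0 : coe (up h H) (inclC1 c.D L') 2 (infUp h H (trC1 c.h7 h) 2 (e • c₀) -
      coe (up h H) (jC1 c.D L') 2 (e' • x)) = 0 := by
    rw [map_sub, ← coe_comp, jC1_inclC1, hjx',
      ← infSub_coe (Level.proj h) H (inclC1 c.D L) (inclC1 c.D L') (trC1 c.h7 h) (c.D.tr h)
        (fun a => (inclC1_trC1 c.h7 h a).symm) 2 (e • c₀), sub_self]
  -- 7. capitulation
  obtain ⟨L'', h', hcap0⟩ := hcap L' (up h H) _ he₁pp he₁0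
  -- 8. conclusion
  refine ⟨L'', h.trans h', infUp_trS_trans_zero h h' H 3 y ?_⟩
  have a1 : infUp h H (trS h) 3 (dSub (hses L) H 2 3 rfl (e • c₀)) =
      dSub (hses L') (up h H) 2 3 rfl (infUp h H (trC1 c.h7 h) 2 (e • c₀)) :=
    infSub_dSub (Level.proj h) H (hses L) (hses L') (trS h) (trJtot h) (trC1 c.h7 h)
      (trJtot_diagTot' h) (trC1_jC1 c.h7 h) 2 3 rfl (e • c₀)
  have a2 : dSub (hses L') (up h H) 2 3 rfl (coe (up h H) (jC1 c.D L') 2 (e' • x)) = 0 :=
    dSub_coe_g (hses L') (up h H) 2 3 rfl (e' • x)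
  have a3 := (dSub (hses L') (up h H) 2 3 rfl).map_sub
    (infUp h H (trC1 c.h7 h) 2 (e • c₀)) (coe (up h H) (jC1 c.D L') 2 (e' • x))
  rw [a2, sub_zero] at a3
  have h8 : infUp h H (trS h) 3 y =
      dSub (hses L') (up h H) 2 3 rfl (infUp h H (trC1 c.h7 h) 2 (e • c₀) -
        coe (up h H) (jC1 c.D L') 2 (e' • x)) :=
    (congrArg (infUp h H (trS h) 3) hδc₁.symm).trans (a1.trans a3.symm)
  have a4 := infSub_dSub (Level.proj h') (up h H) (hses L') (hses L'') (trS h') (trJtot h')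
    (trC1 c.h7 h') (trJtot_diagTot' h') (trC1_jC1 c.h7 h') 2 3 rfl
    (infUp h H (trC1 c.h7 h) 2 (e • c₀) - coe (up h H) (jC1 c.D L') 2 (e' • x))
  exact (congrArg (infUp h' (up h H) (trS h') 3) h8).trans
    (a4.trans ((congrArg (dSub (hses L'') (up h' (up h H)) 2 3 rfl) hcap0).trans (map_zero _)))

/-- **AR-E3.** -/
theorem e3Leaf (S : Finset Nat.Primes) (p : ℕ) : E3Leaf S p := by
  intro c hses hJ3 hsurj hcap hmu L H hcop y hy
  obtain ⟨hp, -, -⟩ := c.adm
  obtain ⟨⟨L₀, hL₀⟩, hdir⟩ := hmu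
  obtain ⟨L₁, h₁, h₀₁⟩ := hdir L L₀
  have hμ : L₁.HasMu p := hL₀.mono h₀₁
  obtain ⟨L₂, h₂, hz⟩ := e3_core c hp hses hJ3 hsurj hcap L₁ hμ (up h₁ H)
    (by rw [index_up]; exact hcop) (infUp h₁ H (trS h₁) 3 y) (by rw [← map_nsmul, hy, map_zero])
  exact ⟨L₂, h₁.trans h₂, infUp_trS_trans_zero h₁ h₂ H 3 y hz⟩

end Tower

end

end Fermat.Agent.S55.K.AR.H206
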