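/-
S55 moonshot — LAYER K, block AR, leaf **AR-HASSE** (`HasseLeaf`).        helper181.
Namespace `Fermat.Agent.S55.K.AR.H181`.  Blueprint: `coord/S55-K-AR.md` §2, row AR-HASSE.

`hasseLeaf S p : HasseLeaf S p` — a `p`-primary class of `H²(Gal(F/K), E(F))` which dies in
`H²(Gal(F/K), J(F))` dies in `H²(Gal(F'/K), E(F'))` for some `F' ≥ F`.

Reusable (generic, part of AR-LIB):
* `infSub_comp`, `infSub_eq_zero_of_comp` : transitivity of `infSub` (no casts: the composite is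
  stated for an arbitrary `π''` with `π ∘ π' = π''` pointwise);
* `infUp_trans_eq_zero` : the tower form;
* `exists_delta_eq` : exactness of `H¹(H, X₃) → H²(H, X₁) → H²(H, X₂)` for a short exact sequence
  of `Γ`-modules and a subgroup `H ≤ Γ`, with a `p`-primary preimage (`exists_delta_eq_pprim`);
* `delta_infSub` : `δ ∘ inf = inf ∘ δ` for a morphism of short exact sequences;
* `coe_infSub'` : `coe ∘ inf = inf ∘ coe`;  `isPPrim_map`.
-/
import Fermat.Agent.S55.K.AR.Spec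
import Fermat.Agent.S55.KL.DeltaNatH304
import Fermat.Agent.S55.G.Rec.Tow.H417.AlgA
import Fermat.Agent.S55.T.CoresH572

set_option autoImplicit false

open CategoryTheory groupCohomology

namespace Fermat.Agent.S55.K.AR.H181

open Fermat.Agent.S55 Fermat.Agent.S55.Tow Fermat.Agent.S55.E1.Lim

noncomputable section

/-! ## 1. Generic lemmas -/

section General

variable {Γ Γ' Γ'' : Type} [Group Γ] [Group Γ'] [Group Γ'']

/-- Additive maps preserve `p`-primary elements. -/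
lemma isPPrim_map {p : ℕ} {A B : Type} [AddCommGroup A] [AddCommGroup B] (f : A →+ B) {x : A}
    (hx : IsPPrim p x) : IsPPrim p (f x) := by
  obtain ⟨k, hk⟩ := hx
  exact ⟨k, by rw [← map_nsmul, hk, map_zero]⟩

/-- Coefficient change commutes with inflation, for a commuting square of coefficients. -/
theorem coe_infSub' (π : Γ' →* Γ) (H : Subgroup Γ) {A B : Rep.{0} ℤ Γ} {A' B' : Rep.{0} ℤ Γ'}
    (f : A ⟶ B) (f' : A' ⟶ B') (t : Rep.res π A ⟶ A') (s : Rep.res π B ⟶ B')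
    (hsq : ∀ a : A.V, f'.hom (t.hom a) = s.hom (f.hom a)) (n : ℕ) (x : Hn H A n) :
    coe (H.comap π) f' n (infSub π H t n x) = infSub π H s n (coe H f n x) := by
  have h : groupCohomology.map (projSub π H) (semiSub π H t) n ≫
        T.coeffMap ((Rep.resFunctor (H.comap π).subtype).map f') n =
      T.coeffMap ((Rep.resFunctor H.subtype).map f) n ≫
        groupCohomology.map (projSub π H) (semiSub π H s) n := by
    rw [← groupCohomology.map_comp, ← groupCohomology.map_comp]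
    refine groupCohomology.map_congr rfl ?_ n
    apply DFunLike.ext
    intro a
    exact hsq a
  exact congrArg (fun φ => φ.hom x) h

/-- **Transitivity of inflation**, composite form. -/
theorem infSub_comp (π : Γ' →* Γ) (π' : Γ'' →* Γ') (H : Subgroup Γ) {A : Rep.{0} ℤ Γ}
    {A' : Rep.{0} ℤ Γ'} {A'' : Rep.{0} ℤ Γ''} (t : Rep.res π A ⟶ A') (t' : Rep.res π' A' ⟶ A'')
    (t'' : Rep.res (π.comp π') A ⟶ A'') (ht : ∀ a : A.V, t'.hom (t.hom a) = t''.hom a) (n : ℕ)
    (x : Hn H A n) :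
    infSub (π.comp π') H t'' n x = infSub π' (H.comap π) t' n (infSub π H t n x) := by
  have h : groupCohomology.map (projSub (π.comp π') H) (semiSub (π.comp π') H t'') n =
      groupCohomology.map (projSub π H) (semiSub π H t) n ≫
        groupCohomology.map (projSub π' (H.comap π)) (semiSub π' (H.comap π) t') n := by
    rw [← groupCohomology.map_comp]
    refine groupCohomology.map_congr rfl ?_ n
    apply DFunLike.ext
    intro a
    exact (ht a).symm
  exact congrArg (fun φ => φ.hom x) h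

/-- **Transitivity of inflation**: if `inf' (inf x) = 0` then `inf'' x = 0`, where `inf''` is the
inflation along any `π''` which agrees pointwise with `π ∘ π'`. -/
theorem infSub_eq_zero_of_comp (π : Γ' →* Γ) (π' : Γ'' →* Γ') (π'' : Γ'' →* Γ)
    (hπ : ∀ g, π (π' g) = π'' g) (H : Subgroup Γ) {A : Rep.{0} ℤ Γ}
    {A' : Rep.{0} ℤ Γ'} {A'' : Rep.{0} ℤ Γ''} (t : Rep.res π A ⟶ A') (t' : Rep.res π' A' ⟶ A'')
    (t'' : Rep.res π'' A ⟶ A'') (ht : ∀ a : A.V, t'.hom (t.hom a) = t''.hom a) (n : ℕ)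
    (x : Hn H A n) (h0 : infSub π' (H.comap π) t' n (infSub π H t n x) = 0) :
    infSub π'' H t'' n x = 0 := by
  obtain rfl : π'' = π.comp π' := MonoidHom.ext fun g => (hπ g).symm
  rw [infSub_comp π π' H t t' t'' ht n x]
  exact h0

/-- Exactness of `H¹(H, X₃) → H²(H, X₁) → H²(H, X₂)`. -/
theorem exists_delta_eq (H : Subgroup Γ) (X : ShortComplex (Rep.{0} ℤ Γ)) (hX : X.ShortExact)
    (x : Hn H X.X₁ 2) (hx : coe H X.f 2 x = 0) :
    ∃ s : Hn H X.X₃ 1,
      (δ ((Rep.shortExact_res H.subtype).2 hX) 1 2 rfl).hom s = x := by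
  have hex := mapShortComplex₁_exact ((Rep.shortExact_res H.subtype).2 hX) (i := 1) (j := 2) rfl
  exact (ShortComplex.moduleCat_exact_iff _).1 hex x hx

/-- Exactness of `H¹(H, X₃) → H²(H, X₁) → H²(H, X₂)`, with a `p`-primary preimage. -/
theorem exists_delta_eq_pprim [Finite Γ] {p : ℕ} (hp : p.Prime) (H : Subgroup Γ)
    (X : ShortComplex (Rep.{0} ℤ Γ)) (hX : X.ShortExact)
    (x : Hn H X.X₁ 2) (hxp : IsPPrim p x) (hx : coe H X.f 2 x = 0) :
    ∃ s : Hn H X.X₃ 1, IsPPrim p s ∧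
      (δ ((Rep.shortExact_res H.subtype).2 hX) 1 2 rfl).hom s = x := by
  obtain ⟨s₀, hs₀⟩ := exists_delta_eq H X hX x hx
  have hkill : ∀ s : Hn H X.X₃ 1, Nat.card H • s = 0 :=
    fun s => T.H572.cardTorsion ℤ H (T.resSub X.X₃ H) 1 (by norm_num) s
  have hpp : E1.IsPPrimary p
      ((δ ((Rep.shortExact_res H.subtype).2 hX) 1 2 rfl).hom.toAddMonoidHom s₀) := by
    show E1.IsPPrimary p ((δ ((Rep.shortExact_res H.subtype).2 hX) 1 2 rfl).hom s₀)
    rw [hs₀]
    exact hxp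
  obtain ⟨s, hs, hs'⟩ := G.Rec.TOW.H417.pPrimaryLift p hp _ _
    (δ ((Rep.shortExact_res H.subtype).2 hX) 1 2 rfl).hom.toAddMonoidHom (Nat.card H)
    Nat.card_pos hkill s₀ hpp
  exact ⟨s, hs, hs'.trans hs₀⟩

/-- `δ ∘ inf = inf ∘ δ` for a morphism of short exact sequences along `π`. -/
theorem delta_infSub (π : Γ' →* Γ) (H : Subgroup Γ) (X : ShortComplex (Rep.{0} ℤ Γ))
    (hX : X.ShortExact) (Y : ShortComplex (Rep.{0} ℤ Γ')) (hY : Y.ShortExact)
    (t₁ : Rep.res π X.X₁ ⟶ Y.X₁) (t₂ : Rep.res π X.X₂ ⟶ Y.X₂) (t₃ : Rep.res π X.X₃ ⟶ Y.X₃)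
    (h₁₂ : ∀ a : X.X₁.V, t₂.hom (X.f.hom a) = Y.f.hom (t₁.hom a))
    (h₂₃ : ∀ a : X.X₂.V, t₃.hom (X.g.hom a) = Y.g.hom (t₂.hom a))
    (s : Hn H X.X₃ 1) :
    infSub π H t₁ 2 ((δ ((Rep.shortExact_res H.subtype).2 hX) 1 2 rfl).hom s) =
      (δ ((Rep.shortExact_res (H.comap π).subtype).2 hY) 1 2 rfl).hom (infSub π H t₃ 1 s) := by
  have h := KL.H304.deltaNat ℤ ↥(H.comap π) ↥H (projSub π H)
    (X.map (Rep.resFunctor H.subtype)) ((Rep.shortExact_res H.subtype).2 hX)
    (Y.map (Rep.resFunctor (H.comap π).subtype)) ((Rep.shortExact_res (H.comap π).subtype).2 hY)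
    (semiSub π H t₁) (semiSub π H t₂) (semiSub π H t₃)
    (by
      apply Rep.hom_ext
      apply DFunLike.ext
      intro a
      exact h₁₂ a)
    (by
      apply Rep.hom_ext
      apply DFunLike.ext
      intro a
      exact h₂₃ a)
    1 2 rfl
  exact congrArg (fun φ => φ.hom s) h

end General

/-! ## 2. The tower -/

variable {S : Finset Nat.Primes} {p : ℕ}

lemma proj_proj {L L' L'' : Level S} (h : L ≤ L') (h' : L' ≤ L'') (g : L''.Gal) :
    Level.proj h (Level.proj h' g) = Level.proj (h.trans h') g := by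
  induction g using QuotientGroup.induction_on with
  | H g => rfl

/-- Transitivity of `infUp` in the form used in the WLOG reductions: a class dying after two
inflations dies after the composite inflation. -/
theorem infUp_trans_eq_zero {L L' L'' : Level S} (h : L ≤ L') (h' : L' ≤ L'')
    (H : Subgroup L.Gal) {A : Rep.{0} ℤ L.Gal} {A' : Rep.{0} ℤ L'.Gal} {A'' : Rep.{0} ℤ L''.Gal}
    (t : Rep.res (Level.proj h) A ⟶ A') (t' : Rep.res (Level.proj h') A' ⟶ A'')
    (t'' : Rep.res (Level.proj (h.trans h')) A ⟶ A'')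
    (ht : ∀ a : A.V, t'.hom (t.hom a) = t''.hom a) (n : ℕ) (x : Hn H A n)
    (h0 : infUp h' (up h H) t' n (infUp h H t n x) = 0) :
    infUp (h.trans h') H t'' n x = 0 :=
  infSub_eq_zero_of_comp (Level.proj h) (Level.proj h') (Level.proj (h.trans h'))
    (proj_proj h h') H t t' t'' ht n x h0

lemma trS_trS {L L' L'' : Level S} (h : L ≤ L') (h' : L' ≤ L'') (e : (E1.Lim.sUnits L).V) :
    (trS h').hom ((trS h).hom e) = (trS (h.trans h')).hom e := rfl

lemma trJ_diag' {L L' : Level S} (h : L ≤ L') (q : Nat.Primes) (x : L.units.V) :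
    (Level.trJ h q).hom ((L.diag q).hom x) = (L'.diag q).hom ((Level.trUnits h).hom x) := by
  apply L'.J_ext q
  intro g'
  have h1 : L'.units.ρ g' ((Level.trUnits h).hom x) =
      (Level.trUnits h).hom (L.units.ρ (Level.proj h g') x) :=
    (Rep.hom_comm_apply (Level.trUnits h) g' x).symm
  show Level.inclLoc h q (L.embFun q (L.units.ρ (Level.proj h g') x)) =
    L'.embFun q (L'.units.ρ g' ((Level.trUnits h).hom x))
  rw [h1]
  apply L'.locCoe_injective q
  rfl

lemma trJtot_diagTot' {L L' : Level S} (h : L ≤ L') (e : (E1.Lim.sUnits L).V) :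
    (trJtot h).hom ((diagTot L).hom e) = (diagTot L').hom ((trS h).hom e) := by
  apply piRep_ext
  intro q
  exact trJ_diag' h q.1 ((sIncl L).hom e)

/-- **HASSE at a level containing `μ_p`.** -/
theorem hasse_of_hasMu (c : Ctx S p) (hses : SesExact c) (hC1 : H1CVanish c) (hcap : CapH1 c)
    (L : Level S) (hMu : L.HasMu p) (H : Subgroup L.Gal) (x : Hn H (E1.Lim.sUnits L) 2)
    (hxp : IsPPrim p x) (hx : coe H (diagTot L) 2 x = 0) :
    ∃ (L' : Level S) (h : L ≤ L'), infUp h H (trS h) 2 x = 0 := by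
  obtain ⟨hp, -, -⟩ := c.adm
  obtain ⟨s, hsp, hs⟩ := exists_delta_eq_pprim hp H (ses c.h4 L) (hses L) x hxp hx
  have hs0 : coe H (inclC1 c.D L) 1 s = 0 :=
    hC1 L hMu H _ (isPPrim_map (coe H (inclC1 c.D L) 1).toAddMonoidHom hsp)
  obtain ⟨L', h, hinf⟩ := hcap L H s hsp hs0
  refine ⟨L', h, ?_⟩
  have hnat := delta_infSub (Level.proj h) H (ses c.h4 L) (hses L) (ses c.h4 L') (hses L')
    (trS h) (trJtot h) (trC1 c.h7 h) (fun a => trJtot_diagTot' h a)
    (fun a => trC1_jC1 c.h7 h a) s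
  rw [hs] at hnat
  refine hnat.trans ?_
  have h0 : infSub (Level.proj h) H (trC1 c.h7 h) 1 s = 0 := hinf
  exact (congrArg _ h0).trans (map_zero _)

/-- Leaf **AR-HASSE**. -/
theorem hasseLeaf (S : Finset Nat.Primes) (p : ℕ) : HasseLeaf S p := by
  intro c hses hC1 hcap hmu L H x hxp hx
  obtain ⟨⟨L₀, hL₀⟩, hdir⟩ := hmu
  obtain ⟨L₁, h₁, h₀₁⟩ := hdir L L₀
  have hMu₁ : L₁.HasMu p := Level.HasMu.mono h₀₁ hL₀
  have hxp₁ : IsPPrim p (infUp h₁ H (trS h₁) 2 x) :=
    isPPrim_map (infUp h₁ H (trS h₁) 2).toAddMonoidHom hxp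
  have hx₁ : coe (up h₁ H) (diagTot L₁) 2 (infUp h₁ H (trS h₁) 2 x) = 0 := by
    have := coe_infSub' (Level.proj h₁) H (diagTot L) (diagTot L₁) (trS h₁) (trJtot h₁)
      (fun a => (trJtot_diagTot' h₁ a).symm) 2 x
    rw [hx, map_zero] at this
    exact this
  obtain ⟨L₂, h₂, h0⟩ := hasse_of_hasMu c hses hC1 hcap L₁ hMu₁ (up h₁ H) _ hxp₁ hx₁
  exact ⟨L₂, h₁.trans h₂, infUp_trans_eq_zero h₁ h₂ H (trS h₁) (trS h₂) (trS (h₁.trans h₂))
    (trS_trS h₁ h₂) 2 x h0⟩

end

end Fermat.Agent.S55.K.AR.H181
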