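import Fermat.Agent.S55.K.AR.Spec
import Fermat.Agent.S55.KG.JDivCoreH604

/-!
# S55, layer K, block AR, leaves AR-J3 and AR-JDIV (helper604)

* `h3JLeaf : H3JLeaf S p`   — `H³(H, J(F)) = 0` (even without the `p`-primary restriction);
* `j2DivLeaf : J2DivLeaf S p` — semi-local divisibility at finite level.

Both are UNCONDITIONAL (the hypothesis `LocalSpec p` of the leaf is not used): they follow from
the semi-local core `KG.H604.jCore` (Mackey–Shapiro), helper964's local class-module data and
Tate's theorem.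
-/

set_option autoImplicit false

open CategoryTheory groupCohomology

namespace Fermat.Agent.S55.K.AR.H604

open Fermat.Agent.S55 Fermat.Agent.S55.Tow Fermat.Agent.S55.E1.Lim

variable (S : Finset Nat.Primes) (p : ℕ)

/-- `H³(H, J(F)) = 0`. -/
theorem h3JVanish : H3JVanish S p := fun L H y _ =>
  @Subsingleton.elim _ (KG.H604.jH3 S L H) y 0

/-- **AR-J3.** -/
theorem h3JLeaf : H3JLeaf S p := fun _ _ => h3JVanish S p

/-- Semi-local divisibility at finite level. -/
theorem j2Div (hp : p.Prime) : J2Div S p := by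
  intro L H b c hH hdec y hy
  have hK : ¬ p ^ (b + 1) ∣ p ^ b := fun h =>
    absurd (Nat.le_of_dvd (pow_pos hp.pos b) h)
      (not_le.2 (Nat.pow_lt_pow_right hp.one_lt (Nat.lt_succ_self b)))
  obtain ⟨w, hw⟩ := KG.H604.jDivCore L H p hp (p ^ b) (b + 1) c hK hH hdec y hy
  exact ⟨w, hw.symm⟩

/-- **AR-JDIV.** -/
theorem j2DivLeaf : J2DivLeaf S p := fun hp _ => j2Div S p hp

end Fermat.Agent.S55.K.AR.H604
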