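/-
S55 moonshot — LAYER K, block AR, leaf **AR-KAPPA** (subtask 633).      Owner: helper501.
Namespace `Fermat.Agent.S55.K.AR.H501`.  No `sorry`.

`kappaLeaf : KappaLeaf S p` (exact type of `K/AR/Spec.lean`):
if `p ^ b` divides the local degree `|Gal(F_q/ℚ_q)|`, there is `v ∈ H²(Gal(F/ℚ), J_q(F))` with
`p ^ b • v = 0` whose image in `H²(Gal(F/ℚ), C(F))` has order exactly `p ^ b`.

Proof.  (1) `exists_exact_order`: in a class module at `p` for a finite group `G`, the class
`(|G| / p ^ b) • γ` has order exactly `p ^ b` (restrict to a Sylow `p`-subgroup `P`: `H²(P, A)` is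
cyclic of order `|P|`, generated by `res γ`; `|G|` kills `H²(G, A)`).
(2) Shapiro (`H173.shapiroJ_bijective`) transports it to `H²(Gal(F/ℚ), J_q(F))`.
(3) GD3 (`j_q` injective on `p`-torsion of `H²`) keeps the order.
-/
import Fermat.Agent.S55.K.AR.Spec
import Fermat.Agent.S55.H173.TowerShapiro
import Fermat.Agent.S55.T.CoresH572

set_option autoImplicit false

open CategoryTheory

namespace Fermat.Agent.S55.K.AR.H501

open Fermat.Agent.S55 Fermat.Agent.S55.Tow

noncomputable section

/-! ## 1. Elementary: elements of exact `p`-power order -/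

/-- In an additive group: if `p ^ b • v = 0` and `p ^ (b - 1) • v ≠ 0` (for `b ≥ 1`), the order of
`v` is a multiple of `p ^ b`. -/
theorem pow_dvd_of_nsmul_eq_zero {M : Type} [AddCommGroup M] {p : ℕ} (hp : p.Prime) (b : ℕ)
    (v : M) (hv : p ^ b • v = 0) (hne : 0 < b → p ^ (b - 1) • v ≠ 0) (n : ℕ) (hn : n • v = 0) :
    p ^ b ∣ n := by
  rcases Nat.eq_zero_or_pos b with hb | hb
  · subst hb
    simp
  have h1 : addOrderOf v ∣ p ^ b := addOrderOf_dvd_of_nsmul_eq_zero hv
  obtain ⟨e, he, heq⟩ := (Nat.dvd_prime_pow hp).mp h1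
  have h2 : addOrderOf v ∣ n := addOrderOf_dvd_of_nsmul_eq_zero hn
  rcases Nat.lt_or_ge e b with hlt | hge
  · exfalso
    apply hne hb
    have h3 : addOrderOf v ∣ p ^ (b - 1) := by
      rw [heq]
      exact pow_dvd_pow p (by omega)
    exact addOrderOf_dvd_iff_nsmul_eq_zero.mp h3
  · have : e = b := le_antisymm he hge
    rw [← this, ← heq]
    exact h2

variable {G : Type} [Group G] [Finite G]

/-- **Class modules at `p` contain classes of every admissible exact `p`-power order.** -/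
theorem exists_exact_order {p : ℕ} (hp : p.Prime) (A : Rep.{0} ℤ G)
    (γ : groupCohomology A 2) (hγ : E1.IsClassModuleAt p A γ) (b : ℕ)
    (hb : p ^ b ∣ Nat.card G) :
    ∃ v : groupCohomology A 2, p ^ b • v = 0 ∧ ∀ n : ℕ, n • v = 0 → p ^ b ∣ n := by
  classical
  have : Fact p.Prime := ⟨hp⟩
  have hG : Nat.card G ≠ 0 := Nat.card_pos.ne'
  set a := (Nat.card G).factorization p with ha
  have hba : b ≤ a := (hp.pow_dvd_iff_le_factorization hG).mp hb
  set m := Nat.card G / p ^ a with hm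
  have hcard : p ^ a * m = Nat.card G := Nat.ordProj_mul_ordCompl_eq_self (Nat.card G) p
  have hcop : Nat.Coprime p m := Nat.coprime_ordCompl hp hG
  -- a Sylow subgroup
  let P : Sylow p G := default
  have hPcard : Nat.card (P : Subgroup G) = p ^ a := P.card_eq_multiplicity
  obtain ⟨-, hH2card, hgen⟩ := hγ (P : Subgroup G) P.isPGroup'
  set ρ := (T.resMap A (P : Subgroup G) 2).hom γ with hρ
  -- `ρ` has order exactly `p ^ a`
  have hfin : Finite (groupCohomology (T.resSub A (P : Subgroup G)) 2) := by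
    apply Nat.finite_of_card_ne_zero
    rw [hH2card, hPcard]
    exact pow_ne_zero _ hp.ne_zero
  have htop : AddSubgroup.zmultiples ρ = ⊤ := by
    rw [eq_top_iff]
    intro x _
    obtain ⟨n, hn⟩ := hgen x
    rw [hn]
    exact AddSubgroup.nsmul_mem _ (AddSubgroup.mem_zmultiples ρ) n
  have hord : addOrderOf ρ = p ^ a := by
    rw [← Nat.card_zmultiples, htop, ← hPcard, ← hH2card]
    exact Nat.card_congr (Equiv.Set.univ _)
  -- the class
  have hkill : Nat.card G • γ = 0 := T.H572.cardTorsion ℤ G A 2 (by norm_num) γ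
  refine ⟨(m * p ^ (a - b)) • γ, ?_, ?_⟩
  · rw [← mul_nsmul']
    have : p ^ b * (m * p ^ (a - b)) = Nat.card G := by
      rw [mul_comm, mul_assoc, ← pow_add, Nat.sub_add_cancel hba, mul_comm, hcard]
    rw [this, hkill]
  · intro n hn
    have h1 : (n * (m * p ^ (a - b))) • ρ = 0 := by
      have := congrArg (T.resMap A (P : Subgroup G) 2).hom hn
      rw [map_nsmul, map_nsmul, map_zero, ← mul_nsmul'] at this
      exact this
    have h2 : p ^ a ∣ n * (m * p ^ (a - b)) := by
      rw [← hord]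
      exact addOrderOf_dvd_of_nsmul_eq_zero h1
    have h3 : p ^ b * p ^ (a - b) ∣ (n * m) * p ^ (a - b) := by
      rw [← pow_add, Nat.add_sub_cancel' hba, mul_assoc]
      exact h2
    have h4 : p ^ b ∣ n * m :=
      Nat.dvd_of_mul_dvd_mul_right (pow_pos hp.pos _) h3
    exact (Nat.Coprime.pow_left b hcop).dvd_of_dvd_mul_right h4

/-! ## 2. The leaf -/

variable {S : Finset Nat.Primes} {p : ℕ}

/-- **AR-KAPPA.** -/
theorem kappa (c : Ctx S p) (hloc : LocalSpec p) : Kappa c := by
  intro L hμ q hq b hb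
  obtain ⟨hp, -, -⟩ := c.adm
  obtain ⟨γ, hγ⟩ := hloc.1 S L q
  obtain ⟨v₀, hv₀, hv₀'⟩ := exists_exact_order hp (L.locUnits q) γ hγ b hb
  obtain ⟨v, hv⟩ := (H173.shapiroJ_bijective L q 2).2 v₀
  have hinj := (H173.shapiroJ_bijective L q 2).1
  have hsmul : ∀ k : ℕ, k • v = 0 ↔ k • v₀ = 0 := by
    intro k
    constructor
    · intro h
      rw [← hv, ← map_nsmul, h, map_zero]
    · intro h
      apply hinj
      rw [map_nsmul, hv, h, map_zero]
  have hpv : p ^ b • v = 0 := (hsmul _).mpr hv₀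
  refine ⟨v, hpv, ?_⟩
  set w := (T.coeffMap (c.D.j L q) 2).hom v with hw
  have hpw : p ^ b • w = 0 := by
    rw [hw, ← map_nsmul, hpv, map_zero]
  refine pow_dvd_of_nsmul_eq_zero hp b w hpw ?_
  intro hbpos hzero
  -- `p ^ (b-1) • v` is `p`-torsion and dies in `H²(C)`: it vanishes by GD3
  have h1 : p • (p ^ (b - 1) • v) = 0 := by
    rw [← mul_nsmul', mul_comm, ← pow_succ, Nat.sub_add_cancel hbpos]
    exact hpv
  have h2 : (T.coeffMap (c.D.j L q) 2).hom (p ^ (b - 1) • v) = 0 := by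
    rw [map_nsmul]
    exact hzero
  have h3 : p ^ (b - 1) • v = 0 := c.good.good.gd3 L hμ q hq _ h1 h2
  have h4 : p ^ b ∣ p ^ (b - 1) := hv₀' _ ((hsmul _).mp h3)
  have h5 : b ≤ b - 1 := (Nat.pow_dvd_pow_iff_le_right hp.one_lt).mp h4
  omega

/-- **Leaf AR-KAPPA** in the exact form of `K/AR/Spec.lean`. -/
theorem kappaLeaf (S : Finset Nat.Primes) (p : ℕ) : KappaLeaf S p :=
  fun c hloc => kappa c hloc

end

end Fermat.Agent.S55.K.AR.H501
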