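import Fermat.Agent.S55.K.AR.Spec
import Fermat.Agent.S55.T.SumH635

/-!
# S55 / layer K / block AR, leaf AR-WR (helper635)

`weakRecipLeaf : WeakRecipLeaf S p` — weak reciprocity over `ℚ` in the tower:
`∑_q (j_q)_* (diag_q)_* x = (jTot ∘ diagTot)_* x = 0` (GD4); if all terms but `q₀` vanish then
`(j_{q₀})_* ((diag_{q₀})_* x) = 0`, and GD3 (injectivity of `(j_q)_*` on `p`-torsion) applies.
-/

set_option autoImplicit false

open CategoryTheory

namespace Fermat.Agent.S55.K.AR.H635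

open Fermat.Agent.S55 Fermat.Agent.S55.Tow Fermat.Agent.S55.E1.Lim

/-- `∑_q j_q ∘ diag_q ∘ incl = 0` on the `S`-units (GD4). -/
theorem sum_diag_j_eq_zero {S : Finset Nat.Primes} {p : ℕ} (c : Ctx S p) (L : Level S) :
    (∑ q : S, (sIncl L ≫ L.diag q.1) ≫ c.D.j L q.1) = 0 := by
  apply Rep.hom_ext
  apply DFunLike.ext
  intro e
  have h1 := diagTot_jTot c.h4 L e
  rw [jTot_apply] at h1
  have h2 : ((∑ q : S, (sIncl L ≫ L.diag q.1) ≫ c.D.j L q.1 : E1.Lim.sUnits L ⟶ c.D.C L)).hom e =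
      ∑ q : S, (c.D.j L q.1).hom (piTo ((diagTot L).hom e) q) := by
    have h3 : ∀ (s : Finset S),
        ((∑ q ∈ s, (sIncl L ≫ L.diag q.1) ≫ c.D.j L q.1 : E1.Lim.sUnits L ⟶ c.D.C L)).hom e =
          ∑ q ∈ s, (c.D.j L q.1).hom (piTo ((diagTot L).hom e) q) := by
      intro s
      classical
      induction s using Finset.induction_on with
      | empty => rfl
      | insert a s ha ih =>
        rw [Finset.sum_insert ha, Finset.sum_insert ha, ← ih]
        rfl
    exact h3 Finset.univ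
  rw [h2, h1]
  rfl

/-- **AR-WR.** -/
theorem weakRecipLeaf (S : Finset Nat.Primes) (p : ℕ) : WeakRecipLeaf S p := by
  intro c L hMu x hx q₀ hq₀ hother
  classical
  refine c.good.good.gd3 L hMu q₀ hq₀ _ ?_ ?_
  · rw [← map_nsmul, hx, map_zero]
  · have hsum := T.H635.coeffMap_sum_apply (Finset.univ : Finset S)
      (fun q : S => (sIncl L ≫ L.diag q.1) ≫ c.D.j L q.1) 2 x
    rw [sum_diag_j_eq_zero c L, T.H635.coeffMap_zero_apply] at hsum
    rw [Finset.sum_eq_single (⟨q₀, hq₀⟩ : S)] at hsum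
    · rw [T.H635.coeffMap_comp_apply]
      exact hsum.symm
    · intro q _ hq
      rw [← T.H635.coeffMap_comp_apply, hother q.1 q.2 (fun h => hq (Subtype.ext h)), map_zero]
    · intro h
      exact absurd (Finset.mem_univ _) h

end Fermat.Agent.S55.K.AR.H635
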