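/-
S55 moonshot — LAYER K, block AR: CLOSURE of the arithmetic core.          helper4 (architect).
No `sorry`.

All the leaves of `K/AR/Spec.lean` are on main (owners: helper635 SES, COKER, WR; helper837 CAP;
helper748 C1, C2; helper501 KAPPA; helper604/helper577 J3, JDIV; helper181 DEG, MU, HASSE;
helper939 (c), (d); helper206 E3; helper79 E2; helper587 DICT).  This file plugs them into
`K/AR/Assembly.lean`:

* `leaves`    : the structure `Leaves S p`;
* `towers`    : E3, E2, HASSE, COKER, WEAK RECIPROCITY in the tower, from `Tow.GlobalSpecFin S p`;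
* `go12`      : GO1 + GO2 for the levels of index prime to `p`;
* `surj2Glob` : **input A3 of layer D** (`PT.Surj2GlobSpec p S`) from `Tow.GlobalSpecFin S p`
                ALONE (`Tow.LocalSpec p` is closed on main, helper964).
-/
import Fermat.Agent.S55.K.AR.Assembly
import Fermat.Agent.S55.K.AR.SesH635
import Fermat.Agent.S55.K.AR.CapH837
import Fermat.Agent.S55.K.AR.C12H748
import Fermat.Agent.S55.K.AR.KappaH501
import Fermat.Agent.S55.K.AR.JH604
import Fermat.Agent.S55.K.AR.DegMuH181
import Fermat.Agent.S55.K.AR.SurjKerH939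
import Fermat.Agent.S55.K.AR.HasseH181
import Fermat.Agent.S55.K.AR.E3H206
import Fermat.Agent.S55.K.AR.E2H79
import Fermat.Agent.S55.K.AR.CokerH635
import Fermat.Agent.S55.K.AR.WeakRecipH635
import Fermat.Agent.S55.K.AR.DictH587
import Fermat.Agent.S55.LocalSpec.H964.Main

set_option autoImplicit false

noncomputable section

namespace Fermat.Agent.S55.K.AR.H4

open Fermat.Agent.S55 Fermat.Agent.S55.Tow Fermat.Agent.S55.K.AR ExtCitation

variable {S : Finset Nat.Primes} {p : ℕ}

/-- **All the leaves of the arithmetic core.** -/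
theorem leaves (S : Finset Nat.Primes) (p : ℕ) [Fact p.Prime] : Leaves S p where
  ses := H635.sesLeaf S p
  cap1 := H837.capH1 S p
  cap2 := H837.capH2 S p
  h1C := H748.h1CLeaf
  h2C := H748.h2CLeaf
  kappa := H501.kappaLeaf S p
  h3J := H604.h3JLeaf S p
  j2Div := H604.j2DivLeaf S p
  dec := H181.decLeaf S p
  muDir := H181.muDirLeaf S p
  surjJC := H939.surjJC
  kerDiv := H939.kerDiv
  hasse := H181.hasseLeaf S p
  e3 := H206.e3Leaf S p
  e2 := H79.e2Leaf S p
  coker := H635.cokerLeaf S p
  weakRecip := H635.weakRecipLeaf S p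

/-- `Tow.LocalSpec p`, closed (helper964). -/
theorem localSpec (p : ℕ) [Fact p.Prime] : LocalSpec p :=
  Fermat.Agent.S55.LocalSpec.H964.localSpec p (Fact.out : p.Prime).ne_zero

/-- The context of the arithmetic core from the target of layer G. -/
def ctxOf [Fact p.Prime] (D : TowerDatum S) (hD : D.IsGoodFin p) (hp2 : p ≠ 2)
    (hpS : pPrime p ∈ S) : Ctx S p :=
  ⟨D, hD, ⟨(Fact.out : p.Prime), hp2, hpS⟩⟩

/-- **The tower statements** E3, E2, HASSE (GO3), COKER (GO4), WEAK RECIPROCITY (GO5), from the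
target of layer G. -/
theorem towers [Fact p.Prime] (hG : GlobalSpecFin S p) (hp2 : p ≠ 2) (hpS : pPrime p ∈ S) :
    E3Tower S p ∧ E2Tower S p ∧ HasseTower S p ∧ CokerTower S p ∧ WeakRecipTower S p := by
  obtain ⟨D, hD⟩ := hG
  exact towers_of_leaves (leaves S p) (ctxOf D hD hp2 hpS) (localSpec p)

/-- **GO3 in the tower** (Hasse principle for the `p`-primary part of `H²(E)`). -/
theorem hasseTower [Fact p.Prime] (hG : GlobalSpecFin S p) (hp2 : p ≠ 2) (hpS : pPrime p ∈ S) :
    HasseTower S p := (towers hG hp2 hpS).2.2.1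

/-- **GO4 in the tower.** -/
theorem cokerTower [Fact p.Prime] (hG : GlobalSpecFin S p) (hp2 : p ≠ 2) (hpS : pPrime p ∈ S) :
    CokerTower S p := (towers hG hp2 hpS).2.2.2.1

/-- **GO5 in the tower.** -/
theorem weakRecipTower [Fact p.Prime] (hG : GlobalSpecFin S p) (hp2 : p ≠ 2)
    (hpS : pPrime p ∈ S) : WeakRecipTower S p := (towers hG hp2 hpS).2.2.2.2

/-- **GO1 + GO2** for the levels of index prime to `p`. -/
theorem go12 [Fact p.Prime] (hG : GlobalSpecFin S p) (hp2 : p ≠ 2) (hpS : pPrime p ∈ S) :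
    GO12Coprime S p :=
  go12_of_tower p S (H587.dictE3 S p) (H587.dictE2 S p) (towers hG hp2 hpS).1
    (towers hG hp2 hpS).2.1

/-- **INPUT A3 OF LAYER D** (`H²_S` is right exact: `cd_p(G_S) ≤ 2`) from the target of layer G
alone. -/
theorem surj2Glob (p : ℕ) [Fact p.Prime] (S : Finset Nat.Primes) (hG : GlobalSpecFin S p)
    (hp2 : p ≠ 2) (hpS : pPrime p ∈ S) : Fermat.Agent.S55.PT.Surj2GlobSpec p S :=
  surj2Glob_of_leaves p S (leaves S p) (H587.dictE3 S p) (H587.dictE2 S p) hG (localSpec p)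
    hp2 hpS

end Fermat.Agent.S55.K.AR.H4

end
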