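import Fermat.Agent.S55.E1.Defs
import Fermat.Agent.S55.T.TateH3H783
import Fermat.Agent.S55.T.T6pH353.SylowClass

/-!
# S55 / layer K / block AR (helper577): class modules at `p` — generic lemmas

Pure algebra (Mathlib + layer `T` + `E1/Defs`), for leaves AR-J3 and AR-JDIV.

* `pullIso`, `isClassModuleAt_res` : a class module at `p` pulls back along an INJECTIVE
  homomorphism `φ : Y →* D` to a class module at `p` (`Rep.res φ C`, class `φ^* γ`);
* `h3_eq_zero_of_isPPrim` : the `p`-primary part of `H³(G, C)` vanishes for a class module at `p`;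
* `h2_exists_nsmul_eq` : if `p ^ (b + 1)` divides `|G|`, every class of `H²(G, C)` killed by `p ^ b`
  is divisible by `p`.
-/

set_option autoImplicit false

open CategoryTheory groupCohomology

namespace Fermat.Agent.S55.K.AR.H577

open Fermat.Agent.S55

noncomputable section

/-! ### Elementary lemmas -/

/-- An element killed by two coprime integers is zero. -/
theorem eq_zero_of_coprime_nsmul {M : Type*} [AddCommGroup M] (x : M) {a b : ℕ}
    (hab : Nat.Coprime a b) (ha : a • x = 0) (hb : b • x = 0) : x = 0 := by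
  have h1 : addOrderOf x ∣ a := addOrderOf_dvd_of_nsmul_eq_zero ha
  have h2 : addOrderOf x ∣ b := addOrderOf_dvd_of_nsmul_eq_zero hb
  have h3 : addOrderOf x ∣ 1 := by
    have := Nat.dvd_gcd h1 h2
    rwa [hab.gcd_eq_one] at this
  exact AddMonoid.addOrderOf_eq_one_iff.1 (Nat.dvd_one.1 h3)

/-- An element killed by an integer prime to `p` is divisible by `p`. -/
theorem exists_nsmul_eq_of_coprime {M : Type*} [AddCommGroup M] (v : M) {m p : ℕ}
    (hmp : Nat.Coprime m p) (hm : m • v = 0) : ∃ z : M, p • z = v := by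
  obtain ⟨a, c, hac⟩ := (Nat.isCoprime_iff_coprime.2 hmp)
  refine ⟨c • v, ?_⟩
  have h1 : (m : ℤ) • v = 0 := by rw [natCast_zsmul]; exact hm
  have h2 : (a * (m : ℤ) + c * (p : ℤ)) • v = v := by rw [hac, one_zsmul]
  rw [add_smul, mul_smul, h1, smul_zero, zero_add, mul_comm, mul_smul, natCast_zsmul] at h2
  exact h2

/-! ### Pull-back along an injective homomorphism -/

section Pull

variable {k Y D : Type} [CommRing k] [Group Y] [Group D] (φ : Y →* D)
  (hφ : Function.Injective φ) (C : Rep.{0} k D) (K : Subgroup Y)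

/-- `Hⁿ(K, (φ^* C)|K) ≅ Hⁿ(φ K, C|φ K)` for an injective `φ : Y →* D` and `K ≤ Y`. -/
def pullIso (n : ℕ) :
    groupCohomology (T.resSub (Rep.res φ C) K) n ≅
      groupCohomology (T.resSub C (K.map φ)) n :=
  groupCohomology.mapIso (A := T.resSub C (K.map φ)) (B := T.resSub (Rep.res φ C) K)
    (K.equivMapOfInjective φ hφ) (LinearEquiv.refl k C.V) (fun _ => rfl) n

/-- `pullIso` is compatible with the restriction maps. -/
theorem resMap_comp_pullIso_inv (n : ℕ) :
    T.resMap C (K.map φ) n ≫ (pullIso φ hφ C K n).inv =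
      groupCohomology.map φ (𝟙 (Rep.res φ C)) n ≫ T.resMap (Rep.res φ C) K n := by
  change groupCohomology.map _ _ n ≫ groupCohomology.map _ _ n =
    groupCohomology.map _ _ n ≫ groupCohomology.map _ _ n
  rw [← groupCohomology.map_comp, ← groupCohomology.map_comp]
  exact groupCohomology.map_congr (by ext g; rfl) rfl n

theorem pullIso_inv_res (n : ℕ) (γ : groupCohomology C n) :
    (pullIso φ hφ C K n).inv.hom ((T.resMap C (K.map φ) n).hom γ) =
      (T.resMap (Rep.res φ C) K n).hom ((groupCohomology.map φ (𝟙 (Rep.res φ C)) n).hom γ) := by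
  have h := congrArg (fun f => f.hom γ) (resMap_comp_pullIso_inv φ hφ C K n)
  simpa using h

end Pull

/-- **Pull-back of a class module at `p`** along an injective homomorphism. -/
theorem isClassModuleAt_res (p : ℕ) {Y D : Type} [Group Y] [Group D] [Finite Y] [Finite D]
    (C : Rep.{0} ℤ D) (γ : groupCohomology C 2) (h : E1.IsClassModuleAt p C γ)
    (φ : Y →* D) (hφ : Function.Injective φ) :
    E1.IsClassModuleAt p (Rep.res φ C)
      ((groupCohomology.map φ (𝟙 (Rep.res φ C)) 2).hom γ) := by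
  intro K hK
  have hK' : IsPGroup p (K.map φ) := hK.map φ
  obtain ⟨h1, h2, h3⟩ := h (K.map φ) hK'
  refine ⟨?_, ?_, ?_⟩
  · exact Limits.IsZero.of_iso h1 (pullIso φ hφ C K 1)
  · rw [Nat.card_congr (pullIso φ hφ C K 2).toLinearEquiv.toEquiv, h2]
    exact Nat.card_congr (K.equivMapOfInjective φ hφ).symm.toEquiv
  · intro x
    obtain ⟨n, hn⟩ := h3 ((pullIso φ hφ C K 2).hom.hom x)
    refine ⟨n, ?_⟩
    have h4 := congrArg (pullIso φ hφ C K 2).inv.hom hn
    rw [map_nsmul, pullIso_inv_res] at h4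
    rw [← h4]
    exact ((pullIso φ hφ C K 2).toLinearEquiv.symm_apply_apply x).symm

/-! ### `H³` and `H²` of a class module at `p` -/

section ClassModule

variable {G : Type} [Group G] [Finite G] {p : ℕ} {C : Rep.{0} ℤ G} {γ : groupCohomology C 2}

/-- `H³(P, C) = 0` for a `p`-subgroup `P` of a class module at `p`. -/
theorem h3_eq_zero_of_isPGroup (h : E1.IsClassModuleAt p C γ) (P : Subgroup G)
    (hP : IsPGroup p P) (x : groupCohomology (T.resSub C P) 3) : x = 0 := by
  have hcm := T.H353.isClassModule_of_isPGroup h P hP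
  have h3 := T.H783.tateH3 P (T.resSub C P) _ hcm ⊤
  have h0 : (T.resMap (T.resSub C P) ⊤ 3).hom x = 0 :=
    (ModuleCat.isZero_iff_subsingleton.mp h3).elim _ _
  have h1 := T.H783.resIndex ℤ P (T.resSub C P) ⊤ 3 (by norm_num) x h0
  rwa [Subgroup.index_top, one_smul] at h1

/-- **The `p`-primary part of `H³(G, C)` vanishes** for a class module at `p`. -/
theorem h3_eq_zero_of_isPPrim (hp : p.Prime) (h : E1.IsClassModuleAt p C γ)
    (y : groupCohomology C 3) (hy : ∃ k : ℕ, p ^ k • y = 0) : y = 0 := by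
  have : Fact p.Prime := ⟨hp⟩
  obtain ⟨P⟩ : Nonempty (Sylow p G) := inferInstance
  have h0 : (T.resMap C (P : Subgroup G) 3).hom y = 0 :=
    h3_eq_zero_of_isPGroup h P P.isPGroup' _
  have h1 := T.H783.resIndex ℤ G C (P : Subgroup G) 3 (by norm_num) y h0
  obtain ⟨k, hk⟩ := hy
  have hcop : Nat.Coprime (P : Subgroup G).index (p ^ k) :=
    (Nat.Coprime.pow_left k (hp.coprime_iff_not_dvd.2 P.not_dvd_index)).symm
  exact eq_zero_of_coprime_nsmul y hcop h1 hk

/-- **Divisibility in `H²`**: if `p ^ (b + 1)` divides `|G|`, every class of `H²(G, C)` killed by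
`p ^ b` is divisible by `p` (class module at `p`). -/
theorem h2_exists_nsmul_eq (hp : p.Prime) (h : E1.IsClassModuleAt p C γ) (b : ℕ)
    (hb : p ^ (b + 1) ∣ Nat.card G) (y : groupCohomology C 2) (hy : p ^ b • y = 0) :
    ∃ z : groupCohomology C 2, p • z = y := by
  have : Fact p.Prime := ⟨hp⟩
  obtain ⟨P⟩ : Nonempty (Sylow p G) := inferInstance
  have hP : IsPGroup p (P : Subgroup G) := P.isPGroup'
  have hcard : p ^ (b + 1) ∣ Nat.card (P : Subgroup G) := P.pow_dvd_card_of_pow_dvd_card hb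
  have hord := T.H353.addOrderOf_resMap_of_classModuleAt h (P : Subgroup G) hP
  obtain ⟨-, -, hgen⟩ := h (P : Subgroup G) hP
  obtain ⟨n, hn⟩ := hgen ((T.resMap C (P : Subgroup G) 2).hom y)
  -- `p ∣ n`
  have h1 : (p ^ b * n) • (T.resMap C (P : Subgroup G) 2).hom γ = 0 := by
    rw [mul_smul, ← hn, ← map_nsmul, hy, map_zero]
  have h2 : Nat.card (P : Subgroup G) ∣ p ^ b * n := by
    rw [← hord]
    exact addOrderOf_dvd_of_nsmul_eq_zero h1
  have h3 : p ^ b * p ∣ p ^ b * n := by
    rw [← pow_succ]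
    exact hcard.trans h2
  have h4 : p ∣ n := Nat.dvd_of_mul_dvd_mul_left (pow_pos hp.pos b) h3
  obtain ⟨n', rfl⟩ := h4
  -- `v := y - p • (n' • γ)` restricts to `0`
  have h5 : (T.resMap C (P : Subgroup G) 2).hom (y - p • (n' • γ)) = 0 := by
    rw [map_sub, map_nsmul, map_nsmul, hn, mul_smul, sub_self]
  have h6 := T.H783.resIndex ℤ G C (P : Subgroup G) 2 (by norm_num) _ h5
  have hcop : Nat.Coprime (P : Subgroup G).index p :=
    (hp.coprime_iff_not_dvd.2 P.not_dvd_index).symm
  obtain ⟨z, hz⟩ := exists_nsmul_eq_of_coprime _ hcop h6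
  refine ⟨n' • γ + z, ?_⟩
  rw [smul_add, hz]
  abel

end ClassModule

end

end Fermat.Agent.S55.K.AR.H577
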