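import Fermat.Agent.S55.K.AR.ClassAtH577
import Fermat.Agent.S55.Mackey.Classical

/-!
# S55 / layer K / block AR (helper577): cohomology of `Res_H Coind A₀`, `A₀` a class module at `p`

`α₀ : D₀ →* G` injective (`G` finite), `A₀ : Rep ℤ D₀` a class module at `p`, `H ≤ G`.
By the Mackey–Shapiro decomposition (`Fermat.Agent.S55.Mackey`, helper61)
`Hⁿ(H, Coind_{α₀} A₀) ≅ ∏ᵢ Hⁿ(Yᵢ, A₀)`, `Yᵢ = H ∩ xᵢ⁻¹ α₀(D₀) xᵢ`, and each `(Yᵢ, A₀)` is a class
module at `p`.  Hence

* `coind_h3_eq_zero` : the `p`-primary part of `H³(H, Coind A₀)` vanishes;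
* `coind_h2_exists_nsmul_eq` : if `[G : H] ≤ p ^ c` and `p ^ (b + 1 + c)` divides `|D₀|`, every class
  of `H²(H, Coind A₀)` killed by `p ^ b` is divisible by `p`.
-/

set_option autoImplicit false

open CategoryTheory groupCohomology

namespace Fermat.Agent.S55.K.AR.H577

open Fermat.Agent.S55

noncomputable section

/-! ### Arithmetic -/

/-- If `p ^ (b + 1 + c) ∣ y * r` and `0 < r ≤ p ^ c`, then `p ^ (b + 1) ∣ y`. -/
theorem pow_dvd_of_pow_dvd_mul {p : ℕ} (hp : p.Prime) {b c y r : ℕ} (hr : 0 < r)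
    (hrc : r ≤ p ^ c) (h : p ^ (b + 1 + c) ∣ y * r) : p ^ (b + 1) ∣ y := by
  obtain ⟨e, r', hr', rfl⟩ := Nat.exists_eq_pow_mul_and_not_dvd hr.ne' p hp.ne_one
  have hr'pos : 0 < r' := Nat.pos_of_ne_zero (by rintro rfl; simp at hr)
  have hec : e ≤ c := by
    have h1 : p ^ e ≤ p ^ c := le_trans (Nat.le_mul_of_pos_right _ hr'pos) hrc
    exact (Nat.pow_le_pow_iff_right hp.one_lt).1 h1
  have h2 : p ^ e * p ^ (b + 1 + (c - e)) ∣ p ^ e * (y * r') := by
    rw [← pow_add]
    have : e + (b + 1 + (c - e)) = b + 1 + c := by omega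
    rw [this]
    have h3 : y * (p ^ e * r') = p ^ e * (y * r') := by ring
    rwa [h3] at h
  have h4 : p ^ (b + 1 + (c - e)) ∣ y * r' :=
    Nat.dvd_of_mul_dvd_mul_left (pow_pos hp.pos e) h2
  have hcop : Nat.Coprime (p ^ (b + 1 + (c - e))) r' :=
    Nat.Coprime.pow_left _ (hp.coprime_iff_not_dvd.2 hr')
  exact (pow_dvd_pow p (by omega)).trans (hcop.dvd_of_dvd_mul_right h4)

/-! ### The order of a twisted intersection -/

section Card

variable {G : Type} [Group G] [Finite G] (H D : Subgroup G)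

/-- `|H ∩ x⁻¹ D x| · r = |D|` with `0 < r ≤ [G : H]`. -/
theorem exists_card_twSub_mul (x : G) :
    ∃ r : ℕ, 0 < r ∧ r ≤ H.index ∧
      Nat.card (Mackey.twSub H.subtype D x) * r = Nat.card D := by
  set D' : Subgroup G := D.comap (MulAut.conj x).toMonoidHom with hD'
  have hDD' : Nat.card D' = Nat.card D :=
    Nat.card_congr ((MulAut.conj x).toEquiv.subtypeEquiv (fun _ => Iff.rfl))
  have htw : Mackey.twSub H.subtype D x = D'.subgroupOf H := rfl
  have h1 : Nat.card (D'.subgroupOf H) = Nat.card (H ⊓ D' : Subgroup G) := by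
    rw [← Subgroup.inf_subgroupOf_left D' H]
    exact Nat.card_congr (Subgroup.subgroupOfEquivOfLe inf_le_left).toEquiv
  have h2 : Nat.card (H.subgroupOf D') = Nat.card (H ⊓ D' : Subgroup G) := by
    rw [← Subgroup.inf_subgroupOf_right H D']
    exact Nat.card_congr (Subgroup.subgroupOfEquivOfLe inf_le_right).toEquiv
  refine ⟨H.relIndex D', ?_, ?_, ?_⟩
  · exact Nat.pos_of_ne_zero Subgroup.index_ne_zero_of_finite
  · have h3 : H.relIndex D' ≤ H.relIndex ⊤ :=
      Subgroup.relIndex_le_of_le_right le_top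
        (by rw [Subgroup.relIndex_top_right]; exact Subgroup.index_ne_zero_of_finite)
    rwa [Subgroup.relIndex_top_right] at h3
  · rw [htw, h1, ← h2, ← hDD']
    exact Subgroup.card_mul_index (H.subgroupOf D')

end Card

/-! ### Coinduction along an injective homomorphism as coinduction from the range -/

section Range

variable {k G D₀ : Type} [CommRing k] [Group G] [Group D₀] (α₀ : D₀ →* G)
  (hα₀ : Function.Injective α₀) (A₀ : Rep.{0} k D₀)

/-- `A₀` as a representation of `α₀(D₀)`. -/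
abbrev rangeRep : Rep.{0} k α₀.range :=
  Rep.res (MonoidHom.ofInjective hα₀).symm.toMonoidHom A₀

omit [CommRing k] in
lemma coe_ofInjective_symm (d : α₀.range) :
    α₀ ((MonoidHom.ofInjective hα₀).symm d) = (d : G) := by
  have h := (MonoidHom.ofInjective hα₀).apply_symm_apply d
  exact congrArg Subtype.val h

/-- Evaluation at `1`: `Coind_{α₀} A₀ → A₀`, equivariant for `α₀(D₀)`. -/
def evOne : Rep.res (α₀.range).subtype (Rep.coind α₀ A₀) ⟶ rangeRep α₀ hα₀ A₀ :=
  Rep.ofHom (ρ := (Rep.res (α₀.range).subtype (Rep.coind α₀ A₀)).ρ)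
    (σ := (rangeRep α₀ hα₀ A₀).ρ)
    ⟨{ toFun := fun f => f.1 1
       map_add' := fun _ _ => rfl
       map_smul' := fun _ _ => rfl }, fun d => by
      ext f
      change f.1 (1 * (d : G)) = A₀.ρ ((MonoidHom.ofInjective hα₀).symm d) (f.1 1)
      rw [← f.2 ((MonoidHom.ofInjective hα₀).symm d) 1, coe_ofInjective_symm, one_mul, mul_one]⟩

@[simp] lemma evOne_hom_apply (f : (Rep.coind α₀ A₀).V) : (evOne α₀ hα₀ A₀).hom f = f.1 1 := rfl

/-- `Coind_{α₀} A₀ ≅ Coind_{α₀(D₀)}^G A₀` (bijectivity of the canonical map). -/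
theorem coindLift_evOne_bijective :
    Function.Bijective (Mackey.coindLift (evOne α₀ hα₀ A₀)).hom := by
  constructor
  · intro f f' hff'
    apply Subtype.ext
    funext g
    have h := congrArg (fun F : (Rep.coind (α₀.range).subtype (rangeRep α₀ hα₀ A₀)).V => F.1 g) hff'
    have e1 : ((Rep.coind α₀ A₀).ρ g f).1 1 = f.1 g := by
      change f.1 (1 * g) = f.1 g
      rw [one_mul]
    have e2 : ((Rep.coind α₀ A₀).ρ g f').1 1 = f'.1 g := by
      change f'.1 (1 * g) = f'.1 g
      rw [one_mul]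
    rw [← e1, ← e2]
    exact h
  · intro F
    refine ⟨⟨F.1, fun d₀ g => ?_⟩, ?_⟩
    · have h := F.2 (MonoidHom.ofInjective hα₀ d₀) g
      change F.1 (α₀ d₀ * g) =
        A₀.ρ ((MonoidHom.ofInjective hα₀).symm (MonoidHom.ofInjective hα₀ d₀)) (F.1 g) at h
      rw [MulEquiv.symm_apply_apply] at h
      exact h
    · apply Subtype.ext
      funext g
      rw [Mackey.coindLift_hom_apply, evOne_hom_apply]
      change F.1 (1 * g) = F.1 g
      rw [one_mul]

end Range

/-! ### Main results -/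

section Main

variable {G D₀ : Type} [Group G] [Finite G] [Group D₀] [Finite D₀] (α₀ : D₀ →* G)
  (hα₀ : Function.Injective α₀) (A₀ : Rep.{0} ℤ D₀) (γ : groupCohomology A₀ 2) {p : ℕ}
  (hp : p.Prime) (hcm : E1.IsClassModuleAt p A₀ γ) (H : Subgroup G)

omit [Finite G] [Finite D₀] in
/-- The Mackey system used below. -/
theorem sysH :
    Mackey.IsMackeySystem H.subtype α₀.range
      (fun q : DoubleCoset.Quotient (α₀.range : Set G) (H.subtype.range : Set G) =>
        Mackey.twSub H.subtype α₀.range q.out)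
      (fun q => (Mackey.twSub H.subtype α₀.range q.out).subtype)
      (fun q => Mackey.twHom H.subtype α₀.range q.out) (fun q => q.out) :=
  Mackey.isMackeySystem_doset H.subtype α₀.range

/-- The Mackey component (a linear map). -/
def mComp (n : ℕ) (i : DoubleCoset.Quotient (α₀.range : Set G) (H.subtype.range : Set G)) :
    groupCohomology (T.resSub (Rep.coind α₀ A₀) H) n ⟶
      groupCohomology (Rep.res (Mackey.twHom H.subtype α₀.range i.out) (rangeRep α₀ hα₀ A₀)) n :=
  groupCohomology.map ((Mackey.twSub H.subtype α₀.range i.out).subtype)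
    (Mackey.twEv (sysH α₀ H) (evOne α₀ hα₀ A₀) i) n

theorem mComp_bijective (n : ℕ) :
    Function.Bijective (fun (c : groupCohomology (T.resSub (Rep.coind α₀ A₀) H) n)
      (i : DoubleCoset.Quotient (α₀.range : Set G) (H.subtype.range : Set G)) =>
        (mComp α₀ hα₀ A₀ H n i).hom c) :=
  Mackey.mackey_bijective_of_bijective (k := ℤ) Subtype.val_injective (sysH α₀ H)
    (evOne α₀ hα₀ A₀) (coindLift_evOne_bijective α₀ hα₀ A₀) n


include hcm in
/-- Each Mackey factor is a class module at `p`. -/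
theorem exists_classModule_factor
    (i : DoubleCoset.Quotient (α₀.range : Set G) (H.subtype.range : Set G)) :
    ∃ γ' : groupCohomology
        (Rep.res (Mackey.twHom H.subtype α₀.range i.out) (rangeRep α₀ hα₀ A₀)) 2,
      E1.IsClassModuleAt p
        (Rep.res (Mackey.twHom H.subtype α₀.range i.out) (rangeRep α₀ hα₀ A₀)) γ' := by
  have hcm1 : E1.IsClassModuleAt p (rangeRep α₀ hα₀ A₀) _ :=
    isClassModuleAt_res p A₀ γ hcm (MonoidHom.ofInjective hα₀).symm.toMonoidHom
      (MonoidHom.ofInjective hα₀).symm.injective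
  exact ⟨_, isClassModuleAt_res p (rangeRep α₀ hα₀ A₀) _ hcm1
    (Mackey.twHom H.subtype α₀.range i.out)
    ((sysH α₀ H).κ_injective Subtype.val_injective i)⟩

include hα₀ hp hcm in
/-- **The `p`-primary part of `H³(H, Coind A₀)` vanishes** (`A₀` a class module at `p`). -/
theorem coind_h3_eq_zero (y : groupCohomology (T.resSub (Rep.coind α₀ A₀) H) 3)
    (hy : ∃ k : ℕ, p ^ k • y = 0) : y = 0 := by
  apply (mComp_bijective α₀ hα₀ A₀ H 3).1
  funext i
  obtain ⟨γ', hγ'⟩ := exists_classModule_factor α₀ hα₀ A₀ γ hcm H i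
  have h0 : (mComp α₀ hα₀ A₀ H 3 i).hom 0 = 0 := map_zero _
  refine (h3_eq_zero_of_isPPrim hp hγ' ((mComp α₀ hα₀ A₀ H 3 i).hom y) ?_).trans h0.symm
  obtain ⟨k, hk⟩ := hy
  refine ⟨k, ?_⟩
  rw [← map_nsmul, hk, map_zero]


include hα₀ hp hcm in
/-- **Divisibility in `H²(H, Coind A₀)`**: if `[G : H] ≤ p ^ c` and `p ^ (b + 1 + c)` divides
`|D₀|`, every class killed by `p ^ b` is divisible by `p`. -/
theorem coind_h2_exists_nsmul_eq (b c : ℕ) (hH : H.index ≤ p ^ c)
    (hD : p ^ (b + 1 + c) ∣ Nat.card D₀)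
    (y : groupCohomology (T.resSub (Rep.coind α₀ A₀) H) 2) (hy : p ^ b • y = 0) :
    ∃ z : groupCohomology (T.resSub (Rep.coind α₀ A₀) H) 2, p • z = y := by
  have hcardD : Nat.card α₀.range = Nat.card D₀ :=
    (Nat.card_congr (MonoidHom.ofInjective hα₀).toEquiv).symm
  have hex : ∀ i, ∃ z, p • z = (mComp α₀ hα₀ A₀ H 2 i).hom y := by
    intro i
    obtain ⟨γ', hγ'⟩ := exists_classModule_factor α₀ hα₀ A₀ γ hcm H i
    obtain ⟨r, hr0, hrH, hr⟩ := exists_card_twSub_mul H α₀.range i.out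
    have hdvd : p ^ (b + 1) ∣ Nat.card (Mackey.twSub H.subtype α₀.range i.out) := by
      refine pow_dvd_of_pow_dvd_mul hp hr0 (hrH.trans hH) ?_
      rw [hr, hcardD]
      exact hD
    refine h2_exists_nsmul_eq hp hγ' b hdvd ((mComp α₀ hα₀ A₀ H 2 i).hom y) ?_
    rw [← map_nsmul, hy, map_zero]
  choose z hz using hex
  obtain ⟨w, hw⟩ := (mComp_bijective α₀ hα₀ A₀ H 2).2 z
  refine ⟨w, ?_⟩
  apply (mComp_bijective α₀ hα₀ A₀ H 2).1
  funext i
  have hwi : (mComp α₀ hα₀ A₀ H 2 i).hom w = z i := congrFun hw i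
  have h1 : (mComp α₀ hα₀ A₀ H 2 i).hom (p • w) = p • (mComp α₀ hα₀ A₀ H 2 i).hom w :=
    map_nsmul _ _ _
  exact h1.trans ((congrArg (fun t => p • t) hwi).trans (hz i))

end Main

end

end Fermat.Agent.S55.K.AR.H577
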