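/-
S55 moonshot — LAYER K, block AR: UNCONDITIONAL forms.                      helper4 (architect).
No `sorry`.

Layer G is closed on main (`Fin.globalInputSpec`, row-lead helper55), so the outputs of the
arithmetic core hold for every odd prime `p` and every finite set of primes `S ∋ p`:

* `a3`             : **input A3 of layer D**, `PT.Surj2GlobSpec p S` (`H²_S` is right exact on finite
                     `𝔽_p`-modules, i.e. `cd_p(G_S) ≤ 2`);
* `e3Tower`, `e2Tower`, `hasseTower'`, `cokerTower'`, `weakRecipTower'` : the tower statements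
                     E3, E2, GO3, GO4, GO5 of `K/AR/Spec.lean`;
* `go12'`          : GO1 + GO2 for the levels of index prime to `p`.
-/
import Fermat.Agent.S55.K.AR.ClosedH4
import Fermat.Agent.S55.Fin.FinRec

set_option autoImplicit false

noncomputable section

namespace Fermat.Agent.S55.K.AR.H4

open Fermat.Agent.S55 Fermat.Agent.S55.Tow Fermat.Agent.S55.K.AR ExtCitation

variable (p : ℕ) [Fact p.Prime] (S : Finset Nat.Primes)

/-- The target of layer G, closed (helper55, `Fin/FinRec.lean`). -/
theorem globalSpecFin (hp2 : p ≠ 2) (hpS : pPrime p ∈ S) : GlobalSpecFin S p :=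
  Fermat.Agent.S55.Fin.globalInputSpec p hp2 S hpS

/-- **INPUT A3 OF LAYER D, UNCONDITIONAL**: for `p` odd and `p ∈ S`, `H²_S` is right exact on
the finite-dimensional smooth `𝔽_p`-representations (`cd_p(G_S) ≤ 2`). -/
theorem a3 (hp2 : p ≠ 2) (hpS : pPrime p ∈ S) : Fermat.Agent.S55.PT.Surj2GlobSpec p S :=
  surj2Glob p S (globalSpecFin p S hp2 hpS) hp2 hpS

/-- **E3 in the tower, unconditional.** -/
theorem e3Tower (hp2 : p ≠ 2) (hpS : pPrime p ∈ S) : E3Tower S p :=
  (towers (globalSpecFin p S hp2 hpS) hp2 hpS).1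

/-- **E2 in the tower, unconditional.** -/
theorem e2Tower (hp2 : p ≠ 2) (hpS : pPrime p ∈ S) : E2Tower S p :=
  (towers (globalSpecFin p S hp2 hpS) hp2 hpS).2.1

/-- **GO3 in the tower, unconditional.** -/
theorem hasseTower' (hp2 : p ≠ 2) (hpS : pPrime p ∈ S) : HasseTower S p :=
  hasseTower (globalSpecFin p S hp2 hpS) hp2 hpS

/-- **GO4 in the tower, unconditional.** -/
theorem cokerTower' (hp2 : p ≠ 2) (hpS : pPrime p ∈ S) : CokerTower S p :=
  cokerTower (globalSpecFin p S hp2 hpS) hp2 hpS

/-- **GO5 in the tower, unconditional.** -/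
theorem weakRecipTower' (hp2 : p ≠ 2) (hpS : pPrime p ∈ S) : WeakRecipTower S p :=
  weakRecipTower (globalSpecFin p S hp2 hpS) hp2 hpS

/-- **GO1 + GO2 for the levels of index prime to `p`, unconditional.** -/
theorem go12' (hp2 : p ≠ 2) (hpS : pPrime p ∈ S) : GO12Coprime S p :=
  go12 (globalSpecFin p S hp2 hpS) hp2 hpS

end Fermat.Agent.S55.K.AR.H4

end
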