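/-
S55 moonshot — LAYER K, block AR, leaf **AR-HASSE** (helper649).
`Fermat.Agent.S55.K.AR.H649.hasseLeaf : HasseLeaf S p` (exact type of `K/AR/Spec.lean` §5).

Proof (blueprint `coord/S55-K-AR.md` §2): inflate to a level `F₁ ⊇ μ_p`; long exact sequence of
`0 → E(F₁) → J(F₁) → C'(F₁) → 0` restricted to `H₁ = Gal(F₁/K)`: `x₁ = δ s` with `s` `p`-primary;
`incl_* s = 0` (C1); capitulation in `H¹` (CAP1) kills `s` at a level `F₂`; naturality of `δ`.

Reusable lemmas (all elementwise, no casts):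
* `coe_infUp`           : coefficient maps commute with `infUp` (commuting square);
* `delta_infUp`         : the connecting map of `ses` commutes with `infUp`;
* `infUp_trans_eq_zero` : transitivity of `infUp` in the form needed for "dies in the limit";
* `isPPrim_lift`        : `p`-primary preimages in a group killed by `N > 0`.
-/
import Fermat.Agent.S55.K.AR.Spec
import Fermat.Agent.S55.KL.DeltaNatH304
import Fermat.Agent.S55.KL.H289.PFunct
import Fermat.Agent.S55.T.CoresH572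

set_option autoImplicit false

open CategoryTheory groupCohomology

namespace Fermat.Agent.S55.K.AR.H649

open Fermat.Agent.S55 Fermat.Agent.S55.Tow Fermat.Agent.S55.E1.Lim Fermat.Agent.S55.K.AR

noncomputable section

variable {S : Finset Nat.Primes} {p : ℕ}

/-! ## 0. Transition maps -/

lemma proj_trans_apply649 {L L' L'' : Level S} (h : L ≤ L') (h' : L' ≤ L'') (g : L''.Gal) :
    Level.proj (h.trans h') g = Level.proj h (Level.proj h' g) := by
  induction g using QuotientGroup.induction_on with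
  | H g => rfl

lemma trJ_diag649 {L L' : Level S} (h : L ≤ L') (q : Nat.Primes) (x : L.units.V) :
    (Level.trJ h q).hom ((L.diag q).hom x) = (L'.diag q).hom ((Level.trUnits h).hom x) := by
  apply L'.J_ext q
  intro g'
  have h1 : L'.units.ρ g' ((Level.trUnits h).hom x) =
      (Level.trUnits h).hom (L.units.ρ (Level.proj h g') x) :=
    (Rep.hom_comm_apply (Level.trUnits h) g' x).symm
  show Level.inclLoc h q (L.embFun q (L.units.ρ (Level.proj h g') x)) =
    L'.embFun q (L'.units.ρ g' ((Level.trUnits h).hom x))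
  rw [h1]
  apply L'.locCoe_injective q
  rfl

lemma trJtot_diagTot649 {L L' : Level S} (h : L ≤ L') (e : (E1.Lim.sUnits L).V) :
    (trJtot h).hom ((diagTot L).hom e) = (diagTot L').hom ((trS h).hom e) := by
  apply piRep_ext
  intro q
  exact trJ_diag649 h q.1 ((sIncl L).hom e)

lemma trS_trans649 {L L' L'' : Level S} (h : L ≤ L') (h' : L' ≤ L'') (x : (E1.Lim.sUnits L).V) :
    (trS (h.trans h')).hom x = (trS h').hom ((trS h).hom x) := rfl

/-! ## 1. `infUp`: elementary properties -/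

section General

variable {Γ Γ' : Type} [Group Γ] [Group Γ']

lemma isPPrim_map {A B : Type} [AddCommGroup A] [AddCommGroup B] (f : A →+ B) {x : A}
    (hx : IsPPrim p x) : IsPPrim p (f x) := by
  obtain ⟨k, hk⟩ := hx
  exact ⟨k, by rw [← map_nsmul, hk, map_zero]⟩

/-- Coefficient maps commute with inflation (commuting square of coefficients). -/
lemma coe_infSub (π : Γ' →* Γ) (H : Subgroup Γ) {A B : Rep.{0} ℤ Γ} {A' B' : Rep.{0} ℤ Γ'}
    (f : A ⟶ B) (f' : A' ⟶ B') (t : Rep.res π A ⟶ A') (u : Rep.res π B ⟶ B')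
    (hsq : ∀ a : A.V, u.hom (f.hom a) = f'.hom (t.hom a)) (n : ℕ) (x : Hn H A n) :
    coe (H.comap π) f' n (infSub π H t n x) = infSub π H u n (coe H f n x) :=
  KL.H289.map_sq_apply (projSub π H) (MonoidHom.id _) (MonoidHom.id _) (projSub π H)
    (semiSub π H t) ((Rep.resFunctor (H.comap π).subtype).map f')
    ((Rep.resFunctor H.subtype).map f) (semiSub π H u) rfl (fun a => (hsq a).symm) n x

end General

lemma coe_infUp {L L' : Level S} (h : L ≤ L') (H : Subgroup L.Gal) {A B : Rep.{0} ℤ L.Gal}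
    {A' B' : Rep.{0} ℤ L'.Gal} (f : A ⟶ B) (f' : A' ⟶ B')
    (t : Rep.res (Level.proj h) A ⟶ A') (u : Rep.res (Level.proj h) B ⟶ B')
    (hsq : ∀ a : A.V, u.hom (f.hom a) = f'.hom (t.hom a)) (n : ℕ) (x : Hn H A n) :
    coe (up h H) f' n (infUp h H t n x) = infUp h H u n (coe H f n x) :=
  coe_infSub (Level.proj h) H f f' t u hsq n x

/-! ## 2. Transitivity of inflation -/

section Trans

variable {Γ Γ' Γ'' : Type} [Group Γ] [Group Γ'] [Group Γ'']

/-- Transitivity of `infSub`, in the only form needed for statements "`x` dies in the limit":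
the subgroups `(H.comap π).comap π'` and `H.comap π''` are equal but not definitionally, and the
comparison map between their cohomologies sends `0` to `0`. -/
lemma infSub_trans_eq_zero (π : Γ' →* Γ) (π' : Γ'' →* Γ') (π'' : Γ'' →* Γ)
    (hπ : ∀ g, π'' g = π (π' g)) (H : Subgroup Γ)
    {A : Rep.{0} ℤ Γ} {A' : Rep.{0} ℤ Γ'} {A'' : Rep.{0} ℤ Γ''}
    (t : Rep.res π A ⟶ A') (t' : Rep.res π' A' ⟶ A'') (t'' : Rep.res π'' A ⟶ A'')
    (ht : ∀ a : A.V, t''.hom a = t'.hom (t.hom a)) (n : ℕ) (x : Hn H A n)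
    (hx : infSub π' (H.comap π) t' n (infSub π H t n x) = 0) :
    infSub π'' H t'' n x = 0 := by
  have hK : H.comap π'' ≤ (H.comap π).comap π' := fun g hg => by
    show π (π' g) ∈ H
    rw [← hπ]
    exact hg
  let ι : ↥(H.comap π'') →* ↥((H.comap π).comap π') := Subgroup.inclusion hK
  let θ : Rep.res ι (T.resSub A'' ((H.comap π).comap π')) ⟶ T.resSub A'' (H.comap π'') :=
    E1.Lim.semiOfAdd ι (A := T.resSub A'' ((H.comap π).comap π'))
      (B := T.resSub A'' (H.comap π'')) (AddMonoidHom.id _) (fun _ _ => rfl)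
  let γ : ↥(H.comap π'') →* ↥(H.comap π) := (projSub π' (H.comap π)).comp ι
  let ψ : Rep.res γ (T.resSub A' (H.comap π)) ⟶ T.resSub A'' (H.comap π'') :=
    E1.Lim.semiOfAdd γ (A := T.resSub A' (H.comap π)) (B := T.resSub A'' (H.comap π''))
      { toFun := fun a => t'.hom a
        map_zero' := map_zero t'.hom
        map_add' := map_add t'.hom }
      (fun g a => Rep.hom_comm_apply t' (g : Γ'') a)
  have step1 := KL.H289.map_tri_apply (projSub π' (H.comap π)) ι γ
    (semiSub π' (H.comap π) t') θ ψ rfl (fun _ => rfl) n (infSub π H t n x)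
  have step2 := KL.H289.map_tri_apply (projSub π H) γ (projSub π'' H)
    (semiSub π H t) ψ (semiSub π'' H t'')
    (MonoidHom.ext fun g => Subtype.ext (hπ (g : Γ'')).symm) (fun a => (ht a).symm) n x
  have h0 : (groupCohomology.map ι θ n).hom
      (infSub π' (H.comap π) t' n (infSub π H t n x)) = 0 := by
    rw [hx, map_zero]
  have h1 : (groupCohomology.map ι θ n).hom
      (infSub π' (H.comap π) t' n (infSub π H t n x)) = infSub π'' H t'' n x :=
    step1.trans step2
  rw [← h1, h0]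

end Trans

lemma infUp_trans_eq_zero {L L' L'' : Level S} (h : L ≤ L') (h' : L' ≤ L'')
    (H : Subgroup L.Gal) {A : Rep.{0} ℤ L.Gal} {A' : Rep.{0} ℤ L'.Gal} {A'' : Rep.{0} ℤ L''.Gal}
    (t : Rep.res (Level.proj h) A ⟶ A') (t' : Rep.res (Level.proj h') A' ⟶ A'')
    (t'' : Rep.res (Level.proj (h.trans h')) A ⟶ A'')
    (ht : ∀ a : A.V, t''.hom a = t'.hom (t.hom a)) (n : ℕ) (x : Hn H A n)
    (hx : infUp h' (up h H) t' n (infUp h H t n x) = 0) :
    infUp (h.trans h') H t'' n x = 0 :=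
  infSub_trans_eq_zero (Level.proj h) (Level.proj h') (Level.proj (h.trans h'))
    (proj_trans_apply649 h h') H t t' t'' ht n x hx

/-! ## 3. `p`-primary preimages -/

lemma sub_smul_one_aux649 {Y : Type} [AddCommGroup Y] (a b m q : ℤ) (hab : a * m + b * q = 1)
    (y : Y) : y - (b * q) • y = (a * m) • y := by
  have h : a * m = 1 - b * q := by rw [← hab]; ring
  rw [h, sub_smul, one_smul]


/-- In a group killed by `N > 0`, a preimage of a `p`-primary element can be chosen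
`p`-primary. -/
lemma isPPrim_lift (hp : p.Prime) {X Y : Type} [AddCommGroup X] [AddCommGroup Y] (f : X →+ Y)
    (N : ℕ) (hN : 0 < N) (hX : ∀ x : X, N • x = 0) (x : X) (hx : IsPPrim p (f x)) :
    ∃ x' : X, IsPPrim p x' ∧ f x' = f x := by
  obtain ⟨k, hk⟩ := hx
  obtain ⟨e, m, hpm, hNm⟩ := Nat.exists_eq_pow_mul_and_not_dvd hN.ne' p hp.ne_one
  have hcop : Nat.Coprime m (p ^ k) :=
    Nat.Coprime.pow_right k ((Nat.Prime.coprime_iff_not_dvd hp).2 hpm).symm
  have hco : IsCoprime (m : ℤ) ((p ^ k : ℕ) : ℤ) := Nat.isCoprime_iff_coprime.2 hcop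
  obtain ⟨a, b, hab⟩ := hco
  refine ⟨(a * m) • x, ⟨e, ?_⟩, ?_⟩
  · have h1 : (p ^ e : ℕ) • ((a * (m : ℤ)) • x) = a • ((N : ℕ) • x) := by
      rw [hNm, ← natCast_zsmul, ← natCast_zsmul, smul_smul, smul_smul]
      congr 1
      push_cast
      ring
    rw [h1, hX, smul_zero]
  · have h2 : (a * (m : ℤ)) • f x = f x - b • ((p ^ k : ℕ) • f x) := by
      rw [← natCast_zsmul (f x) (p ^ k), smul_smul]
      exact (sub_smul_one_aux649 a b (m : ℤ) ((p ^ k : ℕ) : ℤ) hab (f x)).symm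
    rw [map_zsmul, h2, hk, smul_zero, sub_zero]

/-! ## 4. The restricted short exact sequence and its connecting map -/

/-- `0 → E(F) → J(F) → C'(F) → 0` restricted to `H ≤ Gal(F/ℚ)`. -/
def sesH (c : Ctx S p) (L : Level S) (H : Subgroup L.Gal) : ShortComplex (Rep.{0} ℤ H) :=
  (ses c.h4 L).map (Rep.resFunctor H.subtype)

lemma sesH_shortExact (c : Ctx S p) (hses : SesExact c) (L : Level S) (H : Subgroup L.Gal) :
    (sesH c L H).ShortExact :=
  (Rep.shortExact_res H.subtype).2 (hses L)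

/-- The connecting map `Hⁱ(H, C'(F)) → Hʲ(H, E(F))`, `j = i + 1`. -/
def dlt (c : Ctx S p) (hses : SesExact c) (L : Level S) (H : Subgroup L.Gal) (i j : ℕ)
    (hij : i + 1 = j) : Hn H (C1 c.D L) i →ₗ[ℤ] Hn H (E1.Lim.sUnits L) j :=
  (δ (sesH_shortExact c hses L H) i j hij).hom

/-- Exactness at `Hʲ(H, E(F))`. -/
lemma exists_dlt_eq (c : Ctx S p) (hses : SesExact c) (L : Level S) (H : Subgroup L.Gal)
    (i j : ℕ) (hij : i + 1 = j) (y : Hn H (E1.Lim.sUnits L) j)
    (hy : coe H (diagTot L) j y = 0) :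
    ∃ s : Hn H (C1 c.D L) i, dlt c hses L H i j hij s = y := by
  have hex := mapShortComplex₁_exact (sesH_shortExact c hses L H) hij
  rw [ShortComplex.moduleCat_exact_iff_ker_sub_range] at hex
  obtain ⟨z, hz⟩ := hex hy
  exact ⟨z, hz⟩

/-- `δ ∘ (jC1)_* = 0`. -/
lemma dlt_coe_jC1 (c : Ctx S p) (hses : SesExact c) (L : Level S) (H : Subgroup L.Gal)
    (i j : ℕ) (hij : i + 1 = j) (w : Hn H (Jtot L) i) :
    dlt c hses L H i j hij (coe H (jC1 c.D L) i w) = 0 := by
  have h := (mapShortComplex₃ (sesH_shortExact c hses L H) hij).zero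
  exact congrArg (fun F => F.hom w) h

/-- Exactness at `Hⁱ(H, C'(F))`. -/
lemma exists_coe_jC1_eq (c : Ctx S p) (hses : SesExact c) (L : Level S) (H : Subgroup L.Gal)
    (i j : ℕ) (hij : i + 1 = j) (s : Hn H (C1 c.D L) i) (hs : dlt c hses L H i j hij s = 0) :
    ∃ w : Hn H (Jtot L) i, coe H (jC1 c.D L) i w = s := by
  have hex := mapShortComplex₃_exact (sesH_shortExact c hses L H) hij
  rw [ShortComplex.moduleCat_exact_iff_ker_sub_range] at hex
  obtain ⟨z, hz⟩ := hex hs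
  exact ⟨z, hz⟩

/-- Exactness at `Hⁿ(H, J(F))`. -/
lemma exists_coe_diagTot_eq (c : Ctx S p) (hses : SesExact c) (L : Level S)
    (H : Subgroup L.Gal) (n : ℕ) (z : Hn H (Jtot L) n) (hz : coe H (jC1 c.D L) n z = 0) :
    ∃ w : Hn H (E1.Lim.sUnits L) n, coe H (diagTot L) n w = z := by
  have hex := mapShortComplex₂_exact (sesH_shortExact c hses L H) n
  rw [ShortComplex.moduleCat_exact_iff_ker_sub_range] at hex
  obtain ⟨w, hw⟩ := hex hz
  exact ⟨w, hw⟩

/-- `(diagTot)_* ∘ δ = 0`. -/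
lemma coe_diagTot_dlt (c : Ctx S p) (hses : SesExact c) (L : Level S) (H : Subgroup L.Gal)
    (i j : ℕ) (hij : i + 1 = j) (s : Hn H (C1 c.D L) i) :
    coe H (diagTot L) j (dlt c hses L H i j hij s) = 0 := by
  have h := (mapShortComplex₁ (sesH_shortExact c hses L H) hij).zero
  exact congrArg (fun F => F.hom s) h

/-- `(jC1)_* ∘ (diagTot)_* = 0`. -/
lemma coe_jC1_coe_diagTot (c : Ctx S p) (L : Level S) (H : Subgroup L.Gal) (n : ℕ)
    (w : Hn H (E1.Lim.sUnits L) n) :
    coe H (jC1 c.D L) n (coe H (diagTot L) n w) = 0 := by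
  have h := (mapShortComplex₂ (sesH c L H) n).zero
  exact congrArg (fun F => F.hom w) h

/-- Naturality of the connecting map under inflation. -/
lemma dlt_infUp (c : Ctx S p) (hses : SesExact c) {L L' : Level S} (h : L ≤ L')
    (H : Subgroup L.Gal) (i j : ℕ) (hij : i + 1 = j) (s : Hn H (C1 c.D L) i) :
    infUp h H (trS h) j (dlt c hses L H i j hij s) =
      dlt c hses L' (up h H) i j hij (infUp h H (trC1 c.h7 h) i s) := by
  have key := KL.H304.deltaNat ℤ ↥(up h H) ↥H (projSub (Level.proj h) H)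
    (sesH c L H) (sesH_shortExact c hses L H)
    (sesH c L' (up h H)) (sesH_shortExact c hses L' (up h H))
    (semiSub (Level.proj h) H (trS h)) (semiSub (Level.proj h) H (trJtot h))
    (semiSub (Level.proj h) H (trC1 c.h7 h))
    (by
      apply Rep.hom_ext
      apply DFunLike.ext
      intro x
      exact trJtot_diagTot649 h x)
    (by
      apply Rep.hom_ext
      apply DFunLike.ext
      intro x
      exact trC1_jC1 c.h7 h x)
    i j hij
  exact congrArg (fun F => F.hom s) key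

/-! ## 5. The leaf -/

/-- **AR-HASSE.** -/
theorem hasseLeaf (S : Finset Nat.Primes) (p : ℕ) : HasseLeaf S p := by
  intro c hses hC1 hcap hmu L H x hx hdiag
  obtain ⟨hp, -, -⟩ := c.adm
  obtain ⟨⟨L₀, hL₀⟩, hdir⟩ := hmu
  obtain ⟨L₁, h₁, h₀₁⟩ := hdir L L₀
  have hμ : L₁.HasMu p := Level.HasMu.mono h₀₁ hL₀
  -- inflate to `L₁ ⊇ μ_p`
  have hx₁ : IsPPrim p (infUp h₁ H (trS h₁) 2 x) :=
    isPPrim_map (infUp h₁ H (trS h₁) 2).toAddMonoidHom hx
  have hd₁ : coe (up h₁ H) (diagTot L₁) 2 (infUp h₁ H (trS h₁) 2 x) = 0 := by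
    rw [coe_infUp h₁ H (diagTot L) (diagTot L₁) (trS h₁) (trJtot h₁)
      (fun a => trJtot_diagTot649 h₁ a) 2 x, hdiag, map_zero]
  -- `x₁ = δ s₀`
  obtain ⟨s₀, hs₀⟩ := exists_dlt_eq c hses L₁ (up h₁ H) 1 2 rfl _ hd₁
  -- `s` can be chosen `p`-primary
  have hkill : ∀ y : Hn (up h₁ H) (C1 c.D L₁) 1, Nat.card ↥(up h₁ H) • y = 0 := fun y =>
    T.H572.cardTorsion ℤ ↥(up h₁ H) (T.resSub (C1 c.D L₁) (up h₁ H)) 1 Nat.one_pos y
  obtain ⟨s, hs, hss⟩ := isPPrim_lift hp (dlt c hses L₁ (up h₁ H) 1 2 rfl).toAddMonoidHom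
    (Nat.card ↥(up h₁ H)) Nat.card_pos hkill s₀ (by
      show IsPPrim p (dlt c hses L₁ (up h₁ H) 1 2 rfl s₀)
      rw [hs₀]
      exact hx₁)
  have hss' : dlt c hses L₁ (up h₁ H) 1 2 rfl s = infUp h₁ H (trS h₁) 2 x := hss.trans hs₀
  -- `incl_* s = 0` (C1), capitulation (CAP1)
  have hi : coe (up h₁ H) (inclC1 c.D L₁) 1 s = 0 :=
    hC1 L₁ hμ (up h₁ H) _
      (isPPrim_map (coe (up h₁ H) (inclC1 c.D L₁) 1).toAddMonoidHom hs)
  obtain ⟨L₂, h₂, hinf⟩ := hcap L₁ (up h₁ H) s hs hi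
  refine ⟨L₂, h₁.trans h₂, ?_⟩
  refine infUp_trans_eq_zero h₁ h₂ H (trS h₁) (trS h₂) (trS (h₁.trans h₂))
    (fun a => trS_trans649 h₁ h₂ a) 2 x ?_
  rw [← hss', dlt_infUp c hses h₂ (up h₁ H) 1 2 rfl s, hinf, map_zero]

end

end Fermat.Agent.S55.K.AR.H649
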