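/-
S55 / layer K / block AR, leaves AR-J3 + AR-JDIV (helper243, 2nd independent owner; subtask 634).

* `h3J   : H3JLeaf S p`   — `H³(H, J(F))(p) = 0` for every subgroup `H ≤ Gal(F/ℚ)`;
* `j2Div : J2DivLeaf S p` — if `[G : H] ≤ p^c` and `p^(b+1+c)` divides all local degrees, every class
  of `H²(H, J(F))` killed by `p^b` is divisible by `p`.

Proof: `J(F) = ∏_{q ∈ S} J_q(F)` (finite biproduct), `J_q(F) = Coind_{Dec q}^{Gal} F_qˣ`,
Mackey–Shapiro (`T/MackeyH243.lean`), and the local class module at `p` (`Tow.LocalSpec p`, first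
clause) restricted to the Sylow subgroups of the Mackey factors (`K/AR/H243/Base.lean`).
-/
import Fermat.Agent.S55.K.AR.Spec
import Fermat.Agent.S55.K.AR.H243.MackeyJ

set_option autoImplicit false
set_option linter.style.haveILetI false

open CategoryTheory groupCohomology

noncomputable section

namespace Fermat.Agent.S55.K.AR.H243

open Fermat.Agent.S55 Fermat.Agent.S55.Tow Fermat.Agent.S55.E1.Lim

variable {S : Finset Nat.Primes}

/-! ## `J(F)` is the biproduct of the `J_q(F)` -/

section Bicone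

variable (L : Level S)

/-- The projection `J(F) ⟶ J_q(F)`. -/
def prJ (q : S) : Jtot L ⟶ L.J q.1 := piProj (fun q : S => L.J q.1) q

lemma inclJ_piProj_same (q : S) :
    inclJ L q ≫ prJ L q = 𝟙 (L.J q.1) := by
  apply Rep.hom_ext
  apply DFunLike.ext
  intro x
  exact piTo_inclJ_same L q x

lemma inclJ_piProj_of_ne {q q' : S} (h : q ≠ q') :
    inclJ L q ≫ prJ L q' = 0 := by
  apply Rep.hom_ext
  apply DFunLike.ext
  intro x
  exact piTo_inclJ_of_ne L (Ne.symm h) x

lemma sum_piProj_inclJ :
    ∑ q : S, prJ L q ≫ inclJ L q = 𝟙 (Jtot L) := by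
  classical
  apply Rep.hom_ext
  apply DFunLike.ext
  intro x
  rw [Rep.sum_hom, Representation.IntertwiningMap.sum_apply]
  apply piRep_ext
  intro q'
  show piTo (∑ q : S, (inclJ L q).hom (piTo x q)) q' = piTo x q'
  have hsum : piTo (∑ q : S, (inclJ L q).hom (piTo x q)) q' =
      ∑ q : S, piTo ((inclJ L q).hom (piTo x q)) q' :=
    map_sum (piProj (fun q : S => L.J q.1) q').hom.toLinearMap _ _
  rw [hsum, Finset.sum_eq_single q']
  · exact piTo_inclJ_same L q' _
  · intro q _ hq
    exact piTo_inclJ_of_ne L (Ne.symm hq) _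
  · intro h
    exact absurd (Finset.mem_univ q') h

variable (H : Subgroup L.Gal)

/-- `Hⁿ(H, J(F)) ≃ ∏_{q ∈ S} Hⁿ(H, J_q(F))`. -/
def jtotEquiv (n : ℕ) :=
  T.H243.equivOfBicone (P := T.resSub (Jtot L) H) (B := fun q : S => T.resSub (L.J q.1) H)
    (fun q => (Rep.resFunctor H.subtype).map (prJ L q))
    (fun q => (Rep.resFunctor H.subtype).map (inclJ L q))
    (fun q => by
      rw [← CategoryTheory.Functor.map_comp, inclJ_piProj_same, CategoryTheory.Functor.map_id])
    (fun q q' h => by
      rw [← CategoryTheory.Functor.map_comp, inclJ_piProj_of_ne L h]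
      rfl)
    (by
      apply Rep.hom_ext
      apply DFunLike.ext
      intro x
      have h := congrArg (fun f => f.hom x) (sum_piProj_inclJ L)
      rw [Rep.sum_hom, Representation.IntertwiningMap.sum_apply] at h
      rw [Rep.sum_hom, Representation.IntertwiningMap.sum_apply]
      exact h) n

end Bicone

/-! ## The leaves -/

variable (S) (p : ℕ)

/-- **AR-J3.** -/
theorem h3J : H3JLeaf S p := by
  intro hp hloc L H y hy
  haveI : Finite L.Gal := Level.finiteGal L
  have h1 : ∀ q : S, PZ p (groupCohomology (T.resSub (L.J q.1) H) 3) := fun q => by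
    haveI : Finite (L.Dec q.1) := Level.finiteDec L q.1
    obtain ⟨γ, hγ⟩ := hloc.1 S L q.1
    exact pz_resCoind (L.decHom_injective q.1) (L.locUnits q.1) hp γ hγ H
  have h2 := PZ.of_injective' (jtotEquiv L H 3) (jtotEquiv L H 3).map_add
    (jtotEquiv L H 3).injective (PZ.pi h1)
  exact h2 y hy

/-- **AR-JDIV.** -/
theorem j2Div : J2DivLeaf S p := by
  intro hp hloc L H b c hc hdeg y hy
  haveI : Finite L.Gal := Level.finiteGal L
  have h1 : ∀ q : S, PD p b (groupCohomology (T.resSub (L.J q.1) H) 2) := fun q => by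
    haveI : Finite (L.Dec q.1) := Level.finiteDec L q.1
    obtain ⟨γ, hγ⟩ := hloc.1 S L q.1
    exact pd_resCoind (L.decHom_injective q.1) (L.locUnits q.1) hp γ hγ H b c hc
      (hdeg q.1 q.2)
  have h2 := PD.of_bijective' (jtotEquiv L H 2).symm (jtotEquiv L H 2).symm.map_add
    (jtotEquiv L H 2).symm.bijective (PD.pi h1)
  exact h2 y hy

end Fermat.Agent.S55.K.AR.H243

end
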