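import Fermat.Agent.S55.K.AR.Spec
import Fermat.Agent.S55.K.AR.CoindH577
import Fermat.Agent.S55.T.H415.Additive

/-!
# S55 / layer K / block AR, leaves AR-J3 and AR-JDIV (helper577)

* `h3JLeaf : H3JLeaf S p`   — `H³(H, J(F))(p) = 0` for every level `F` and every `H ≤ Gal(F/ℚ)`;
* `j2DivLeaf : J2DivLeaf S p` — if `[G : H] ≤ p ^ c` and `p ^ (b + 1 + c)` divides all local degrees,
  every class of `H²(H, J(F))` killed by `p ^ b` is divisible by `p`.

(Exact frozen statements of `K/AR/Spec.lean`.)  Proof: `J(F) = ∏_{q ∈ S} Coind F_qˣ`; finite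
products (`T.H415.finiteProd`), Mackey–Shapiro (`Fermat.Agent.S55.Mackey`), the local class module
at `p` (`LocalSpec p`, first clause), Tate's `H³ = 0` and `res`/`cor` — see `CoindH577.lean`,
`ClassAtH577.lean`.
-/

set_option autoImplicit false

open CategoryTheory groupCohomology

namespace Fermat.Agent.S55.K.AR.H577

open Fermat.Agent.S55 Fermat.Agent.S55.Tow Fermat.Agent.S55.E1.Lim

noncomputable section

variable {S : Finset Nat.Primes}

/-- `Hⁿ(H, J(F)) → ∏_{q ∈ S} Hⁿ(H, J_q(F))` is bijective. -/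
theorem hn_Jtot_bijective (L : Level S) (H : Subgroup L.Gal) (n : ℕ) :
    Function.Bijective (fun (x : Hn H (Jtot L) n) (q : S) =>
      coe H (piProj (fun q : S => L.J q.1) q) n x) := by
  refine T.H415.finiteProd ℤ H S (fun q => T.resSub (L.J q.1) H) (T.resSub (Jtot L) H)
    (fun q => (Rep.resFunctor H.subtype).map (piProj (fun q : S => L.J q.1) q)) ?_ n
  exact ⟨fun a b h => h, fun y => ⟨y, rfl⟩⟩

variable (S) (p : ℕ)

/-- **Leaf AR-J3.** -/
theorem h3JLeaf : H3JLeaf S p := by
  intro hp hloc L H y hy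
  apply (hn_Jtot_bijective L H 3).1
  funext q
  obtain ⟨γ, hγ⟩ := hloc.1 S L q.1
  have h0 : coe H (piProj (fun q : S => L.J q.1) q) 3 0 = 0 := map_zero _
  refine (coind_h3_eq_zero (L.decHom q.1) (L.decHom_injective q.1) (L.locUnits q.1) γ hp hγ H
    (coe H (piProj (fun q : S => L.J q.1) q) 3 y) ?_).trans h0.symm
  obtain ⟨k, hk⟩ := hy
  refine ⟨k, ?_⟩
  have h1 : coe H (piProj (fun q : S => L.J q.1) q) 3 (p ^ k • y) =
      p ^ k • coe H (piProj (fun q : S => L.J q.1) q) 3 y := map_nsmul _ _ _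
  exact h1.symm.trans ((congrArg (coe H (piProj (fun q : S => L.J q.1) q) 3) hk).trans
    (map_zero _))

/-- **Leaf AR-JDIV.** -/
theorem j2DivLeaf : J2DivLeaf S p := by
  intro hp hloc L H b c hH hdec y hy
  have hex : ∀ q : S, ∃ z : Hn H (L.J q.1) 2,
      p • z = coe H (piProj (fun q : S => L.J q.1) q) 2 y := by
    intro q
    obtain ⟨γ, hγ⟩ := hloc.1 S L q.1
    refine coind_h2_exists_nsmul_eq (L.decHom q.1) (L.decHom_injective q.1) (L.locUnits q.1) γ hp
      hγ H b c hH (hdec q.1 q.2) (coe H (piProj (fun q : S => L.J q.1) q) 2 y) ?_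
    have h1 : coe H (piProj (fun q : S => L.J q.1) q) 2 (p ^ b • y) =
        p ^ b • coe H (piProj (fun q : S => L.J q.1) q) 2 y := map_nsmul _ _ _
    exact h1.symm.trans ((congrArg (coe H (piProj (fun q : S => L.J q.1) q) 2) hy).trans
      (map_zero _))
  choose z hz using hex
  obtain ⟨w, hw⟩ := (hn_Jtot_bijective L H 2).2 z
  refine ⟨w, ?_⟩
  apply (hn_Jtot_bijective L H 2).1
  funext q
  have hwq : coe H (piProj (fun q : S => L.J q.1) q) 2 w = z q := congrFun hw q
  have h1 : coe H (piProj (fun q : S => L.J q.1) q) 2 (p • w) =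
      p • coe H (piProj (fun q : S => L.J q.1) q) 2 w := map_nsmul _ _ _
  exact h1.trans ((congrArg (fun t => p • t) hwq).trans (hz q))

end

end Fermat.Agent.S55.K.AR.H577
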