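/-
S55 moonshot — LAYER K, block AR, leaves **AR-J3** (`H3JLeaf`) and **AR-JDIV** (`J2DivLeaf`).
helper181.  Namespace `Fermat.Agent.S55.K.AR.H181`.  Blueprint: `coord/S55-K-AR.md` §2.

* `h3JLeaf S p : H3JLeaf S p`   — immediate from `KG.H604.jH3` (unconditional).
* `j2DivLeaf S p : J2DivLeaf S p` — from the semi-local core `KG.H604.jCore_div` (Mackey–Shapiro
  decomposition of `H²(H, J(F))` into the groups `H²(T, F_qˣ)`, `T = {t ∈ Dec_q | x⁻¹ t x ∈ H}`),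
  `KG.H604.locUnits_data` (`H²(T, F_qˣ) ≃ ℤ/|T|`) and the count
  `[Dec_q : T] ≤ [G : H] ≤ p^c`, `p^{b+1+c} ∣ |Dec_q|`  ⇒  `p^{b+1} ∣ |T|`.
-/
import Fermat.Agent.S55.K.AR.Spec
import Fermat.Agent.S55.KG.JH3H604

set_option autoImplicit false

open CategoryTheory groupCohomology

namespace Fermat.Agent.S55.K.AR.H181

open Fermat.Agent.S55 Fermat.Agent.S55.Tow Fermat.Agent.S55.E1.Lim

noncomputable section

/-! ## 1. AR-J3 -/

/-- Leaf **AR-J3**. -/
theorem h3JLeaf (S : Finset Nat.Primes) (p : ℕ) : H3JLeaf S p := fun _ _ L H y _ =>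
  @Subsingleton.elim _ (KG.H604.jH3 S L H) y 0

/-! ## 2. Elementary lemmas -/

/-- In `ℤ/N` with `p^{b+1} ∣ N`, every element killed by `p^b` is divisible by `p`. -/
lemma zmod_exists_nsmul {N p b : ℕ} (hN0 : N ≠ 0) (hp : 0 < p) (hN : p ^ (b + 1) ∣ N)
    (c : ZMod N) (hc : p ^ b • c = 0) : ∃ w : ZMod N, c = p • w := by
  haveI : NeZero N := ⟨hN0⟩
  have h1 : ((p ^ b * c.val : ℕ) : ZMod N) = 0 := by
    rw [Nat.cast_mul, ZMod.natCast_zmod_val, ← nsmul_eq_mul]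
    exact hc
  have h2 : N ∣ p ^ b * c.val := (ZMod.natCast_eq_zero_iff _ _).1 h1
  have h3 : p ^ b * p ∣ p ^ b * c.val := by
    rw [← pow_succ]
    exact hN.trans h2
  have h4 : p ∣ c.val := (Nat.mul_dvd_mul_iff_left (pow_pos hp b)).1 h3
  obtain ⟨a, ha⟩ := h4
  refine ⟨(a : ZMod N), ?_⟩
  rw [nsmul_eq_mul, ← Nat.cast_mul, ← ha, ZMod.natCast_zmod_val]

/-- The same for any group isomorphic to `ℤ/N`. -/
lemma exists_nsmul_of_equiv {X : Type*} [AddCommGroup X] {N p b : ℕ} (e : X ≃+ ZMod N)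
    (hN0 : N ≠ 0) (hp : 0 < p) (hN : p ^ (b + 1) ∣ N) (c : X) (hc : p ^ b • c = 0) :
    ∃ w : X, c = p • w := by
  obtain ⟨w, hw⟩ := zmod_exists_nsmul hN0 hp hN (e c) (by rw [← map_nsmul, hc, map_zero])
  refine ⟨e.symm w, e.injective ?_⟩
  rw [map_nsmul, e.apply_symm_apply, hw]

/-- If `|D| = |T| · i`, `0 < i ≤ p^c` and `p^{b+1+c} ∣ |D|`, then `p^{b+1} ∣ |T|`. -/
lemma pow_dvd_of_mul {p : ℕ} (hp : p.Prime) {t i d b c : ℕ} (hd : t * i = d) (hd0 : d ≠ 0)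
    (hi : i ≤ p ^ c) (hdvd : p ^ (b + 1 + c) ∣ d) : p ^ (b + 1) ∣ t := by
  haveI : Fact p.Prime := ⟨hp⟩
  have ht0 : t ≠ 0 := by
    rintro rfl
    exact hd0 (by rw [← hd, zero_mul])
  have hi0 : i ≠ 0 := by
    rintro rfl
    exact hd0 (by rw [← hd, mul_zero])
  have h1 : b + 1 + c ≤ padicValNat p d := (padicValNat_dvd_iff_le hd0).1 hdvd
  have h2 : padicValNat p d = padicValNat p t + padicValNat p i := by
    rw [← hd]
    exact padicValNat.mul ht0 hi0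
  have h3 : padicValNat p i ≤ c := by
    have h4 : p ^ padicValNat p i ∣ i := (padicValNat_dvd_iff_le hi0).2 le_rfl
    have h5 : p ^ padicValNat p i ≤ p ^ c :=
      (Nat.le_of_dvd (Nat.pos_of_ne_zero hi0) h4).trans hi
    exact (Nat.pow_le_pow_iff_right hp.one_lt).1 h5
  exact (padicValNat_dvd_iff_le ht0).2 (by omega)

/-- `[D₀ : {t | x⁻¹ φ(t) x ∈ H}] ≤ [G : H]`. -/
lemma index_locSub_le {G D₀ : Type} [Group G] [Group D₀] [Finite G] (φ : D₀ →* G)
    (H : Subgroup G) (x : G) : (KG.H604.locSub φ H x).index ≤ H.index := by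
  unfold KG.H604.locSub
  rw [Subgroup.index_comap, ← Subgroup.relIndex_top_right H]
  refine Subgroup.relIndex_le_of_le_right le_top ?_
  rw [Subgroup.relIndex_top_right]
  exact Subgroup.index_ne_zero_of_finite

/-! ## 3. AR-JDIV -/

variable {S : Finset Nat.Primes}

/-- The local count: `p^{b+1}` divides the order of `T_{q,x}`. -/
lemma pow_dvd_card_jSub {p : ℕ} (hp : p.Prime) (L : Level S) (H : Subgroup L.Gal) (b c : ℕ)
    (hidx : H.index ≤ p ^ c) (q : Nat.Primes) (hq : p ^ (b + 1 + c) ∣ Nat.card (L.Dec q))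
    (x : L.Gal) : p ^ (b + 1) ∣ Nat.card ↥(KG.H604.jSub L H q x) := by
  haveI : Finite (L.Dec q) :=
    Finite.of_injective (L.decHom q) (H173.decHom_injective_H173 L q)
  refine pow_dvd_of_mul hp (Subgroup.card_mul_index (KG.H604.jSub L H q x))
    Nat.card_pos.ne' ((index_locSub_le (L.decHom q) H x).trans hidx) hq

/-- Leaf **AR-JDIV**. -/
theorem j2DivLeaf (S : Finset Nat.Primes) (p : ℕ) : J2DivLeaf S p := by
  intro hp _ L H b c hidx hdeg y hy
  have hloc : ∀ (q : S) (x : L.Gal)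
      (z : groupCohomology (T.resSub (L.locUnits q.1) (KG.H604.jSub L H q.1 x)) 2),
      p ^ b • z = 0 → ∃ w, z = p • w := by
    intro q x z hz
    haveI : Finite (L.Dec q.1) :=
      Finite.of_injective (L.decHom q.1) (H173.decHom_injective_H173 L q.1)
    obtain ⟨e⟩ := (KG.H604.locUnits_data L q.1 (KG.H604.jSub L H q.1 x)).2
    exact exists_nsmul_of_equiv e Nat.card_pos.ne' hp.pos
      (pow_dvd_card_jSub hp L H b c hidx q.1 (hdeg q.1 q.2) x) z hz
  obtain ⟨w, hw⟩ := KG.H604.jCore_div L H 2 (p ^ b) p hloc y hy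
  exact ⟨w, hw.symm⟩

end

end Fermat.Agent.S55.K.AR.H181
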