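/-
S55 moonshot — LAYER K, block AR, leaf AR-d (`KerDivLeaf`).        helper114.
Namespace `Fermat.Agent.S55.K.AR.H114`.  Blueprint: `coord/S55-K-AR.md` §2, row AR-d.

`kerDiv : KerDivLeaf S p` — the `p`-primary kernel of `H²(H, J(F)) → H²(H, C(F))` is
`p`-divisible in the limit (`[K : ℚ]` prime to `p`), from `H2CCyclic`, `Kappa`, `DecUnbounded`,
`J2Div` and `T.resIndex`.

Also (generic, reusable): `coe_infSub` (coefficient change commutes with inflation for a commuting
square), `coe_res` (restriction commutes with coefficient change), `exists_nsmul_of_cyclic`.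
-/
import Fermat.Agent.S55.K.AR.Spec
import Fermat.Agent.S55.T.CoresH572
import Fermat.Agent.S55.E1.H594.LevelProj

set_option autoImplicit false

open CategoryTheory groupCohomology

namespace Fermat.Agent.S55.K.AR.H114

open Fermat.Agent.S55 Fermat.Agent.S55.Tow Fermat.Agent.S55.E1.Lim

noncomputable section

/-! ## 1. Cyclic bookkeeping -/

/-- In a group whose elements `r`, `t` are multiples of a `p`-primary element `g`: if `p r = 0`,
`p t = 0` and `r ≠ 0`, then `t` is a multiple of `r`. -/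
theorem exists_nsmul_of_cyclic {X : Type*} [AddCommGroup X] {p : ℕ} (hp : p.Prime)
    (g r t : X) (hg : ∃ k : ℕ, p ^ k • g = 0) (hr : ∃ a : ℕ, r = a • g)
    (ht : ∃ b : ℕ, t = b • g) (hpr : p • r = 0) (hpt : p • t = 0) (hr0 : r ≠ 0) :
    ∃ n : ℕ, t = n • r := by
  obtain ⟨k, hk⟩ := hg
  obtain ⟨a, rfl⟩ := hr
  obtain ⟨b, rfl⟩ := ht
  have ho : addOrderOf g ∣ p ^ k := addOrderOf_dvd_of_nsmul_eq_zero hk
  obtain ⟨e, -, he⟩ := (Nat.dvd_prime_pow hp).1 ho
  have ha : ¬ p ^ e ∣ a := fun h => hr0 (by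
    rw [← he] at h; exact addOrderOf_dvd_iff_nsmul_eq_zero.1 h)
  have hpa : p ^ e ∣ p * a := by
    rw [← he]; apply addOrderOf_dvd_iff_nsmul_eq_zero.2
    rw [mul_nsmul']; exact hpr
  have hpb : p ^ e ∣ p * b := by
    rw [← he]; apply addOrderOf_dvd_iff_nsmul_eq_zero.2
    rw [mul_nsmul']; exact hpt
  obtain ⟨e', rfl⟩ : ∃ e', e = e' + 1 := by
    rcases e with _ | e'
    · exact absurd (by simp) ha
    · exact ⟨e', rfl⟩
  rw [pow_succ'] at hpa hpb ha
  have ha' : p ^ e' ∣ a := (Nat.mul_dvd_mul_iff_left hp.pos).1 hpa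
  have hb' : p ^ e' ∣ b := (Nat.mul_dvd_mul_iff_left hp.pos).1 hpb
  obtain ⟨a', rfl⟩ := ha'
  obtain ⟨b', rfl⟩ := hb'
  have hcop : Nat.Coprime a' p := by
    rw [Nat.coprime_comm, hp.coprime_iff_not_dvd]
    intro h
    apply ha
    rw [mul_comm p]
    exact Nat.mul_dvd_mul_left _ h
  obtain ⟨m, -, hm⟩ := Nat.exists_mul_mod_eq_one_of_coprime hcop hp.one_lt
  refine ⟨m * b', ?_⟩
  rw [← mul_nsmul']
  apply (nsmul_eq_nsmul_iff_modEq).2
  rw [he, pow_succ']
  have h1 : b' ≡ m * b' * a' [MOD p] := by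
    have : a' * m ≡ 1 [MOD p] := by
      rw [Nat.ModEq, hm, Nat.mod_eq_of_lt hp.one_lt]
    calc b' = 1 * b' := (one_mul _).symm
      _ ≡ (a' * m) * b' [MOD p] := (this.symm.mul_right b')
      _ = m * b' * a' := by ring
  have h2 := Nat.ModEq.mul_left' (p ^ e') h1
  have h3 : m * b' * (p ^ e' * a') = p ^ e' * (m * b' * a') := by ring
  rw [h3, mul_comm p (p ^ e')]
  exact h2

/-! ## 2. Naturalities -/

section Naturality

variable {Γ Γ' : Type} [Group Γ] [Group Γ']

/-- Coefficient change commutes with inflation, for a commuting square of coefficients. -/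
theorem coe_infSub (π : Γ' →* Γ) (H : Subgroup Γ) {A B : Rep.{0} ℤ Γ} {A' B' : Rep.{0} ℤ Γ'}
    (f : A ⟶ B) (f' : A' ⟶ B') (t : Rep.res π A ⟶ A') (s : Rep.res π B ⟶ B')
    (hsq : ∀ a : A.V, f'.hom (t.hom a) = s.hom (f.hom a)) (n : ℕ) (x : Hn H A n) :
    coe (H.comap π) f' n (infSub π H t n x) = infSub π H s n (coe H f n x) := by
  have h : groupCohomology.map (projSub π H) (semiSub π H t) n ≫
        T.coeffMap ((Rep.resFunctor (H.comap π).subtype).map f') n =
      T.coeffMap ((Rep.resFunctor H.subtype).map f) n ≫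
        groupCohomology.map (projSub π H) (semiSub π H s) n := by
    rw [← groupCohomology.map_comp, ← groupCohomology.map_comp]
    refine groupCohomology.map_congr rfl ?_ n
    apply DFunLike.ext
    intro a
    exact hsq a
  exact congrArg (fun φ => φ.hom x) h

/-- Restriction commutes with coefficient change. -/
theorem coe_res (H : Subgroup Γ) {A B : Rep.{0} ℤ Γ} (f : A ⟶ B) (n : ℕ)
    (x : groupCohomology A n) :
    coe H f n ((T.resMap A H n).hom x) = (T.resMap B H n).hom ((T.coeffMap f n).hom x) := by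
  have h : T.resMap A H n ≫ T.coeffMap ((Rep.resFunctor H.subtype).map f) n =
      T.coeffMap f n ≫ T.resMap B H n := by
    rw [← groupCohomology.map_comp, ← groupCohomology.map_comp]
    exact groupCohomology.map_congr rfl (by simp) n
  exact congrArg (fun φ => φ.hom x) h

/-- `coe` is functorial. -/
theorem coe_comp (H : Subgroup Γ) {A B C : Rep.{0} ℤ Γ} (f : A ⟶ B) (g : B ⟶ C) (n : ℕ)
    (x : Hn H A n) : coe H g n (coe H f n x) = coe H (f ≫ g) n x := by
  have h : T.coeffMap ((Rep.resFunctor H.subtype).map (f ≫ g)) n =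
      T.coeffMap ((Rep.resFunctor H.subtype).map f) n ≫
        T.coeffMap ((Rep.resFunctor H.subtype).map g) n := by
    rw [Functor.map_comp]
    exact groupCohomology.map_id_comp _ _ n
  exact (congrArg (fun φ => φ.hom x) h).symm

end Naturality

/-! ## 3. The leaf -/

variable {S : Finset Nat.Primes} {p : ℕ}

/-- `j ∘ incl_q = j_q` as morphisms. -/
lemma inclJ_comp_jTot (D : TowerDatum S) (L : Level S) (q : S) :
    inclJ L q ≫ jTot D L = D.j L q.1 := by
  apply Rep.hom_ext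
  apply DFunLike.ext
  intro x
  exact jTot_inclJ D L q x

/-- **AR-d.** -/
theorem kerDiv : KerDivLeaf S p := by
  intro c hC2 hK hDeg hJ L hMu H hcop x hx hx0
  obtain ⟨hp, -, hpS⟩ := c.adm
  obtain ⟨b, hb⟩ := hx
  -- the auxiliary level
  have hidx : H.index ≤ p ^ H.index := (Nat.lt_pow_self hp.one_lt).le
  obtain ⟨L', h, hdeg⟩ := hDeg L (b + 1 + H.index)
  have hMu' : L'.HasMu p := Level.HasMu.mono h hMu
  have hsurj : Function.Surjective (Level.proj h) := E1.H594.level_proj_surjective h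
  have hidx' : (up h H).index = H.index := Subgroup.index_comap_of_surjective H hsurj
  -- divide `inf x` by `p`
  have hb' : p ^ b • infUp h H (trJtot h) 2 x = 0 := by
    rw [← map_nsmul, hb, map_zero]
  obtain ⟨z, hz⟩ := hJ L' (up h H) b H.index (hidx'.le.trans hidx) hdeg _ hb'
  -- `j_* z` is killed by `p`
  have hnat : coe (up h H) (jTot c.D L') 2 (infUp h H (trJtot h) 2 x) =
      infUp h H (c.D.tr h) 2 (coe H (jTot c.D L) 2 x) :=
    coe_infSub (Level.proj h) H (jTot c.D L) (jTot c.D L') (trJtot h) (c.D.tr h)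
      (fun a => (tr_jTot c.h7 h a).symm) 2 x
  have hjz : p • coe (up h H) (jTot c.D L') 2 z = 0 := by
    rw [← map_nsmul, hz, hnat, hx0, map_zero]
  -- the local class of order `p`
  have hdvd : p ^ 1 ∣ Nat.card (L'.Dec (⟨p, hp⟩ : Nat.Primes)) :=
    (pow_dvd_pow p (by omega)).trans (hdeg _ hpS)
  obtain ⟨v, hv, hvord⟩ := hK L' hMu' ⟨p, hp⟩ hpS 1 hdvd
  rw [pow_one] at hv
  set q₀ : S := ⟨⟨p, hp⟩, hpS⟩ with hq₀
  set κ := (T.coeffMap (c.D.j L' (⟨p, hp⟩ : Nat.Primes)) 2).hom v with hκ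
  set r := (T.resMap (c.D.C L') (up h H) 2).hom κ with hr
  have hpr : p • r = 0 := by
    rw [hr, hκ, ← map_nsmul, ← map_nsmul, hv, map_zero, map_zero]
  have hr0 : r ≠ 0 := by
    intro h0
    have h1 : (up h H).index • κ = 0 :=
      T.H572.resIndex ℤ L'.Gal (c.D.C L') (up h H) 2 (by norm_num) κ h0
    have h2 : p ^ 1 ∣ (up h H).index := hvord _ h1
    rw [pow_one, hidx'] at h2
    exact (hp.coprime_iff_not_dvd.1 hcop.symm) h2
  -- cyclicity
  obtain ⟨g, hg, hgen⟩ := hC2 L' hMu' (up h H)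
  obtain ⟨n, hn⟩ := exists_nsmul_of_cyclic hp g r (coe (up h H) (jTot c.D L') 2 z) hg
    (hgen r ⟨1, by rw [pow_one]; exact hpr⟩)
    (hgen _ ⟨1, by rw [pow_one]; exact hjz⟩) hpr hjz hr0
  -- the correction term
  set w := coe (up h H) (inclJ L' q₀) 2 ((T.resMap (L'.J (⟨p, hp⟩ : Nat.Primes)) (up h H) 2).hom v)
    with hw
  have hpw : p • w = 0 := by
    rw [hw, ← map_nsmul, ← map_nsmul, hv, map_zero, map_zero]
  have hjw : coe (up h H) (jTot c.D L') 2 w = r := by
    rw [hw, coe_comp, inclJ_comp_jTot, coe_res]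
  refine ⟨L', h, z - n • w, ?_, ?_⟩
  · rw [smul_sub, smul_comm, hpw, smul_zero, sub_zero, hz]
  · rw [map_sub, map_nsmul, hjw, hn, sub_self]

end

end Fermat.Agent.S55.K.AR.H114
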