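/-
S55 moonshot — LAYER K, block AR, leaf AR-LIB (co-owner helper961).
Namespace `Fermat.Agent.S55.K.AR.H961`.  Complete proofs.  Imports only `K/AR/Defs` + `H783/Natural`.

ONE gadget `mapSub π H H' hH t n : Hⁿ(H, A) → Hⁿ(H', A')` (`π : Γ' → Γ`, `H' ≤ π⁻¹ H`,
`t : Res_π A ⟶ A'`) of which `coe`, `infSub`/`infUp`, the cast `castHn` between equal subgroups and
the restriction `resTo` are all instances (`coe_eq_mapSub`, `infSub_eq_mapSub`), together with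

* §1 `mapSub_congr`, `mapSub_comp`, `mapSub_comm` (functoriality; everything else is a corollary),
  `coe_mapSub`, `coe_infSub`, `coe_comp_apply`, `coe_congr`,
  `resTo`, `resTo_self`, `resTo_resTo`, `castHn` (`≃ₗ`), `coe_resTo`, `coe_castHn`,
  `resTo_mapSub`, `mapSub_resTo`, `resTo_infSub`;
* §2 `rep_exact_iff`, `rep_shortExact_iff`, `resSC_shortExact`,
  `δH H hX i j hij : Hⁱ(H, X₃) → Hʲ(H, X₁)`,
  `exact_coe_coe`, `exact_coe_δH`, `exact_δH_coe` (LES, elementwise `↔`),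
  `coe_coe_eq_zero`, `δH_coe_eq_zero`, `coe_δH_eq_zero`, `δH_injective`, `δH_surjective`,
  `δH_mapSub`, `δH_infSub`, `δH_resTo`, `δH_castHn` (naturality of `δ`);
* §3 (tower) `proj_trans`, `up_up`, `up_refl`, `up_mono`,
  `infUp_trans`, `infUp_trans_eq_zero`, `infUp_eq_zero_of_infUp`, `infUp_trans_eq_smul`,
  `isPPrim_map`, `isPPrim_infUp`, `isPPrim_coe`, `isPPrim_castHn`, `coe_infUp`, `resTo_infUp`,
  `trS_trans`, `trJ_trans`, `trJtot_trans`, `TrTrans` (GD7b), `trC1_trans`, `trJtot_diagTot`,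
  `coe_diagTot_infUp`, `coe_jC1_infUp`, `coe_inclC1_infUp`, `coe_jTot_infUp`,
  `δS` (connecting map of `0 → E(F) → J(F) → C'(F) → 0` over `H`), `δS_infUp`, `δS_castHn`,
  `exact_J`, `exact_C1`, `exact_E`.
-/
import Fermat.Agent.S55.K.AR.Defs
import Fermat.Agent.S55.H783.Natural

set_option autoImplicit false

open CategoryTheory groupCohomology

namespace Fermat.Agent.S55.K.AR.H961

open Fermat.Agent.S55 Fermat.Agent.S55.Tow Fermat.Agent.S55.K.AR

noncomputable section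

/-! ## 1. The general map `mapSub` -/

section General

variable {Γ Γ' Γ'' : Type} [Group Γ] [Group Γ'] [Group Γ'']

/-- `π : Γ' → Γ` restricted to `H' → H`, for `H' ≤ π⁻¹ H`. -/
def homSub (π : Γ' →* Γ) (H : Subgroup Γ) (H' : Subgroup Γ') (hH : H' ≤ H.comap π) :
    ↥H' →* ↥H :=
  (π.comp H'.subtype).codRestrict H (fun x => hH x.2)

@[simp] lemma homSub_coe (π : Γ' →* Γ) (H : Subgroup Γ) (H' : Subgroup Γ')
    (hH : H' ≤ H.comap π) (x : ↥H') : ((homSub π H H' hH x : ↥H) : Γ) = π (x : Γ') := rfl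

/-- A semilinear `t : Res_π A ⟶ A'` restricted to `H' → H`. -/
def semiGen (π : Γ' →* Γ) (H : Subgroup Γ) (H' : Subgroup Γ') (hH : H' ≤ H.comap π)
    {A : Rep.{0} ℤ Γ} {A' : Rep.{0} ℤ Γ'} (t : Rep.res π A ⟶ A') :
    Rep.res (homSub π H H' hH) (T.resSub A H) ⟶ T.resSub A' H' :=
  E1.Lim.semiOfAdd (homSub π H H' hH) (A := T.resSub A H) (B := T.resSub A' H')
    { toFun := fun x => t.hom x
      map_zero' := map_zero t.hom
      map_add' := map_add t.hom }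
    (fun g x => Rep.hom_comm_apply t (g : Γ') x)

@[simp] lemma semiGen_apply (π : Γ' →* Γ) (H : Subgroup Γ) (H' : Subgroup Γ')
    (hH : H' ≤ H.comap π) {A : Rep.{0} ℤ Γ} {A' : Rep.{0} ℤ Γ'} (t : Rep.res π A ⟶ A')
    (x : A.V) : (semiGen π H H' hH t).hom x = t.hom x := rfl

/-- **The general map** `Hⁿ(H, A) → Hⁿ(H', A')` along `π : Γ' → Γ` (with `H' ≤ π⁻¹ H`) and a
semilinear `t : Res_π A ⟶ A'`. -/
def mapSub (π : Γ' →* Γ) (H : Subgroup Γ) (H' : Subgroup Γ') (hH : H' ≤ H.comap π)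
    {A : Rep.{0} ℤ Γ} {A' : Rep.{0} ℤ Γ'} (t : Rep.res π A ⟶ A') (n : ℕ) :
    Hn H A n →ₗ[ℤ] Hn H' A' n :=
  (groupCohomology.map (homSub π H H' hH) (semiGen π H H' hH t) n).hom

/-- Congruence for `groupCohomology.map`: equal group homomorphisms and pointwise equal
module maps give the same map on cohomology. -/
lemma map_congr' {G₁ G₂ : Type} [Group G₁] [Group G₂] {A : Rep.{0} ℤ G₂} {B : Rep.{0} ℤ G₁}
    {f₁ f₂ : G₁ →* G₂} (hf : f₁ = f₂) (φ₁ : Rep.res f₁ A ⟶ B) (φ₂ : Rep.res f₂ A ⟶ B)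
    (hφ : ∀ x : A.V, φ₁.hom x = φ₂.hom x) (n : ℕ) :
    (groupCohomology.map f₁ φ₁ n).hom = (groupCohomology.map f₂ φ₂ n).hom := by
  subst hf
  have : φ₁ = φ₂ := by
    apply Rep.hom_ext
    apply DFunLike.ext
    intro x
    exact hφ x
  rw [this]

/-- Congruence for `mapSub`. -/
lemma mapSub_congr {π₁ π₂ : Γ' →* Γ} (hπ : ∀ g, π₁ g = π₂ g) (H : Subgroup Γ)
    (H' : Subgroup Γ') (h₁ : H' ≤ H.comap π₁) (h₂ : H' ≤ H.comap π₂)
    {A : Rep.{0} ℤ Γ} {A' : Rep.{0} ℤ Γ'} (t₁ : Rep.res π₁ A ⟶ A') (t₂ : Rep.res π₂ A ⟶ A')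
    (ht : ∀ x : A.V, t₁.hom x = t₂.hom x) (n : ℕ) :
    mapSub π₁ H H' h₁ t₁ n = mapSub π₂ H H' h₂ t₂ n := by
  unfold mapSub
  refine map_congr' ?_ _ _ (fun x => ?_) n
  · ext x
    exact hπ x
  · exact ht x

/-- **Functoriality of `mapSub`.** -/
lemma mapSub_comp (π : Γ' →* Γ) (π' : Γ'' →* Γ') (ρ : Γ'' →* Γ) (hρ : ∀ g, ρ g = π (π' g))
    (H : Subgroup Γ) (H' : Subgroup Γ') (H'' : Subgroup Γ'')
    (h₁ : H' ≤ H.comap π) (h₂ : H'' ≤ H'.comap π') (h₃ : H'' ≤ H.comap ρ)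
    {A : Rep.{0} ℤ Γ} {A' : Rep.{0} ℤ Γ'} {A'' : Rep.{0} ℤ Γ''}
    (t : Rep.res π A ⟶ A') (t' : Rep.res π' A' ⟶ A'') (s : Rep.res ρ A ⟶ A'')
    (hs : ∀ x : A.V, s.hom x = t'.hom (t.hom x)) (n : ℕ) (x : Hn H A n) :
    mapSub π' H' H'' h₂ t' n (mapSub π H H' h₁ t n x) = mapSub ρ H H'' h₃ s n x := by
  have key : (groupCohomology.map (homSub ρ H H'' h₃) (semiGen ρ H H'' h₃ s) n).hom =
      (groupCohomology.map ((homSub π H H' h₁).comp (homSub π' H' H'' h₂))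
        ((Rep.resFunctor (homSub π' H' H'' h₂)).map (semiGen π H H' h₁ t) ≫
          semiGen π' H' H'' h₂ t') n).hom := by
    refine map_congr' ?_ _ _ (fun x => ?_) n
    · ext g
      exact hρ g
    · exact hs x
  unfold mapSub
  rw [key, groupCohomology.map_comp]
  rfl

/-- **Commutation of two squares of `mapSub`'s.** -/
lemma mapSub_comm {Δ : Type} [Group Δ]
    (π₁ : Γ' →* Γ) (π₂ : Γ'' →* Γ') (π₃ : Δ →* Γ) (π₄ : Γ'' →* Δ)
    (hπ : ∀ g, π₁ (π₂ g) = π₃ (π₄ g))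
    (H : Subgroup Γ) (H₁ : Subgroup Γ') (H₂ : Subgroup Δ) (H'' : Subgroup Γ'')
    (h₁ : H₁ ≤ H.comap π₁) (h₂ : H'' ≤ H₁.comap π₂) (h₃ : H₂ ≤ H.comap π₃)
    (h₄ : H'' ≤ H₂.comap π₄)
    {A : Rep.{0} ℤ Γ} {A₁ : Rep.{0} ℤ Γ'} {A₂ : Rep.{0} ℤ Δ} {A'' : Rep.{0} ℤ Γ''}
    (t₁ : Rep.res π₁ A ⟶ A₁) (t₂ : Rep.res π₂ A₁ ⟶ A'') (t₃ : Rep.res π₃ A ⟶ A₂)
    (t₄ : Rep.res π₄ A₂ ⟶ A'')
    (ht : ∀ x : A.V, t₂.hom (t₁.hom x) = t₄.hom (t₃.hom x)) (n : ℕ) (x : Hn H A n) :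
    mapSub π₂ H₁ H'' h₂ t₂ n (mapSub π₁ H H₁ h₁ t₁ n x) =
      mapSub π₄ H₂ H'' h₄ t₄ n (mapSub π₃ H H₂ h₃ t₃ n x) := by
  have h₅ : H'' ≤ H.comap (π₁.comp π₂) := fun g hg => h₁ (h₂ hg)
  let s : Rep.res (π₁.comp π₂) A ⟶ A'' :=
    E1.Lim.semiOfAdd (π₁.comp π₂) (A := A) (B := A'')
      { toFun := fun x => t₂.hom (t₁.hom x)
        map_zero' := by rw [map_zero, map_zero]
        map_add' := fun x y => by rw [map_add, map_add] }
      (fun g x => by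
        have e1 := Rep.hom_comm_apply t₁ (π₂ g) x
        have e2 := Rep.hom_comm_apply t₂ g (t₁.hom x)
        exact (congrArg t₂.hom e1).trans e2)
  rw [mapSub_comp π₁ π₂ (π₁.comp π₂) (fun _ => rfl) H H₁ H'' h₁ h₂ h₅ t₁ t₂ s (fun _ => rfl),
    mapSub_comp π₃ π₄ (π₁.comp π₂) (fun g => hπ g) H H₂ H'' h₃ h₄ h₅ t₃ t₄ s (fun x => ht x)]

/-! ### `coe`, `infSub` are instances of `mapSub` -/

/-- A morphism `f : A ⟶ B` as a semilinear map along the identity. -/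
def idSemi {A B : Rep.{0} ℤ Γ} (f : A ⟶ B) : Rep.res (MonoidHom.id Γ) A ⟶ B :=
  E1.Lim.semiOfAdd (MonoidHom.id Γ) (A := A) (B := B)
    { toFun := fun x => f.hom x
      map_zero' := map_zero f.hom
      map_add' := map_add f.hom }
    (fun g x => Rep.hom_comm_apply f g x)

@[simp] lemma idSemi_apply {A B : Rep.{0} ℤ Γ} (f : A ⟶ B) (x : A.V) :
    (idSemi f).hom x = f.hom x := rfl

lemma le_comap_id (H : Subgroup Γ) : H ≤ H.comap (MonoidHom.id Γ) := fun _ h => h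

lemma coe_eq_mapSub (H : Subgroup Γ) {A B : Rep.{0} ℤ Γ} (f : A ⟶ B) (n : ℕ) :
    coe H f n = mapSub (MonoidHom.id Γ) H H (le_comap_id H) (idSemi f) n := by
  unfold mapSub
  refine map_congr' ?_ _ _ (fun x => ?_) n
  · ext x
    rfl
  · rfl

lemma infSub_eq_mapSub (π : Γ' →* Γ) (H : Subgroup Γ) {A : Rep.{0} ℤ Γ} {A' : Rep.{0} ℤ Γ'}
    (t : Rep.res π A ⟶ A') (n : ℕ) :
    infSub π H t n = mapSub π H (H.comap π) le_rfl t n := by
  unfold mapSub infSub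
  refine map_congr' ?_ _ _ (fun x => ?_) n
  · ext x
    rfl
  · rfl

/-! ### Naturality of `infSub` in the coefficients -/

/-- **Naturality of `mapSub` in the coefficients.** -/
lemma coe_mapSub (π : Γ' →* Γ) (H : Subgroup Γ) (H' : Subgroup Γ') (hH : H' ≤ H.comap π)
    {A B : Rep.{0} ℤ Γ} {A' B' : Rep.{0} ℤ Γ'} (f : A ⟶ B) (f' : A' ⟶ B')
    (t : Rep.res π A ⟶ A') (s : Rep.res π B ⟶ B')
    (hsq : ∀ x : A.V, f'.hom (t.hom x) = s.hom (f.hom x)) (n : ℕ) (x : Hn H A n) :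
    coe H' f' n (mapSub π H H' hH t n x) = mapSub π H H' hH s n (coe H f n x) := by
  rw [coe_eq_mapSub, coe_eq_mapSub]
  exact mapSub_comm π (MonoidHom.id Γ') (MonoidHom.id Γ) π (fun _ => rfl) H H' H H'
    hH (le_comap_id H') (le_comap_id H) hH t (idSemi f') (idSemi f) s (fun x => hsq x) n x

/-- **Naturality of `infSub` in the coefficients.** -/
lemma coe_infSub (π : Γ' →* Γ) (H : Subgroup Γ)
    {A B : Rep.{0} ℤ Γ} {A' B' : Rep.{0} ℤ Γ'} (f : A ⟶ B) (f' : A' ⟶ B')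
    (t : Rep.res π A ⟶ A') (s : Rep.res π B ⟶ B')
    (hsq : ∀ x : A.V, f'.hom (t.hom x) = s.hom (f.hom x)) (n : ℕ) (x : Hn H A n) :
    coe (H.comap π) f' n (infSub π H t n x) = infSub π H s n (coe H f n x) := by
  rw [infSub_eq_mapSub, infSub_eq_mapSub]
  exact coe_mapSub π H (H.comap π) le_rfl f f' t s hsq n x

/-- `coe` is functorial. -/
lemma coe_comp_apply (H : Subgroup Γ) {A B C : Rep.{0} ℤ Γ} (f : A ⟶ B) (g : B ⟶ C) (n : ℕ)
    (x : Hn H A n) : coe H (f ≫ g) n x = coe H g n (coe H f n x) := by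
  rw [coe_eq_mapSub, coe_eq_mapSub, coe_eq_mapSub]
  exact (mapSub_comp (MonoidHom.id Γ) (MonoidHom.id Γ) (MonoidHom.id Γ) (fun _ => rfl) H H H
    (le_comap_id H) (le_comap_id H) (le_comap_id H) (idSemi f) (idSemi g) (idSemi (f ≫ g))
    (fun _ => rfl) n x).symm

/-- `coe` depends only on the underlying function. -/
lemma coe_congr (H : Subgroup Γ) {A B : Rep.{0} ℤ Γ} (f g : A ⟶ B)
    (h : ∀ x : A.V, f.hom x = g.hom x) (n : ℕ) : coe H f n = coe H g n := by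
  rw [coe_eq_mapSub, coe_eq_mapSub]
  exact mapSub_congr (fun _ => rfl) H H _ _ _ _ h n

/-! ### The cast between equal subgroups and restriction -/

/-- The identity of `A` as a semilinear map along the identity of `Γ`. -/
def idRes (A : Rep.{0} ℤ Γ) : Rep.res (MonoidHom.id Γ) A ⟶ A := idSemi (𝟙 A)

@[simp] lemma idRes_apply (A : Rep.{0} ℤ Γ) (x : A.V) : (idRes A).hom x = x := rfl

/-- **Restriction** `Hⁿ(H, A) → Hⁿ(P, A)` for `P ≤ H` (both subgroups of `Γ`). -/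
def resTo {P H : Subgroup Γ} (hPH : P ≤ H) (A : Rep.{0} ℤ Γ) (n : ℕ) :
    Hn H A n →ₗ[ℤ] Hn P A n :=
  mapSub (MonoidHom.id Γ) H P (fun _ hx => hPH hx) (idRes A) n

/-- `resTo` of `H ≤ H` is the identity. -/
lemma resTo_self (H : Subgroup Γ) (A : Rep.{0} ℤ Γ) (n : ℕ) (x : Hn H A n) :
    resTo (le_refl H) A n x = x := by
  have h1 : resTo (le_refl H) A n = coe H (𝟙 A) n := by
    rw [coe_eq_mapSub]
    rfl
  rw [h1]
  show (T.coeffMap ((Rep.resFunctor H.subtype).map (𝟙 A)) n).hom x = x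
  rw [CategoryTheory.Functor.map_id]
  show (groupCohomology.map (MonoidHom.id ↥H) (𝟙 (T.resSub A H)) n).hom x = x
  rw [groupCohomology.map_id]
  rfl

lemma resTo_resTo {Q P H : Subgroup Γ} (hQP : Q ≤ P) (hPH : P ≤ H) (A : Rep.{0} ℤ Γ) (n : ℕ)
    (x : Hn H A n) : resTo hQP A n (resTo hPH A n x) = resTo (hQP.trans hPH) A n x :=
  mapSub_comp (MonoidHom.id Γ) (MonoidHom.id Γ) (MonoidHom.id Γ) (fun _ => rfl) H P Q _ _ _
    (idRes A) (idRes A) (idRes A) (fun _ => rfl) n x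

/-- **The canonical isomorphism** `Hⁿ(H₁, A) ≃ Hⁿ(H₂, A)` for equal subgroups `H₁ = H₂`. -/
def castHn {H₁ H₂ : Subgroup Γ} (e : H₁ = H₂) (A : Rep.{0} ℤ Γ) (n : ℕ) :
    Hn H₁ A n ≃ₗ[ℤ] Hn H₂ A n where
  toLinearMap := resTo (le_of_eq e.symm) A n
  invFun := resTo (le_of_eq e) A n
  left_inv x := by
    show resTo (le_of_eq e) A n (resTo (le_of_eq e.symm) A n x) = x
    rw [resTo_resTo, resTo_self]
  right_inv x := by
    show resTo (le_of_eq e.symm) A n (resTo (le_of_eq e) A n x) = x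
    rw [resTo_resTo, resTo_self]

lemma castHn_apply {H₁ H₂ : Subgroup Γ} (e : H₁ = H₂) (A : Rep.{0} ℤ Γ) (n : ℕ)
    (x : Hn H₁ A n) : castHn e A n x = resTo (le_of_eq e.symm) A n x := rfl

lemma castHn_symm_apply {H₁ H₂ : Subgroup Γ} (e : H₁ = H₂) (A : Rep.{0} ℤ Γ) (n : ℕ)
    (x : Hn H₂ A n) : (castHn e A n).symm x = resTo (le_of_eq e) A n x := rfl

/-- `resTo` commutes with `coe`. -/
lemma coe_resTo {P H : Subgroup Γ} (hPH : P ≤ H) {A B : Rep.{0} ℤ Γ} (f : A ⟶ B) (n : ℕ)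
    (x : Hn H A n) : coe P f n (resTo hPH A n x) = resTo hPH B n (coe H f n x) :=
  coe_mapSub (MonoidHom.id Γ) H P _ f f (idRes A) (idRes B) (fun _ => rfl) n x

/-- `castHn` commutes with `coe`. -/
lemma coe_castHn {H₁ H₂ : Subgroup Γ} (e : H₁ = H₂) {A B : Rep.{0} ℤ Γ} (f : A ⟶ B) (n : ℕ)
    (x : Hn H₁ A n) : coe H₂ f n (castHn e A n x) = castHn e B n (coe H₁ f n x) :=
  coe_resTo _ f n x

/-- `mapSub` followed by a restriction is a `mapSub`. -/
lemma resTo_mapSub (π : Γ' →* Γ) (H : Subgroup Γ) (H' P' : Subgroup Γ') (hH : H' ≤ H.comap π)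
    (hP : P' ≤ H') {A : Rep.{0} ℤ Γ} {A' : Rep.{0} ℤ Γ'} (t : Rep.res π A ⟶ A') (n : ℕ)
    (x : Hn H A n) :
    resTo hP A' n (mapSub π H H' hH t n x) = mapSub π H P' (hP.trans hH) t n x :=
  mapSub_comp π (MonoidHom.id Γ') π (fun _ => rfl) H H' P' hH _ _ t (idRes A') t
    (fun _ => rfl) n x

/-- A restriction followed by `mapSub` is a `mapSub`. -/
lemma mapSub_resTo (π : Γ' →* Γ) (H P : Subgroup Γ) (P' : Subgroup Γ') (hPH : P ≤ H)
    (hP : P' ≤ P.comap π) {A : Rep.{0} ℤ Γ} {A' : Rep.{0} ℤ Γ'} (t : Rep.res π A ⟶ A') (n : ℕ)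
    (x : Hn H A n) :
    mapSub π P P' hP t n (resTo hPH A n x) =
      mapSub π H P' (fun _ hg => hPH (hP hg)) t n x :=
  mapSub_comp (MonoidHom.id Γ) π π (fun _ => rfl) H P P' _ hP _ (idRes A) t t
    (fun _ => rfl) n x

/-- **`infSub` commutes with restriction** to `P ≤ H`. -/
lemma resTo_infSub (π : Γ' →* Γ) {P H : Subgroup Γ} (hPH : P ≤ H)
    {A : Rep.{0} ℤ Γ} {A' : Rep.{0} ℤ Γ'} (t : Rep.res π A ⟶ A') (n : ℕ) (x : Hn H A n) :
    resTo (Subgroup.comap_mono hPH) A' n (infSub π H t n x) = infSub π P t n (resTo hPH A n x) := by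
  rw [infSub_eq_mapSub, infSub_eq_mapSub, resTo_mapSub, mapSub_resTo]

/-! ## 2. The long exact sequence of a short exact sequence restricted to `H` -/

section LES

open Rep

/-- Exactness in `Rep k G` on elements. -/
lemma rep_exact_iff {k G : Type} [CommRing k] [Group G] (X : ShortComplex (Rep.{0} k G)) :
    X.Exact ↔ ∀ x : X.X₂.V, X.g.hom x = 0 → ∃ y : X.X₁.V, X.f.hom y = x := by
  rw [← ShortComplex.exact_map_iff_of_faithful X (forget₂ (Rep.{0} k G) (ModuleCat.{0} k)),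
    ShortComplex.moduleCat_exact_iff]
  rfl

/-- Short exactness in `Rep k G` on elements. -/
lemma rep_shortExact_iff {k G : Type} [CommRing k] [Group G] (X : ShortComplex (Rep.{0} k G)) :
    X.ShortExact ↔ Function.Injective X.f.hom ∧ Function.Surjective X.g.hom ∧
      ∀ x : X.X₂.V, X.g.hom x = 0 → ∃ y : X.X₁.V, X.f.hom y = x := by
  constructor
  · intro h
    exact ⟨(Rep.mono_iff_injective _).1 h.mono_f, (Rep.epi_iff_surjective _).1 h.epi_g,
      (rep_exact_iff X).1 h.exact⟩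
  · rintro ⟨h1, h2, h3⟩
    exact { exact := (rep_exact_iff X).2 h3
            mono_f := (Rep.mono_iff_injective _).2 h1
            epi_g := (Rep.epi_iff_surjective _).2 h2 }

/-- A short complex of `Γ`-modules restricted to `H`. -/
abbrev resSC (H : Subgroup Γ) (X : ShortComplex (Rep.{0} ℤ Γ)) : ShortComplex (Rep.{0} ℤ ↥H) :=
  X.map (Rep.resFunctor H.subtype)

lemma resSC_shortExact (H : Subgroup Γ) {X : ShortComplex (Rep.{0} ℤ Γ)} (hX : X.ShortExact) :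
    (resSC H X).ShortExact := by
  rw [rep_shortExact_iff] at hX ⊢
  exact hX

/-- **The connecting homomorphism** `Hⁱ(H, X₃) → Hʲ(H, X₁)` (`j = i + 1`) of a short exact
sequence `0 → X₁ → X₂ → X₃ → 0` of `Γ`-modules, restricted to `H ≤ Γ`. -/
def δH (H : Subgroup Γ) {X : ShortComplex (Rep.{0} ℤ Γ)} (hX : X.ShortExact) (i j : ℕ)
    (hij : i + 1 = j) : Hn H X.X₃ i →ₗ[ℤ] Hn H X.X₁ j :=
  (groupCohomology.δ (resSC_shortExact H hX) i j hij).hom

/-- Exactness of `Hⁱ(H, X₁) → Hⁱ(H, X₂) → Hⁱ(H, X₃)`. -/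
lemma exact_coe_coe (H : Subgroup Γ) {X : ShortComplex (Rep.{0} ℤ Γ)} (hX : X.ShortExact)
    (i : ℕ) (x : Hn H X.X₂ i) :
    coe H X.g i x = 0 ↔ ∃ y : Hn H X.X₁ i, coe H X.f i y = x := by
  have hex := groupCohomology.mapShortComplex₂_exact (resSC_shortExact H hX) i
  rw [ShortComplex.moduleCat_exact_iff] at hex
  constructor
  · intro hx
    exact hex x hx
  · rintro ⟨y, rfl⟩
    have hz := (groupCohomology.mapShortComplex₂ (resSC H X) i).zero
    exact congrArg (fun φ => φ.hom y) hz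

/-- Exactness of `Hⁱ(H, X₂) → Hⁱ(H, X₃) → Hʲ(H, X₁)`. -/
lemma exact_coe_δH (H : Subgroup Γ) {X : ShortComplex (Rep.{0} ℤ Γ)} (hX : X.ShortExact)
    (i j : ℕ) (hij : i + 1 = j) (x : Hn H X.X₃ i) :
    δH H hX i j hij x = 0 ↔ ∃ y : Hn H X.X₂ i, coe H X.g i y = x := by
  have hex := groupCohomology.mapShortComplex₃_exact (resSC_shortExact H hX) hij
  rw [ShortComplex.moduleCat_exact_iff] at hex
  constructor
  · intro hx
    exact hex x hx
  · rintro ⟨y, rfl⟩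
    have hz := (groupCohomology.mapShortComplex₃ (resSC_shortExact H hX) hij).zero
    exact congrArg (fun φ => φ.hom y) hz

/-- Exactness of `Hⁱ(H, X₃) → Hʲ(H, X₁) → Hʲ(H, X₂)`. -/
lemma exact_δH_coe (H : Subgroup Γ) {X : ShortComplex (Rep.{0} ℤ Γ)} (hX : X.ShortExact)
    (i j : ℕ) (hij : i + 1 = j) (x : Hn H X.X₁ j) :
    coe H X.f j x = 0 ↔ ∃ y : Hn H X.X₃ i, δH H hX i j hij y = x := by
  have hex := groupCohomology.mapShortComplex₁_exact (resSC_shortExact H hX) hij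
  rw [ShortComplex.moduleCat_exact_iff] at hex
  constructor
  · intro hx
    exact hex x hx
  · rintro ⟨y, rfl⟩
    have hz := (groupCohomology.mapShortComplex₁ (resSC_shortExact H hX) hij).zero
    exact congrArg (fun φ => φ.hom y) hz

/-- The composite `Hⁱ(H, X₁) → Hⁱ(H, X₂) → Hⁱ(H, X₃)` vanishes. -/
lemma coe_coe_eq_zero (H : Subgroup Γ) {X : ShortComplex (Rep.{0} ℤ Γ)} (hX : X.ShortExact)
    (i : ℕ) (y : Hn H X.X₁ i) : coe H X.g i (coe H X.f i y) = 0 :=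
  (exact_coe_coe H hX i _).2 ⟨y, rfl⟩

/-- The composite `Hⁱ(H, X₂) → Hⁱ(H, X₃) → Hʲ(H, X₁)` vanishes. -/
lemma δH_coe_eq_zero (H : Subgroup Γ) {X : ShortComplex (Rep.{0} ℤ Γ)} (hX : X.ShortExact)
    (i j : ℕ) (hij : i + 1 = j) (y : Hn H X.X₂ i) : δH H hX i j hij (coe H X.g i y) = 0 :=
  (exact_coe_δH H hX i j hij _).2 ⟨y, rfl⟩

/-- The composite `Hⁱ(H, X₃) → Hʲ(H, X₁) → Hʲ(H, X₂)` vanishes. -/
lemma coe_δH_eq_zero (H : Subgroup Γ) {X : ShortComplex (Rep.{0} ℤ Γ)} (hX : X.ShortExact)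
    (i j : ℕ) (hij : i + 1 = j) (y : Hn H X.X₃ i) : coe H X.f j (δH H hX i j hij y) = 0 :=
  (exact_δH_coe H hX i j hij _).2 ⟨y, rfl⟩

/-- If `Hⁱ(H, X₂) = 0` then `δ : Hⁱ(H, X₃) → Hʲ(H, X₁)` is injective. -/
lemma δH_injective (H : Subgroup Γ) {X : ShortComplex (Rep.{0} ℤ Γ)} (hX : X.ShortExact)
    (i j : ℕ) (hij : i + 1 = j) (h0 : ∀ y : Hn H X.X₂ i, y = 0) :
    Function.Injective (δH H hX i j hij) := by
  rw [injective_iff_map_eq_zero]
  intro x hx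
  obtain ⟨y, rfl⟩ := (exact_coe_δH H hX i j hij x).1 hx
  rw [h0 y, map_zero]

/-- If `Hʲ(H, X₂) = 0` then `δ : Hⁱ(H, X₃) → Hʲ(H, X₁)` is surjective. -/
lemma δH_surjective (H : Subgroup Γ) {X : ShortComplex (Rep.{0} ℤ Γ)} (hX : X.ShortExact)
    (i j : ℕ) (hij : i + 1 = j) (h0 : ∀ y : Hn H X.X₂ j, y = 0) :
    Function.Surjective (δH H hX i j hij) := fun x =>
  (exact_δH_coe H hX i j hij x).1 (h0 _)

/-- **Naturality of `δ`** under the general map `mapSub`: for short exact sequences `X` of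
`Γ`-modules and `X'` of `Γ'`-modules and semilinear maps `t₁, t₂, t₃` forming a morphism of
sequences, `δ ∘ mapSub t₃ = mapSub t₁ ∘ δ`. -/
lemma δH_mapSub (π : Γ' →* Γ) (H : Subgroup Γ) (H' : Subgroup Γ') (hH : H' ≤ H.comap π)
    {X : ShortComplex (Rep.{0} ℤ Γ)} {X' : ShortComplex (Rep.{0} ℤ Γ')}
    (hX : X.ShortExact) (hX' : X'.ShortExact)
    (t₁ : Rep.res π X.X₁ ⟶ X'.X₁) (t₂ : Rep.res π X.X₂ ⟶ X'.X₂) (t₃ : Rep.res π X.X₃ ⟶ X'.X₃)
    (hf : ∀ x : X.X₁.V, X'.f.hom (t₁.hom x) = t₂.hom (X.f.hom x))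
    (hg : ∀ x : X.X₂.V, X'.g.hom (t₂.hom x) = t₃.hom (X.g.hom x))
    (i j : ℕ) (hij : i + 1 = j) (x : Hn H X.X₃ i) :
    δH H' hX' i j hij (mapSub π H H' hH t₃ i x) =
      mapSub π H H' hH t₁ j (δH H hX i j hij x) := by
  let Φ : (resSC H X).map (Rep.resFunctor (homSub π H H' hH)) ⟶ resSC H' X' :=
    { τ₁ := semiGen π H H' hH t₁
      τ₂ := semiGen π H H' hH t₂
      τ₃ := semiGen π H H' hH t₃
      comm₁₂ := by
        apply Rep.hom_ext
        apply DFunLike.ext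
        intro x
        exact hf x
      comm₂₃ := by
        apply Rep.hom_ext
        apply DFunLike.ext
        intro x
        exact hg x }
  have key := Fermat.Agent.S55.H783.δ_naturality_map (homSub π H H' hH)
    (resSC_shortExact H hX) (resSC_shortExact H' hX') Φ i j hij
  exact (congrArg (fun φ => φ.hom x) key).symm

/-- `δ` commutes with `infSub`. -/
lemma δH_infSub (π : Γ' →* Γ) (H : Subgroup Γ)
    {X : ShortComplex (Rep.{0} ℤ Γ)} {X' : ShortComplex (Rep.{0} ℤ Γ')}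
    (hX : X.ShortExact) (hX' : X'.ShortExact)
    (t₁ : Rep.res π X.X₁ ⟶ X'.X₁) (t₂ : Rep.res π X.X₂ ⟶ X'.X₂) (t₃ : Rep.res π X.X₃ ⟶ X'.X₃)
    (hf : ∀ x : X.X₁.V, X'.f.hom (t₁.hom x) = t₂.hom (X.f.hom x))
    (hg : ∀ x : X.X₂.V, X'.g.hom (t₂.hom x) = t₃.hom (X.g.hom x))
    (i j : ℕ) (hij : i + 1 = j) (x : Hn H X.X₃ i) :
    δH (H.comap π) hX' i j hij (infSub π H t₃ i x) = infSub π H t₁ j (δH H hX i j hij x) := by
  rw [infSub_eq_mapSub, infSub_eq_mapSub]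
  exact δH_mapSub π H (H.comap π) le_rfl hX hX' t₁ t₂ t₃ hf hg i j hij x

/-- `δ` commutes with restriction to `P ≤ H`. -/
lemma δH_resTo {P H : Subgroup Γ} (hPH : P ≤ H) {X : ShortComplex (Rep.{0} ℤ Γ)}
    (hX : X.ShortExact) (i j : ℕ) (hij : i + 1 = j) (x : Hn H X.X₃ i) :
    δH P hX i j hij (resTo hPH X.X₃ i x) = resTo hPH X.X₁ j (δH H hX i j hij x) :=
  δH_mapSub (MonoidHom.id Γ) H P (fun _ hx => hPH hx) hX hX (idRes X.X₁) (idRes X.X₂)
    (idRes X.X₃) (fun _ => rfl) (fun _ => rfl) i j hij x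

/-- `δ` commutes with the cast between equal subgroups. -/
lemma δH_castHn {H₁ H₂ : Subgroup Γ} (e : H₁ = H₂) {X : ShortComplex (Rep.{0} ℤ Γ)}
    (hX : X.ShortExact) (i j : ℕ) (hij : i + 1 = j) (x : Hn H₁ X.X₃ i) :
    δH H₂ hX i j hij (castHn e X.X₃ i x) = castHn e X.X₁ j (δH H₁ hX i j hij x) :=
  δH_resTo _ hX i j hij x

end LES

end General

/-! ## 3. The tower -/

set_option maxHeartbeats 400000

section Tower

variable {S : Finset Nat.Primes}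

lemma proj_trans {L L' L'' : Level S} (h : L ≤ L') (h' : L' ≤ L'') (g : L''.Gal) :
    Level.proj (h.trans h') g = Level.proj h (Level.proj h' g) := by
  induction g using QuotientGroup.induction_on with
  | H g => rfl

/-- `Gal(F''/K)` computed in two steps. -/
lemma up_up {L L' L'' : Level S} (h : L ≤ L') (h' : L' ≤ L'') (H : Subgroup L.Gal) :
    up h' (up h H) = up (h.trans h') H := by
  ext g
  show Level.proj h (Level.proj h' g) ∈ H ↔ Level.proj (h.trans h') g ∈ H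
  rw [proj_trans h h' g]

/-- `up` along `L ≤ L` is the identity. -/
lemma up_refl {L : Level S} (H : Subgroup L.Gal) : up (le_refl L) H = H := by
  ext g
  show Level.proj (le_refl L) g ∈ H ↔ g ∈ H
  have : Level.proj (le_refl L) g = g := by
    induction g using QuotientGroup.induction_on with
    | H g => rfl
  rw [this]

lemma up_mono {L L' : Level S} (h : L ≤ L') {P H : Subgroup L.Gal} (hPH : P ≤ H) :
    up h P ≤ up h H := Subgroup.comap_mono hPH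

/-- **Transitivity of inflation** (`infUp ∘ infUp = infUp`, up to the cast between the equal
subgroups `up h' (up h H)` and `up (h.trans h') H`). -/
lemma infUp_trans {L L' L'' : Level S} (h : L ≤ L') (h' : L' ≤ L'') (H : Subgroup L.Gal)
    {A : Rep.{0} ℤ L.Gal} {A' : Rep.{0} ℤ L'.Gal} {A'' : Rep.{0} ℤ L''.Gal}
    (t : Rep.res (Level.proj h) A ⟶ A') (t' : Rep.res (Level.proj h') A' ⟶ A'')
    (s : Rep.res (Level.proj (h.trans h')) A ⟶ A'')
    (hs : ∀ x : A.V, s.hom x = t'.hom (t.hom x)) (n : ℕ) (x : Hn H A n) :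
    castHn (up_up h h' H) A'' n (infUp h' (up h H) t' n (infUp h H t n x)) =
      infUp (h.trans h') H s n x := by
  show castHn (up_up h h' H) A'' n
    (infSub (Level.proj h') (up h H) t' n (infSub (Level.proj h) H t n x)) =
      infSub (Level.proj (h.trans h')) H s n x
  rw [castHn_apply, infSub_eq_mapSub, infSub_eq_mapSub, infSub_eq_mapSub, resTo_mapSub]
  exact mapSub_comp (Level.proj h) (Level.proj h') (Level.proj (h.trans h'))
    (fun g => proj_trans h h' g) H _ _ _ _ _ t t' s hs n x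

/-- If `x` dies at level `L'`, it dies at every `L'' ≥ L'`. -/
lemma infUp_trans_eq_zero {L L' L'' : Level S} (h : L ≤ L') (h' : L' ≤ L'') (H : Subgroup L.Gal)
    {A : Rep.{0} ℤ L.Gal} {A' : Rep.{0} ℤ L'.Gal} {A'' : Rep.{0} ℤ L''.Gal}
    (t : Rep.res (Level.proj h) A ⟶ A') (t' : Rep.res (Level.proj h') A' ⟶ A'')
    (s : Rep.res (Level.proj (h.trans h')) A ⟶ A'')
    (hs : ∀ x : A.V, s.hom x = t'.hom (t.hom x)) (n : ℕ) (x : Hn H A n)
    (hx : infUp h H t n x = 0) : infUp (h.trans h') H s n x = 0 := by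
  rw [← infUp_trans h h' H t t' s hs n x, hx, map_zero, map_zero]

/-- If the inflation of `infUp x` dies, then an inflation of `x` dies. -/
lemma infUp_eq_zero_of_infUp {L L' L'' : Level S} (h : L ≤ L') (h' : L' ≤ L'')
    (H : Subgroup L.Gal)
    {A : Rep.{0} ℤ L.Gal} {A' : Rep.{0} ℤ L'.Gal} {A'' : Rep.{0} ℤ L''.Gal}
    (t : Rep.res (Level.proj h) A ⟶ A') (t' : Rep.res (Level.proj h') A' ⟶ A'')
    (s : Rep.res (Level.proj (h.trans h')) A ⟶ A'')
    (hs : ∀ x : A.V, s.hom x = t'.hom (t.hom x)) (n : ℕ) (x : Hn H A n)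
    (hx : infUp h' (up h H) t' n (infUp h H t n x) = 0) : infUp (h.trans h') H s n x = 0 := by
  rw [← infUp_trans h h' H t t' s hs n x, hx, map_zero]

/-- If `infUp x = m • w` at level `L'`, the same holds at every `L'' ≥ L'`. -/
lemma infUp_trans_eq_smul {L L' L'' : Level S} (h : L ≤ L') (h' : L' ≤ L'') (H : Subgroup L.Gal)
    {A : Rep.{0} ℤ L.Gal} {A' : Rep.{0} ℤ L'.Gal} {A'' : Rep.{0} ℤ L''.Gal}
    (t : Rep.res (Level.proj h) A ⟶ A') (t' : Rep.res (Level.proj h') A' ⟶ A'')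
    (s : Rep.res (Level.proj (h.trans h')) A ⟶ A'')
    (hs : ∀ x : A.V, s.hom x = t'.hom (t.hom x)) (n : ℕ) (x : Hn H A n) (m : ℕ)
    (w : Hn (up h H) A' n) (hx : infUp h H t n x = m • w) :
    infUp (h.trans h') H s n x =
      m • castHn (up_up h h' H) A'' n (infUp h' (up h H) t' n w) := by
  rw [← infUp_trans h h' H t t' s hs n x, hx, map_nsmul, map_nsmul]

/-- Inflation preserves `p`-primary torsion. -/
lemma isPPrim_map {p : ℕ} {A B : Type} [AddCommGroup A] [AddCommGroup B] (f : A →+ B)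
    {x : A} (hx : IsPPrim p x) : IsPPrim p (f x) := by
  obtain ⟨k, hk⟩ := hx
  exact ⟨k, by rw [← map_nsmul, hk, map_zero]⟩

lemma isPPrim_infUp {p : ℕ} {L L' : Level S} (h : L ≤ L') (H : Subgroup L.Gal)
    {A : Rep.{0} ℤ L.Gal} {A' : Rep.{0} ℤ L'.Gal} (t : Rep.res (Level.proj h) A ⟶ A') (n : ℕ)
    {x : Hn H A n} (hx : IsPPrim p x) : IsPPrim p (infUp h H t n x) :=
  isPPrim_map (infUp h H t n).toAddMonoidHom hx

lemma isPPrim_coe {p : ℕ} {Γ : Type} [Group Γ] (H : Subgroup Γ) {A B : Rep.{0} ℤ Γ} (f : A ⟶ B)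
    (n : ℕ) {x : Hn H A n} (hx : IsPPrim p x) : IsPPrim p (coe H f n x) :=
  isPPrim_map (coe H f n).toAddMonoidHom hx

lemma isPPrim_castHn {p : ℕ} {Γ : Type} [Group Γ] {H₁ H₂ : Subgroup Γ} (e : H₁ = H₂)
    (A : Rep.{0} ℤ Γ) (n : ℕ) {x : Hn H₁ A n} (hx : IsPPrim p x) :
    IsPPrim p (castHn e A n x) :=
  isPPrim_map (castHn e A n).toLinearMap.toAddMonoidHom hx

/-- **Naturality of `infUp` in the coefficients.** -/
lemma coe_infUp {L L' : Level S} (h : L ≤ L') (H : Subgroup L.Gal)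
    {A B : Rep.{0} ℤ L.Gal} {A' B' : Rep.{0} ℤ L'.Gal} (f : A ⟶ B) (f' : A' ⟶ B')
    (t : Rep.res (Level.proj h) A ⟶ A') (s : Rep.res (Level.proj h) B ⟶ B')
    (hsq : ∀ x : A.V, f'.hom (t.hom x) = s.hom (f.hom x)) (n : ℕ) (x : Hn H A n) :
    coe (up h H) f' n (infUp h H t n x) = infUp h H s n (coe H f n x) :=
  coe_infSub (Level.proj h) H f f' t s hsq n x

/-- `infUp` commutes with restriction to a subgroup `P ≤ H`. -/
lemma resTo_infUp {L L' : Level S} (h : L ≤ L') {P H : Subgroup L.Gal} (hPH : P ≤ H)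
    {A : Rep.{0} ℤ L.Gal} {A' : Rep.{0} ℤ L'.Gal} (t : Rep.res (Level.proj h) A ⟶ A') (n : ℕ)
    (x : Hn H A n) :
    resTo (up_mono h hPH) A' n (infUp h H t n x) = infUp h P t n (resTo hPH A n x) :=
  resTo_infSub (Level.proj h) hPH t n x

/-! ### The transition maps of the tower objects -/

lemma trS_trans {L L' L'' : Level S} (h : L ≤ L') (h' : L' ≤ L'') (e : (E1.Lim.sUnits L).V) :
    (E1.Lim.trS (h.trans h')).hom e = (E1.Lim.trS h').hom ((E1.Lim.trS h).hom e) :=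
  E1.Lim.sIncl_injective L'' rfl

lemma trJ_trans {L L' L'' : Level S} (h : L ≤ L') (h' : L' ≤ L'') (q : Nat.Primes)
    (x : (L.J q).V) :
    (Level.trJ (h.trans h') q).hom x = (Level.trJ h' q).hom ((Level.trJ h q).hom x) := by
  apply L''.J_ext q
  intro g
  show Level.inclLoc (h.trans h') q (L.Jeval q x (Level.proj (h.trans h') g)) =
    Level.inclLoc h' q (Level.inclLoc h q (L.Jeval q x (Level.proj h (Level.proj h' g))))
  rw [proj_trans h h' g]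
  apply L''.locCoe_injective q
  rfl

lemma trJtot_trans {L L' L'' : Level S} (h : L ≤ L') (h' : L' ≤ L'') (x : (E1.Lim.Jtot L).V) :
    (E1.Lim.trJtot (h.trans h')).hom x =
      (E1.Lim.trJtot h').hom ((E1.Lim.trJtot h).hom x) := by
  apply E1.Lim.piRep_ext
  intro q
  exact trJ_trans h h' q.1 (E1.Lim.piTo x q)

/-- GD7b: transitivity of the transition maps of `C`. -/
def TrTrans (D : TowerDatum S) : Prop :=
  ∀ {L L' L'' : Level S} (h : L ≤ L') (h' : L' ≤ L'') (c : (D.C L).V),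
    (D.tr h').hom ((D.tr h).hom c) = (D.tr (h.trans h')).hom c

lemma trC1_trans {D : TowerDatum S} (h7 : E1.Lim.TrCompat D) (h7b : TrTrans D)
    {L L' L'' : Level S} (h : L ≤ L') (h' : L' ≤ L'') (c : (E1.Lim.C1 D L).V) :
    (E1.Lim.trC1 h7 (h.trans h')).hom c =
      (E1.Lim.trC1 h7 h').hom ((E1.Lim.trC1 h7 h).hom c) := by
  apply E1.Lim.inclC1_injective D L''
  rw [E1.Lim.inclC1_trC1, E1.Lim.inclC1_trC1, E1.Lim.inclC1_trC1]
  exact (h7b h h' _).symm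

/-- The transition maps commute with the diagonal `E(F) → J(F)`. -/
lemma trJtot_diagTot {L L' : Level S} (h : L ≤ L') (e : (E1.Lim.sUnits L).V) :
    (E1.Lim.trJtot h).hom ((E1.Lim.diagTot L).hom e) =
      (E1.Lim.diagTot L').hom ((E1.Lim.trS h).hom e) := by
  apply E1.Lim.piRep_ext
  intro q
  apply L'.J_ext q.1
  intro g'
  have h1 : L'.units.ρ g' ((Level.trUnits h).hom ((E1.Lim.sIncl L).hom e)) =
      (Level.trUnits h).hom (L.units.ρ (Level.proj h g') ((E1.Lim.sIncl L).hom e)) :=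
    (Rep.hom_comm_apply (Level.trUnits h) g' _).symm
  show Level.inclLoc h q.1 (L.embFun q.1 (L.units.ρ (Level.proj h g')
      ((E1.Lim.sIncl L).hom e))) =
    L'.embFun q.1 (L'.units.ρ g' ((Level.trUnits h).hom ((E1.Lim.sIncl L).hom e)))
  rw [h1]
  apply L'.locCoe_injective q.1
  rfl

/-! ### The four squares on cohomology -/

/-- `Hⁿ(E) → Hⁿ(J)` commutes with inflation. -/
lemma coe_diagTot_infUp {L L' : Level S} (h : L ≤ L') (H : Subgroup L.Gal) (n : ℕ)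
    (x : Hn H (E1.Lim.sUnits L) n) :
    coe (up h H) (E1.Lim.diagTot L') n (infUp h H (E1.Lim.trS h) n x) =
      infUp h H (E1.Lim.trJtot h) n (coe H (E1.Lim.diagTot L) n x) :=
  coe_infUp h H _ _ _ _ (fun e => (trJtot_diagTot h e).symm) n x

/-- `Hⁿ(J) → Hⁿ(C')` commutes with inflation. -/
lemma coe_jC1_infUp {D : TowerDatum S} (h7 : E1.Lim.TrCompat D) {L L' : Level S} (h : L ≤ L')
    (H : Subgroup L.Gal) (n : ℕ) (x : Hn H (E1.Lim.Jtot L) n) :
    coe (up h H) (E1.Lim.jC1 D L') n (infUp h H (E1.Lim.trJtot h) n x) =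
      infUp h H (E1.Lim.trC1 h7 h) n (coe H (E1.Lim.jC1 D L) n x) :=
  coe_infUp h H _ _ _ _ (fun e => (E1.Lim.trC1_jC1 h7 h e).symm) n x

/-- `Hⁿ(C') → Hⁿ(C)` commutes with inflation. -/
lemma coe_inclC1_infUp {D : TowerDatum S} (h7 : E1.Lim.TrCompat D) {L L' : Level S}
    (h : L ≤ L') (H : Subgroup L.Gal) (n : ℕ) (x : Hn H (E1.Lim.C1 D L) n) :
    coe (up h H) (E1.Lim.inclC1 D L') n (infUp h H (E1.Lim.trC1 h7 h) n x) =
      infUp h H (D.tr h) n (coe H (E1.Lim.inclC1 D L) n x) :=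
  coe_infUp h H _ _ _ _ (fun e => E1.Lim.inclC1_trC1 h7 h e) n x

/-- `Hⁿ(J) → Hⁿ(C)` commutes with inflation. -/
lemma coe_jTot_infUp {D : TowerDatum S} (h7 : E1.Lim.TrCompat D) {L L' : Level S} (h : L ≤ L')
    (H : Subgroup L.Gal) (n : ℕ) (x : Hn H (E1.Lim.Jtot L) n) :
    coe (up h H) (E1.Lim.jTot D L') n (infUp h H (E1.Lim.trJtot h) n x) =
      infUp h H (D.tr h) n (coe H (E1.Lim.jTot D L) n x) :=
  coe_infUp h H _ _ _ _ (fun e => (E1.Lim.tr_jTot h7 h e).symm) n x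

/-! ### The long exact sequence of `0 → E(F) → J(F) → C'(F) → 0` over `H`

`hses L : (ses h4 L).ShortExact` is leaf `SES` (`SesExact`). -/

section Ses

variable {D : TowerDatum S}

/-- The connecting map `Hⁱ(H, C'(F)) → Hʲ(H, E(F))`, `j = i + 1`. -/
def δS (h4 : E1.Lim.KerDiag D) (hses : ∀ L : Level S, (E1.Lim.ses h4 L).ShortExact)
    (L : Level S) (H : Subgroup L.Gal) (i j : ℕ) (hij : i + 1 = j) :
    Hn H (E1.Lim.C1 D L) i →ₗ[ℤ] Hn H (E1.Lim.sUnits L) j :=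
  δH (X := E1.Lim.ses h4 L) H (hses L) i j hij

/-- `δ` commutes with inflation in the tower. -/
lemma δS_infUp (h4 : E1.Lim.KerDiag D) (h7 : E1.Lim.TrCompat D)
    (hses : ∀ L : Level S, (E1.Lim.ses h4 L).ShortExact)
    {L L' : Level S} (h : L ≤ L') (H : Subgroup L.Gal) (i j : ℕ) (hij : i + 1 = j)
    (x : Hn H (E1.Lim.C1 D L) i) :
    δS h4 hses L' (up h H) i j hij (infUp h H (E1.Lim.trC1 h7 h) i x) =
      infUp h H (E1.Lim.trS h) j (δS h4 hses L H i j hij x) :=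
  δH_infSub (X := E1.Lim.ses h4 L) (X' := E1.Lim.ses h4 L') (Level.proj h) H (hses L) (hses L')
    (E1.Lim.trS h) (E1.Lim.trJtot h)
    (E1.Lim.trC1 h7 h) (fun e => (trJtot_diagTot h e).symm)
    (fun e => (E1.Lim.trC1_jC1 h7 h e).symm) i j hij x

/-- `δ` commutes with the cast between equal subgroups. -/
lemma δS_castHn (h4 : E1.Lim.KerDiag D) (hses : ∀ L : Level S, (E1.Lim.ses h4 L).ShortExact)
    (L : Level S) {H₁ H₂ : Subgroup L.Gal} (e : H₁ = H₂) (i j : ℕ)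
    (hij : i + 1 = j) (x : Hn H₁ (E1.Lim.C1 D L) i) :
    δS h4 hses L H₂ i j hij (castHn e _ i x) = castHn e _ j (δS h4 hses L H₁ i j hij x) :=
  δH_castHn (X := E1.Lim.ses h4 L) e (hses L) i j hij x

/-- Exactness at `Hⁱ(H, J(F))`. -/
lemma exact_J (h4 : E1.Lim.KerDiag D) (hses : ∀ L : Level S, (E1.Lim.ses h4 L).ShortExact)
    (L : Level S) (H : Subgroup L.Gal) (i : ℕ) (x : Hn H (E1.Lim.Jtot L) i) :
    coe H (E1.Lim.jC1 D L) i x = 0 ↔
      ∃ y : Hn H (E1.Lim.sUnits L) i, coe H (E1.Lim.diagTot L) i y = x :=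
  exact_coe_coe (X := E1.Lim.ses h4 L) H (hses L) i x

/-- Exactness at `Hⁱ(H, C'(F))`. -/
lemma exact_C1 (h4 : E1.Lim.KerDiag D) (hses : ∀ L : Level S, (E1.Lim.ses h4 L).ShortExact)
    (L : Level S) (H : Subgroup L.Gal) (i j : ℕ) (hij : i + 1 = j)
    (x : Hn H (E1.Lim.C1 D L) i) :
    δS h4 hses L H i j hij x = 0 ↔
      ∃ y : Hn H (E1.Lim.Jtot L) i, coe H (E1.Lim.jC1 D L) i y = x :=
  exact_coe_δH (X := E1.Lim.ses h4 L) H (hses L) i j hij x

/-- Exactness at `Hʲ(H, E(F))`. -/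
lemma exact_E (h4 : E1.Lim.KerDiag D) (hses : ∀ L : Level S, (E1.Lim.ses h4 L).ShortExact)
    (L : Level S) (H : Subgroup L.Gal) (i j : ℕ) (hij : i + 1 = j)
    (x : Hn H (E1.Lim.sUnits L) j) :
    coe H (E1.Lim.diagTot L) j x = 0 ↔
      ∃ y : Hn H (E1.Lim.C1 D L) i, δS h4 hses L H i j hij y = x :=
  exact_δH_coe (X := E1.Lim.ses h4 L) H (hses L) i j hij x

end Ses

end Tower



end

end Fermat.Agent.S55.K.AR.H961
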