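import Fermat.Agent.S55.K.AR.Spec
import Fermat.Agent.S55.E1.H354.Lim1

/-!
# S55 / layer K / block AR, leaf AR-SES (helper73): `sesLeaf : SesLeaf S p`

`0 → E(F) → J(F) → C'(F) → 0` is short exact at every level: this is helper354's
`E1.H354.ses_shortExact` (GD4 + `S ≠ ∅`), with `S ≠ ∅` supplied by `p ∈ S`.
-/

set_option autoImplicit false

namespace Fermat.Agent.S55.K.AR.H73

open Fermat.Agent.S55 Fermat.Agent.S55.Tow Fermat.Agent.S55.K.AR

/-- `S` is nonempty when it contains an admissible prime. -/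
theorem nonempty_of_adm {S : Finset Nat.Primes} {p : ℕ} (h : Adm S p) : S.Nonempty := by
  obtain ⟨hp, -, hmem⟩ := h
  exact ⟨_, hmem⟩

/-- **AR-SES.** -/
theorem sesLeaf (S : Finset Nat.Primes) (p : ℕ) : SesLeaf S p := fun c L =>
  E1.H354.ses_shortExact c.h4 (nonempty_of_adm c.adm) L

end Fermat.Agent.S55.K.AR.H73
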