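/-
S55 moonshot — LAYER K, block AR, leaves **AR-c** (`SurjJCLeaf`) and **AR-d** (`KerDivLeaf`).
helper939.  Blueprint: `coord/S55-K-AR.md` §2.

`surjJC : SurjJCLeaf S p`, `kerDiv : KerDivLeaf S p`.
-/
import Fermat.Agent.S55.K.AR.Spec
import Fermat.Agent.S55.T.CoresH572

set_option autoImplicit false

open CategoryTheory

namespace Fermat.Agent.S55.K.AR.H939

open Fermat.Agent.S55 Fermat.Agent.S55.Tow Fermat.Agent.S55.E1.Lim

noncomputable section

attribute [local instance 10000] Rep.hV2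

/-! ## Cyclic bookkeeping -/

/-- An integer multiple of a torsion element is a natural multiple. -/
lemma exists_nsmul_of_zsmul {A : Type*} [AddCommGroup A] (r : A) (N : ℕ) (hN : 0 < N)
    (h : N • r = 0) (t : ℤ) : ∃ t' : ℕ, t • r = t' • r := by
  refine ⟨(t % N).toNat, ?_⟩
  have hN' : (N : ℤ) ≠ 0 := by exact_mod_cast hN.ne'
  have h1 : ((t % N).toNat : ℤ) = t % N := Int.toNat_of_nonneg (Int.emod_nonneg _ hN')
  rw [← natCast_zsmul, h1]
  have h2 : t = t % N + (t / N) * N := by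
    have := Int.emod_add_mul_ediv t N
    linarith [mul_comm (t / N) (N : ℤ)]
  conv_lhs => rw [h2]
  rw [add_zsmul, mul_smul, natCast_zsmul, h, zsmul_zero, add_zero]

/-- In the cyclic group generated by a torsion element `g`: if `r = m • g` has order divisible by
`P` and `y = n • g` is killed by `P`, then `y` is a multiple of `r`. -/
lemma cyclic_span {A : Type*} [AddCommGroup A] (P : ℕ) (hP : 0 < P) (g : A) (M : ℕ)
    (hM : 0 < M) (hg : M • g = 0) (m n : ℕ)
    (hr : ∀ N : ℕ, N • (m • g) = 0 → P ∣ N) (hy : P • (n • g) = 0) :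
    ∃ t : ℕ, n • g = t • (m • g) := by
  set o := addOrderOf g with ho
  have hoM : o ∣ M := addOrderOf_dvd_of_nsmul_eq_zero hg
  have ho0 : 0 < o := Nat.pos_of_dvd_of_pos hoM hM
  have hog : o • g = 0 := addOrderOf_nsmul_eq_zero g
  set d := Nat.gcd m o with hd
  have hdo : d ∣ o := Nat.gcd_dvd_right m o
  have hdm : d ∣ m := Nat.gcd_dvd_left m o
  obtain ⟨N, hN⟩ := hdo
  obtain ⟨m', hm'⟩ := hdm
  have h1 : N • (m • g) = 0 := by
    rw [← mul_smul]
    have : N * m = m' * o := by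
      rw [hm', hN]; ring
    rw [this, mul_smul, hog, smul_zero]
  obtain ⟨N', hN'⟩ := hr N h1
  have h2 : o ∣ P * n := by
    apply addOrderOf_dvd_of_nsmul_eq_zero
    rw [mul_smul]
    exact hy
  have h3 : d ∣ n := by
    have h4 : P * (N' * d) ∣ P * n := by
      have : P * (N' * d) = o := by rw [hN, hN']; ring
      rw [this]; exact h2
    have h5 : N' * d ∣ n := Nat.dvd_of_mul_dvd_mul_left hP h4
    exact Dvd.dvd.trans (Dvd.intro_left N' rfl) h5
  obtain ⟨n', hn'⟩ := h3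
  have hbez : (d : ℤ) = Nat.gcdA m o * m + Nat.gcdB m o * o := by
    rw [Nat.gcd_eq_gcd_ab m o]; ring
  have h6 : d • g = (Nat.gcdA m o) • (m • g) := by
    rw [← natCast_zsmul, hbez, add_zsmul, mul_smul, mul_smul, natCast_zsmul, natCast_zsmul, hog,
      smul_zero, add_zero]
  have hMr : M • (m • g) = 0 := by
    rw [smul_comm, hg, smul_zero]
  obtain ⟨t, ht⟩ := exists_nsmul_of_zsmul (m • g) M hM hMr ((n' : ℤ) * Nat.gcdA m o)
  refine ⟨t, ?_⟩
  rw [← ht, hn', mul_comm d n', mul_smul, h6, mul_smul, natCast_zsmul]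

/-! ## Restriction, coefficient maps, inflation -/

section General

variable {Γ Γ' : Type} [Group Γ] [Group Γ']

/-- Restriction `Hⁿ(Γ, A) → Hⁿ(H, A)`. -/
abbrev resH (H : Subgroup Γ) (A : Rep.{0} ℤ Γ) (n : ℕ) : groupCohomology A n →ₗ[ℤ] Hn H A n :=
  (T.resMap A H n).hom

/-- Restriction commutes with coefficient maps. -/
lemma coe_resH (H : Subgroup Γ) {A B : Rep.{0} ℤ Γ} (f : A ⟶ B) (n : ℕ)
    (x : groupCohomology A n) :
    coe H f n (resH H A n x) = resH H B n ((T.coeffMap f n).hom x) := by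
  have h := (groupCohomology.resNatTrans (k := ℤ) H.subtype n).naturality f
  have h' := congrArg (fun φ => φ.hom x) h
  exact h'.symm

/-- `coe` is functorial. -/
lemma coe_comp (H : Subgroup Γ) {A B C : Rep.{0} ℤ Γ} (f : A ⟶ B) (g : B ⟶ C) (n : ℕ)
    (x : Hn H A n) : coe H (f ≫ g) n x = coe H g n (coe H f n x) := by
  have h : T.coeffMap ((Rep.resFunctor H.subtype).map (f ≫ g)) n =
      T.coeffMap ((Rep.resFunctor H.subtype).map f) n ≫
        T.coeffMap ((Rep.resFunctor H.subtype).map g) n := by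
    rw [Functor.map_comp]
    exact groupCohomology.map_id_comp _ _ n
  exact congrArg (fun φ => φ.hom x) h

/-- Inflation commutes with coefficient maps (for commuting squares of coefficients). -/
lemma coe_infSub (π : Γ' →* Γ) (H : Subgroup Γ) {A B : Rep.{0} ℤ Γ} {A' B' : Rep.{0} ℤ Γ'}
    (f : A ⟶ B) (f' : A' ⟶ B') (t : Rep.res π A ⟶ A') (s : Rep.res π B ⟶ B')
    (hsq : ∀ a : A.V, f'.hom (t.hom a) = s.hom (f.hom a)) (n : ℕ) (x : Hn H A n) :
    coe (H.comap π) f' n (infSub π H t n x) = infSub π H s n (coe H f n x) := by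
  have h1 : groupCohomology.map (projSub π H) (semiSub π H t) n ≫
      T.coeffMap ((Rep.resFunctor (H.comap π).subtype).map f') n =
      groupCohomology.map ((projSub π H).comp (MonoidHom.id _))
        ((Rep.resFunctor (MonoidHom.id _)).map (semiSub π H t) ≫
          (Rep.resFunctor (H.comap π).subtype).map f') n :=
    (groupCohomology.map_comp _ _ _ _ n).symm
  have h2 : T.coeffMap ((Rep.resFunctor H.subtype).map f) n ≫
      groupCohomology.map (projSub π H) (semiSub π H s) n =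
      groupCohomology.map ((MonoidHom.id _).comp (projSub π H))
        ((Rep.resFunctor (projSub π H)).map ((Rep.resFunctor H.subtype).map f) ≫
          semiSub π H s) n :=
    (groupCohomology.map_comp _ _ _ _ n).symm
  have h3 : groupCohomology.map ((projSub π H).comp (MonoidHom.id _))
        ((Rep.resFunctor (MonoidHom.id _)).map (semiSub π H t) ≫
          (Rep.resFunctor (H.comap π).subtype).map f') n =
      groupCohomology.map ((MonoidHom.id _).comp (projSub π H))
        ((Rep.resFunctor (projSub π H)).map ((Rep.resFunctor H.subtype).map f) ≫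
          semiSub π H s) n := by
    refine groupCohomology.map_congr rfl ?_ n
    refine LinearMap.ext fun a => ?_
    exact hsq a
  have h := congrArg (fun φ => φ.hom x) (h1.trans (h3.trans h2.symm))
  exact h

/-- The order of the restriction of a class to a subgroup of index prime to `P`. -/
lemma order_resH [Finite Γ] (H : Subgroup Γ) (A : Rep.{0} ℤ Γ) (P : ℕ)
    (hcop : Nat.Coprime H.index P) (κ : groupCohomology A 2)
    (hκ : ∀ n : ℕ, n • κ = 0 → P ∣ n) :
    ∀ n : ℕ, n • resH H A 2 κ = 0 → P ∣ n := by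
  intro n hn
  have h1 : (T.resMap A H 2).hom (n • κ) = 0 := by
    have : resH H A 2 (n • κ) = n • resH H A 2 κ := map_nsmul _ _ _
    exact this.trans hn
  have h2 := T.H572.resIndex ℤ Γ A H 2 (by norm_num) (n • κ) h1
  rw [← mul_smul] at h2
  exact Nat.Coprime.dvd_of_dvd_mul_left hcop.symm (hκ _ h2)

end General

/-! ## The tower -/

section Tower

variable {S : Finset Nat.Primes} {p : ℕ}

lemma proj_surjective {L L' : Level S} (h : L ≤ L') : Function.Surjective (Level.proj h) := by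
  intro g
  induction g using QuotientGroup.induction_on with
  | H a => exact ⟨QuotientGroup.mk a, rfl⟩

lemma index_up {L L' : Level S} (h : L ≤ L') (H : Subgroup L.Gal) :
    (up h H).index = H.index :=
  Subgroup.index_comap_of_surjective H (proj_surjective h)

lemma inclJ_jTot (D : TowerDatum S) (L : Level S) (q : S) :
    inclJ L q ≫ jTot D L = D.j L q.1 := by
  apply Rep.hom_ext
  apply DFunLike.ext
  intro x
  exact jTot_inclJ D L q x

/-- `jTot_* (inclJ_* (res v)) = res (j_* v)`. -/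
lemma coe_jTot_inclJ_res (D : TowerDatum S) (L : Level S) (q : S) (H : Subgroup L.Gal)
    (v : groupCohomology (L.J q.1) 2) :
    coe H (jTot D L) 2 (coe H (inclJ L q) 2 (resH H (L.J q.1) 2 v)) =
      resH H (D.C L) 2 ((T.coeffMap (D.j L q.1) 2).hom v) := by
  rw [← coe_comp, inclJ_jTot, coe_resH]

/-- Common core of (c) and (d): a class of `H²(H', C(F'))` killed by `p^b` is `jTot_*` of a
class of `H²(H', J(F'))` killed by `p^b`, as soon as `p^b` divides the local degree at `p`. -/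
lemma exists_lift (c : Ctx S p) (hcyc : H2CCyclic c) (hkap : Kappa c) (L : Level S)
    (hmu : L.HasMu p) (H : Subgroup L.Gal) (hcop : Nat.Coprime H.index p) (b : ℕ)
    (hdeg : ∀ q ∈ S, p ^ b ∣ Nat.card (L.Dec q)) (x : Hn H (c.D.C L) 2) (hx : p ^ b • x = 0) :
    ∃ y : Hn H (Jtot L) 2, p ^ b • y = 0 ∧ coe H (jTot c.D L) 2 y = x := by
  obtain ⟨hp, -, hpS⟩ := c.adm
  obtain ⟨v, hv, hv'⟩ := hkap L hmu ⟨p, hp⟩ hpS b (hdeg _ hpS)
  have hPpos : 0 < p ^ b := pow_pos hp.pos b
  have hcop' : Nat.Coprime H.index (p ^ b) := Nat.Coprime.pow_right b hcop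
  have hr := order_resH H (c.D.C L) (p ^ b) hcop' _ hv'
  obtain ⟨g, ⟨M, hM⟩, hgen⟩ := hcyc L hmu H
  have hrp : p ^ b • resH H (c.D.C L) 2 ((T.coeffMap (c.D.j L ⟨p, hp⟩) 2).hom v) = 0 := by
    rw [← map_nsmul, ← map_nsmul, hv, map_zero, map_zero]
  obtain ⟨m, hm⟩ := hgen _ ⟨b, hrp⟩
  obtain ⟨n, hn⟩ := hgen x ⟨b, hx⟩
  obtain ⟨t, ht⟩ := cyclic_span (p ^ b) hPpos g (p ^ M) (pow_pos hp.pos M) hM m n
    (by rw [← hm]; exact hr) (by rw [← hn]; exact hx)
  refine ⟨coe H (inclJ L ⟨⟨p, hp⟩, hpS⟩) 2 (t • resH H (L.J ⟨p, hp⟩) 2 v), ?_, ?_⟩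
  · rw [← map_nsmul, smul_comm, ← map_nsmul, hv, map_zero, smul_zero, map_zero]
  · rw [map_nsmul, map_nsmul, coe_jTot_inclJ_res c.D L ⟨⟨p, hp⟩, hpS⟩ H v, hn, ht, hm]

/-- Leaf **AR-c**. -/
theorem surjJC : SurjJCLeaf S p := by
  intro c hcyc hkap hdec L hmu H hcop x hx
  obtain ⟨b, hb⟩ := hx
  obtain ⟨L', hLL', hdeg⟩ := hdec L b
  have hmu' : L'.HasMu p := hmu.mono hLL'
  have hcop' : Nat.Coprime (up hLL' H).index p := by rw [index_up]; exact hcop
  have hxinf : p ^ b • infUp hLL' H (c.D.tr hLL') 2 x = 0 := by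
    rw [← map_nsmul, hb, map_zero]
  obtain ⟨y, -, hy⟩ := exists_lift c hcyc hkap L' hmu' (up hLL' H) hcop' b hdeg _ hxinf
  exact ⟨L', hLL', y, hy.symm⟩

/-- Leaf **AR-d**. -/
theorem kerDiv : KerDivLeaf S p := by
  intro c hcyc hkap hdec hdiv L hmu H hcop x hx hxj
  obtain ⟨hp, -, hpS⟩ := c.adm
  obtain ⟨b, hb⟩ := hx
  -- `[G : H] ≤ p ^ c'`
  obtain ⟨c', hc'⟩ : ∃ c' : ℕ, H.index ≤ p ^ c' :=
    ⟨H.index, (Nat.lt_pow_self hp.one_lt).le⟩
  obtain ⟨L', hLL', hdeg⟩ := hdec L (b + 1 + c')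
  have hmu' : L'.HasMu p := hmu.mono hLL'
  have hidx : (up hLL' H).index = H.index := index_up hLL' H
  have hcop' : Nat.Coprime (up hLL' H).index p := by rw [hidx]; exact hcop
  have hxinf : p ^ b • infUp hLL' H (trJtot hLL') 2 x = 0 := by
    rw [← map_nsmul, hb, map_zero]
  obtain ⟨z, hz⟩ := hdiv L' (up hLL' H) b c' (by rw [hidx]; exact hc') hdeg _ hxinf
  -- `jTot_* z` is killed by `p`
  have hsq : ∀ a : (Jtot L).V,
      (jTot c.D L').hom ((trJtot hLL').hom a) = (c.D.tr hLL').hom ((jTot c.D L).hom a) :=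
    fun a => (tr_jTot c.h7 hLL' a).symm
  have hjz : p ^ 1 • coe (up hLL' H) (jTot c.D L') 2 z = 0 := by
    rw [pow_one, ← map_nsmul, hz]
    have := coe_infSub (Level.proj hLL') H (jTot c.D L) (jTot c.D L') (trJtot hLL')
      (c.D.tr hLL') hsq 2 x
    rw [this, hxj, map_zero]
  have hdeg1 : ∀ q ∈ S, p ^ 1 ∣ Nat.card (L'.Dec q) := fun q hq =>
    Dvd.dvd.trans (pow_dvd_pow p (by omega)) (hdeg q hq)
  obtain ⟨w, hw, hwj⟩ := exists_lift c hcyc hkap L' hmu' (up hLL' H) hcop' 1 hdeg1 _ hjz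
  rw [pow_one] at hw
  refine ⟨L', hLL', z - w, ?_, ?_⟩
  · rw [smul_sub, hw, sub_zero, hz]
  · rw [map_sub, hwj, sub_self]

end Tower

end

end Fermat.Agent.S55.K.AR.H939
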